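import Fermat.Agent.RTLift.Setup.Ctx

/-!
# The places of the indices
-/

set_option autoImplicit false

noncomputable section

namespace FermatAgent.RTLift.Setup

open IsLocalRing

namespace Ctx

variable {O : Type} [CommRing O] [IsLocalRing O] [IsAdicComplete (maximalIdeal O) O]
  {p r : ℕ} [Fact p.Prime] [Algebra (ZMod p) (ResidueField O)] {I : Type} [Fintype I]
  (C : Ctx O p r I)

theorem place_injective : Function.Injective C.place := by
  rintro (_ | i) (_ | j) h
  · rfl
  · exact absurd (congrArg Subtype.val h.symm) (C.Fr.ne j)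
  · exact absurd (congrArg Subtype.val h) (C.Fr.ne i)
  · exact congrArg some (C.Fr.injective h)

theorem place_mem_support : ∀ i : Option I, C.place i ∈ C.Fr.support
  | none => Finset.mem_insert_self _ _
  | some i => Finset.mem_insert_of_mem (Finset.mem_image_of_mem _ (Finset.mem_univ i))

/-- A prime divides the modulus of a level only as one of its places. -/
theorem exists_place_of_dvd_base {q : ℕ} (hq : q.Prime) :
    ∀ {L : List (Option I)}, q ∣ C.base L → ∃ i ∈ L, (C.place i : ℕ) = q
  | [], h => absurd h hq.not_dvd_one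
  | i :: L, h => by
    rcases hq.dvd_mul.1 h with h | h
    · obtain ⟨j, hj, e⟩ := exists_place_of_dvd_base hq h
      exact ⟨j, List.mem_cons_of_mem _ hj, e⟩
    · exact ⟨i, List.mem_cons_self, ((Nat.prime_dvd_prime_iff_eq hq (C.place i).2).1 h).symm⟩

/-- The modulus of a level is squarefree. -/
theorem squarefree_base : ∀ {L : List (Option I)}, L.Nodup → Squarefree (C.base L)
  | [], _ => squarefree_one
  | i :: L, h => by
    obtain ⟨hi, hL⟩ := List.nodup_cons.1 h
    refine (Nat.squarefree_mul (Nat.Coprime.symm ?_)).2 ⟨squarefree_base hL, (C.place i).2.squarefree⟩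
    refine (Nat.Prime.coprime_iff_not_dvd (C.place i).2).2 fun hd => ?_
    obtain ⟨j, hj, e⟩ := C.exists_place_of_dvd_base (C.place i).2 hd
    exact hi (C.place_injective (Subtype.ext e) ▸ hj)

end Ctx

end FermatAgent.RTLift.Setup
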