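import Fermat.Agent.RTLift.Setup.Ctx
import Fermat.Agent.RTLift.Setup.Places
import Fermat.Agent.RTLift.Engine.BaseChange
import Fermat.Agent.RTLift.Engine.WallMaps
import Fermat.Agent.RTLift.Old.TWPrime

/-!
# The patched modules over the base 

Goodness of the characters, freeness, the projection to the base level, and the inverses at walls.
-/

set_option autoImplicit false

noncomputable section

namespace FermatAgent.RTLift.Setup

open IsLocalRing FermatAgent.RTLift.Modules FermatAgent.RTLift.Engine FermatAgent.RTLift.Old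
  CongruenceSubgroup

variable {O : Type} [CommRing O] [IsDomain O] [IsDiscreteValuationRing O]
  [IsAdicComplete (maximalIdeal O) O]
  {p r : ℕ} [Fact p.Prime] [Algebra (ZMod p) (ResidueField O)] {I : Type} [Fintype I]
  (C : Ctx O p r I)

omit [IsDiscreteValuationRing O] [IsAdicComplete (maximalIdeal O) O]
  [Fact p.Prime] [Algebra (ZMod p) (ResidueField O)] [Fintype I] in
theorem exists_bezout {q M : ℕ} (hq : q.Prime) (hqM : ¬ q ∣ M) :
    ∃ x y : ℤ, x * q - y * M = 1 := by
  refine ⟨Nat.gcdA q M, -Nat.gcdB q M, ?_⟩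
  have h := Nat.gcd_eq_gcd_ab q M
  rw [(hq.coprime_iff_not_dvd.mpr hqM).gcd_eq_one, Nat.cast_one] at h
  linear_combination -h

omit [IsDiscreteValuationRing O] [IsAdicComplete (maximalIdeal O) O]
  [Fact p.Prime] [Algebra (ZMod p) (ResidueField O)] [Fintype I] in
theorem not_dvd_of_bezout {q M : ℕ} (hq : q.Prime) {x y : ℤ} (hxy : x * q - y * M = 1) :
    ¬ q ∣ M := fun h => hq.one_lt.ne' (Nat.eq_one_of_dvd_one (by
  exact_mod_cast hxy ▸ dvd_sub (dvd_mul_left (q : ℤ) x)
    ((Int.natCast_dvd_natCast.mpr h).mul_left y)))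

/-- The augmentation of the diamond ring. -/
def diamondAug (O : Type) [CommRing O] (r p n : ℕ) : Diamond O r p n →ₐ[O] O :=
  { diamondCC O r p n with commutes' := fun o => MvPowerSeries.constantCoeff_C (σ := Fin r) o }

omit [IsDomain O] [IsDiscreteValuationRing O] [IsAdicComplete (maximalIdeal O) O]
  [Fact (Nat.Prime p)] [Algebra (ZMod p) (ResidueField O)] in
@[simp] theorem diamondAug_apply (n : ℕ) (c : Diamond O r p n) :
    diamondAug O r p n c = diamondCC O r p n c := rfl

omit [IsAdicComplete (maximalIdeal O) O]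
  [Fact (Nat.Prime p)] [Algebra (ZMod p) (ResidueField O)] in
/-- The residue field of the diamond ring is that of the coefficients. -/
theorem exists_residueEquiv (n : ℕ) :
    Nonempty (ResidueField (Diamond O r p n) ≃+* ResidueField O) := by
  have hf : Function.Surjective ((residue O).comp (diamondAug O r p n).toRingHom) := fun x => by
    obtain ⟨o, rfl⟩ := residue_surjective x
    exact ⟨algebraMap O _ o, congrArg (residue O) ((diamondAug O r p n).commutes o)⟩
  have := RingHom.ker_isMaximal_of_surjective _ hf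
  exact ⟨(Ideal.quotEquivOfEq (IsLocalRing.eq_maximalIdeal this).symm).trans
    (RingHom.quotientKerEquivOfSurjective hf)⟩

namespace Ctx

section Facts

include C

theorem residueChar : (p : ResidueField O) = 0 := C.valid.residueChar

theorem charP_residue : CharP (ResidueField O) p :=
  (CharP.charP_iff_prime_eq_zero Fact.out).mpr C.residueChar

theorem isUnit_two : IsUnit (2 : O) := by
  have := C.charP_residue
  refine (residue_ne_zero_iff_isUnit _).1 ?_
  rw [map_ofNat, show (2 : ResidueField O) = ((2 : ℕ) : ResidueField O) by norm_num]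
  intro h
  exact C.valid.odd ((Nat.prime_dvd_prime_iff_eq Fact.out Nat.prime_two).mp
    ((CharP.cast_eq_zero_iff (ResidueField O) p 2).mp h))

theorem finite_residue_diamond [Finite (ResidueField O)] (n : ℕ) :
    Finite (ResidueField (Diamond O r p n)) :=
  have := C.charP_residue
  Finite.of_equiv _ (exists_residueEquiv (O := O) (p := p) (r := r) n).some.toEquiv.symm

theorem charP_residue_diamond (n : ℕ) : CharP (ResidueField (Diamond O r p n)) p :=
  have := C.charP_residue
  charP_of_injective_ringHom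
    (f := (exists_residueEquiv (O := O) (p := p) (r := r) n).some.symm.toRingHom)
    (RingEquiv.injective _) p

theorem isUnit_two_diamond (n : ℕ) : IsUnit (2 : Diamond O r p n) := by
  simpa [map_ofNat] using (C.isUnit_two).map (algebraMap O (Diamond O r p n))

theorem finite_diamond (n : ℕ) : Module.Finite O (Diamond O r p n) :=
  (finite_free_diamond C.residueChar r n).1

end Facts

theorem θ_neg_one (n : ℕ) : C.θ n (-1) = 1 := kappa_sq_neg_one _ _

theorem θ_sub_one_mem (n : ℕ) (u : (ZMod (C.modulus n))ˣ) :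
    C.θ n u - 1 ∈ maximalIdeal (Diamond O r p n) := by
  have h : C.κ n u - 1 ∈ maximalIdeal (Diamond O r p n) :=
    kappa_sub_one_mem (fun j => (C.Q n j : ℕ)) (C.dlog n) u
  rw [show C.θ n u - 1 = (C.κ n u - 1) * C.κ n u + (C.κ n u - 1) by
    rw [θ, MonoidHom.mul_apply]; ring]
  exact add_mem (Ideal.mul_mem_right _ _ h) h

theorem diamondCC_θ (n : ℕ) (u : (ZMod (C.modulus n))ˣ) : diamondCC O r p n (C.θ n u) = 1 := by
  have h : diamondCC O r p n (C.κ n u) = 1 :=
    diamondCC_kappa (fun j => (C.Q n j : ℕ)) (C.dlog n) u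
  rw [θ, MonoidHom.mul_apply, map_mul, h, mul_one]

theorem place_dvd_base : ∀ {L : List (Option I)} {i : Option I}, i ∈ L →
    (C.place i : ℕ) ∣ C.base L
  | [], _, h => absurd h List.not_mem_nil
  | j :: L, i, h => by
    rcases List.mem_cons.mp h with rfl | h
    · exact dvd_mul_left _ _
    · exact (place_dvd_base h).mul_right _

theorem three_base {L : List (Option I)} (hL : C.Admissible L) :
    IsUnit (3 : O) ∨ ∃ q, q.Prime ∧ q % 3 = 2 ∧ q ∣ C.base L :=
  hL.three.imp id fun ⟨i, hi, h3⟩ => ⟨_, (C.Fr.q i).2, h3, C.place_dvd_base hi⟩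

theorem three_lvl (n : ℕ) {L : List (Option I)} (hL : C.Admissible L) :
    IsUnit (3 : Diamond O r p n) ∨ ∃ q, q.Prime ∧ q % 3 = 2 ∧ q ∣ C.lvl n L :=
  (C.three_base hL).imp (fun h => by simpa [map_ofNat] using h.map (algebraMap O (Diamond O r p n)))
    fun ⟨q, hq, h3, hd⟩ => ⟨q, hq, h3, hd.trans (by rw [C.lvl_eq]; exact dvd_mul_left _ _)⟩

/-- A system agreeing with the base system away from finitely many primes is given by rational
integers at a non-Eisenstein set of primes. -/
theorem baseEigen_of_eventually (s : Finset ℕ) (ξ : C.J → ResidueField O)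
    (hξ : ∀ l : C.J, (l.1 : ℕ) ∉ s → ξ l = C.ξ₀ l) (N : ℕ) [NeZero N] :
    BaseEigen C.pr ξ p N := by
  classical
  refine ⟨_, C.a, C.nonEis (s ∪ C.Fr.support.image Subtype.val ∪ N.primeFactors), fun l hl => ?_⟩
  obtain ⟨hlp, hlB⟩ := hl
  have hs : l ∉ s := fun h => hlB (Finset.mem_union_left _ (Finset.mem_union_left _ h))
  exact ⟨fun hd => hlB (Finset.mem_union_right _ (Nat.mem_primeFactors.mpr ⟨hlp, hd, NeZero.ne N⟩)),
    ⟨⟨l, hlp⟩, fun h => hlB (Finset.mem_union_left _ (Finset.mem_union_right _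
      (Finset.mem_image_of_mem Subtype.val h)))⟩, rfl, hξ _ hs⟩

theorem baseEigen_ξ (n : ℕ) (N : ℕ) [NeZero N] : BaseEigen C.pr (C.ξ n) p N := by
  classical
  exact C.baseEigen_of_eventually (Finset.univ.image fun j => (C.Q n j : ℕ)) _
    (fun l hl => C.ξ_of_ne n l fun j e => hl (Finset.mem_image.mpr
      ⟨j, Finset.mem_univ _, congrArg Subtype.val e⟩)) N

theorem baseEigen_ξ₀ (N : ℕ) [NeZero N] : BaseEigen C.pr C.ξ₀ p N :=
  C.baseEigen_of_eventually ∅ _ (fun _ _ => rfl) N

/-- The characters of admissible levels are good. -/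
theorem isGoodChar_lvl (n : ℕ) {L : List (Option I)} (hL : C.Admissible L) :
    IsGoodChar (levelChar (C.modulus_dvd_lvl n L) (C.θ n)) :=
  isGoodChar_levelChar _ (C.θ_neg_one n) (C.isUnit_two_diamond n) (C.three_lvl n hL)

/-- The residual system at step `n` is not Eisenstein. -/
theorem nonEis_lvl (n : ℕ) (L : List (Option I)) :
    NonEis C.pr (C.ξ n) (C.modulus n) (C.lvl n L) :=
  have := C.charP_residue
  (C.baseEigen_ξ n (C.lvl n L)).nonEis (C.modulus_dvd_lvl n L) dvd_rfl

/-- The patched module is finite free over the diamond ring. -/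
theorem finite_free_V (n : ℕ) {L : List (Option I)} (hL : C.Admissible L) :
    Module.Finite (Diamond O r p n) (C.V n L) ∧ Module.Free (Diamond O r p n) (C.V n L) := by
  have := C.finite_diamond n
  obtain ⟨hf, hp⟩ := finite_projective_of_nonEis (C.modulus_dvd_lvl n L) (C.isGoodChar_lvl n hL)
    (C.nonEis_lvl n L)
  exact ⟨hf, Module.free_of_flat_of_isLocalRing⟩

/-- The base module is finite free. -/
theorem finite_free_V₀ {L : List (Option I)} (hL : C.Admissible L) :
    Module.Finite O (C.V₀ L) ∧ Module.Free O (C.V₀ L) := by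
  have := C.charP_residue
  obtain ⟨hf, hp⟩ := finite_projective_of_nonEis (one_dvd (C.base L))
    (isGoodChar_levelChar (θ := (1 : (ZMod 1)ˣ →* O)) _ rfl C.isUnit_two (C.three_base hL))
    ((C.baseEigen_ξ₀ (C.base L)).nonEis (one_dvd _) dvd_rfl)
  exact ⟨hf, Module.free_of_flat_of_isLocalRing⟩

open Classical in
/-- The system with the chosen roots at the Taylor–Wiles primes of `s`. -/
def ξPart (n : ℕ) (s : Finset (Fin r)) : C.J → ResidueField O := fun l =>
  if ∃ j ∈ s, C.Q n j = l.1 then C.ξ n l else C.ξ₀ l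

theorem ξPart_univ (n : ℕ) : C.ξPart n Finset.univ = C.ξ n := funext fun l => by
  simp only [ξPart]
  split_ifs with h
  · rfl
  · exact (C.ξ_of_ne n l fun j e => h ⟨j, Finset.mem_univ _, e⟩).symm

theorem ξPart_empty (n : ℕ) : C.ξPart n ∅ = C.ξ₀ := funext fun _ => if_neg fun ⟨_, h, _⟩ =>
  Finset.notMem_empty _ h

theorem not_dvd_base {l : Nat.Primes} (hl : l ∉ C.Fr.support) :
    ∀ L : List (Option I), ¬ (l : ℕ) ∣ C.base L
  | [] => l.2.not_dvd_one
  | i :: L => fun h => (l.2.dvd_mul.mp h).elim (not_dvd_base hl L) fun h' =>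
    hl (Subtype.ext ((Nat.prime_dvd_prime_iff_eq l.2 (C.place i).2).mp h') ▸ C.place_mem_support i)

/-- The roots at a Taylor–Wiles prime. -/
theorem rootData (n : ℕ) {s : Finset (Fin r)} {j : Fin r} (hj : j ∉ s) :
    RootData C.pr ⟨C.Q n j, C.Q_notMem n j⟩ (C.Q n j : ℕ) (C.ξPart n s)
      (C.ξPart n (insert j s)) (C.β n j) := by
  have h0 : C.ξPart n s ⟨C.Q n j, C.Q_notMem n j⟩ = C.ξ₀ ⟨C.Q n j, C.Q_notMem n j⟩ :=
    if_neg fun ⟨i, hi, e⟩ => hj (C.Q_injective n e ▸ hi)
  have h1 : C.ξPart n (insert j s) ⟨C.Q n j, C.Q_notMem n j⟩ = C.α n j :=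
    (if_pos ⟨j, Finset.mem_insert_self _ _, rfl⟩).trans (C.ξ_Q n j _)
  have hq : ((C.Q n j : ℕ) : ResidueField O) = 1 := by
    obtain ⟨k, hk⟩ := C.Q_dvd n j
    have hq1 : (C.Q n j : ℕ) = p ^ (n + 1) * k + 1 := by
      have := (C.Q n j).2.one_le
      omega
    rw [hq1, Nat.cast_add, Nat.cast_mul, Nat.cast_pow, C.residueChar, zero_pow (by omega),
      zero_mul, zero_add, Nat.cast_one]
  have hne := C.roots_ne n j
  have hprod := C.roots_prod n j
  refine ⟨rfl, fun l hl e => hl (Subtype.ext (Subtype.ext e)), fun l hl => ?_, ?_, ?_, ?_, ?_, ?_,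
    ?_⟩
  · have hl' : C.Q n j ≠ l.1 := fun e => hl (Subtype.ext e.symm)
    simp only [ξPart, Finset.exists_mem_insert, hl', false_or]
  · rw [h0, h1]; exact (C.roots_sum n j).symm
  · rw [h1, hprod, hq]
  · rw [hq]; exact one_ne_zero
  · rw [h1]
    exact fun h => hne (mul_left_cancel₀ (left_ne_zero_of_mul_eq_one hprod)
      ((show C.α n j * C.α n j = C.α n j * C.β n j by rw [hprod, ← sq, h])))
  · rw [h1]; exact hne
  · rw [h0, hq, show C.ξ₀ ⟨C.Q n j, C.Q_notMem n j⟩ = C.α n j + C.β n j from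
      (C.roots_sum n j).symm]
    exact fun h => hne (sub_eq_zero.mp (pow_eq_zero_iff two_ne_zero |>.mp
      (by linear_combination h - 4 * hprod)))

set_option maxHeartbeats 2000000 in
/-- Removing the Taylor–Wiles primes: levels with trivial coefficients. -/
theorem exists_stripEquiv [Finite (ResidueField O)] (n : ℕ) {L : List (Option I)}
    (hL : C.Admissible L) (s : Finset (Fin r)) :
    ∀ (M : ℕ) [NeZero M], M = C.base L * ∏ j ∈ s, (C.Q n j : ℕ) →
      ∀ ξ' : C.J → ResidueField O, ξ' = C.ξPart n s →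
        ∃ e : C.V₀ L ≃ₗ[O] localH1 (one_dvd M) (1 : (ZMod 1)ˣ →* O) O C.pr ξ',
          ∀ l : C.J, (∀ j, C.Q n j ≠ l.1) → ∀ v,
            e (localOp (one_dvd (C.base L)) (1 : (ZMod 1)ˣ →* O) C.pr C.ξ₀ l.1 v) =
              localOp (one_dvd M) (1 : (ZMod 1)ˣ →* O) C.pr ξ' l.1 (e v) := by
  classical
  induction s using Finset.induction with
  | empty =>
    intro M _ hM ξ' hξ
    rw [Finset.prod_empty, mul_one] at hM
    rw [C.ξPart_empty] at hξ
    subst hM hξ
    exact ⟨LinearEquiv.refl _ _, fun _ _ _ => rfl⟩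
  | insert j s hj ih =>
    intro M _ hM ξ' hξ
    set q := (C.Q n j : ℕ) with hq
    set M' := C.base L * ∏ i ∈ s, (C.Q n i : ℕ) with hM'
    have hMq : M = M' * q := by
      rw [hM, Finset.prod_insert hj, hM', mul_comm q, mul_assoc]
    subst hMq
    subst hξ
    have : NeZero M' := ⟨left_ne_zero_of_mul (NeZero.ne (M' * q))⟩
    have : NeZero q := ⟨(C.Q n j).2.ne_zero⟩
    have := C.charP_residue
    have hqM : ¬ q ∣ M' := fun h => ((C.Q n j).2.dvd_mul.mp h).elim
      (C.not_dvd_base (C.Q_notMem n j) L) fun h' => by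
        obtain ⟨i, hi, hd⟩ := ((C.Q n j).2.prime.dvd_finsetProd_iff _).mp h'
        have : C.Q n j = C.Q n i :=
          Subtype.ext ((Nat.prime_dvd_prime_iff_eq (C.Q n j).2 (C.Q n i).2).mp hd)
        exact hj (C.Q_injective n this ▸ hi)
    obtain ⟨x, y, hxy⟩ := exists_bezout (C.Q n j).2 hqM
    have hev : ∀ (t : Finset (Fin r)) (N : ℕ) [NeZero N], BaseEigen C.pr (C.ξPart n t) p N :=
      fun t N _ => C.baseEigen_of_eventually (t.image fun i => (C.Q n i : ℕ)) _
        (fun l hl => if_neg fun ⟨i, hi, e⟩ => hl (Finset.mem_image.mpr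
          ⟨i, hi, congrArg Subtype.val e⟩)) N
    obtain ⟨e, he, -⟩ := exists_oldEquiv (one_dvd M') (θ := (1 : (ZMod 1)ˣ →* O)) hxy (C.Q n j).2
      hqM (C.rootData n hj) rfl (fun u => by simp) C.isUnit_two
      ((C.three_base hL).imp id fun ⟨q', h1, h2, h3⟩ =>
        ⟨q', h1, h2, h3.trans (dvd_mul_right _ _)⟩)
      ((hev s M').nonEis (one_dvd _) dvd_rfl)
      ((hev (insert j s) (M' * q)).nonEis (one_dvd _) dvd_rfl)
    obtain ⟨e', he'⟩ := ih M' hM' _ rfl
    refine ⟨e'.trans e, fun l hl v => Subtype.ext ?_⟩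
    have hl0 : l ≠ ⟨C.Q n j, C.Q_notMem n j⟩ := fun h => hl j (by rw [h])
    rw [LinearEquiv.trans_apply, LinearEquiv.trans_apply, he' l hl, coe_localOp]
    exact he l hl0 (e' v) _ (coe_localOp _ _ _ _ _ _)

set_option maxHeartbeats 2000000 in
/-- The coinvariants of the patched module are the base module, compatibly with the operators
away from the Taylor-Wiles primes. -/
theorem exists_baseMap [Finite (ResidueField O)] (n : ℕ) {L : List (Option I)}
    (hL : C.Admissible L) :
    ∃ π : C.V n L →+ C.V₀ L,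
      (∀ (c : Diamond O r p n) v, π (c • v) = diamondCC O r p n c • π v) ∧
      Function.Surjective π ∧
      (∀ v, π v = 0 → v ∈ RingHom.ker (diamondCC O r p n) •
        (⊤ : Submodule (Diamond O r p n) (C.V n L))) ∧
      ∀ l : C.J, (∀ j, C.Q n j ≠ l.1) → ∀ v,
        π (localOp (C.modulus_dvd_lvl n L) (C.θ n) C.pr (C.ξ n) l.1 v) =
          localOp (one_dvd (C.base L)) (1 : (ZMod 1)ˣ →* O) C.pr C.ξ₀ l.1 (π v) := by
  have := C.finite_diamond n
  obtain ⟨π₁, hπ⟩ := exists_coinvMap (C.modulus_dvd_lvl n L) (C.θ n) (diamondAug O r p n)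
    (C.diamondCC_θ n) (C.isGoodChar_lvl n hL) C.pr (C.ξ n)
  obtain ⟨e, he⟩ := C.exists_stripEquiv n hL Finset.univ (C.lvl n L)
    ((C.lvl_eq n L).trans (mul_comm _ _)) (C.ξ n) (C.ξPart_univ n).symm
  let π₂ : C.V n L →+ C.V₁ n L :=
    { toFun := fun v => ⟨π₁ v, hπ.map_localH1 _ v.2⟩
      map_zero' := Subtype.ext (map_zero π₁)
      map_add' := fun a b => Subtype.ext (map_add π₁ _ _) }
  refine ⟨e.symm.toLinearMap.toAddMonoidHom.comp π₂, fun c v => ?_, fun y => ?_, fun v hv => ?_,
    fun l hl v => ?_⟩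
  · change e.symm (π₂ (c • v)) = _ • e.symm (π₂ v)
    rw [← map_smul]
    exact congrArg _ (Subtype.ext (hπ.map_smul c _))
  · obtain ⟨x, hx, hxy⟩ := hπ.exists_lift _ (e y).2
    refine ⟨⟨x, hx⟩, ?_⟩
    change e.symm (π₂ ⟨x, hx⟩) = y
    rw [show π₂ ⟨x, hx⟩ = e y from Subtype.ext hxy, e.symm_apply_apply]
  · have h0 : π₂ v = 0 := e.symm.injective (hv.trans (map_zero e.symm).symm)
    exact (Submodule.mem_smul_top_iff _ _ _).mpr (hπ.ker _ v.2 (congrArg Subtype.val h0))
  · change e.symm (π₂ _) = localOp _ _ _ _ _ (e.symm (π₂ v))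
    rw [LinearEquiv.symm_apply_eq, he l hl, e.apply_symm_apply]
    refine Subtype.ext ?_
    rw [coe_localOp]
    exact hπ.map_heckeOp l.1 _

/-- Ihara and surjectivity of the traces at a new place of a level. -/
theorem exists_wall_inverses [Finite (ResidueField O)] (n : ℕ) {L : List (Option I)} (i : Option I)
    (hL : C.Admissible L) {x y : ℤ}
    (hxy : x * (C.place i : ℕ) - y * (C.lvl n L : ℕ) = 1)
    (hpr : ∀ j : C.J, (C.pr j : ℕ) ≠ (C.place i : ℕ)) [NeZero (C.place i : ℕ)]
    [NeZero (C.lvl n L * (C.place i : ℕ))] :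
    (∃ g : C.V n (i :: L) →ₗ[Diamond O r p n] C.V n L × C.V n L,
      g.comp (alphaLoc (C.ξ n) (C.modulus_dvd_lvl n L) (C.θ n) hxy (C.place i).2 hpr
        (Diamond O r p n)) = LinearMap.id) ∧
    ∃ g : C.V n L × C.V n L →ₗ[Diamond O r p n] C.V n (i :: L),
      (betaLoc (C.ξ n) (C.modulus_dvd_lvl n L) (C.θ n) hxy (C.place i).2 hpr
        (Diamond O r p n)).comp g = LinearMap.id := by
  have := C.charP_residue
  have := C.charP_residue_diamond n
  have := C.finite_residue_diamond n
  have := C.finite_diamond n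
  have hqM := not_dvd_of_bezout (C.place i).2 hxy
  have hb := C.baseEigen_ξ n (C.lvl n L * (C.place i : ℕ))
  exact ⟨exists_leftInverse_alphaLoc (p := p) _ hxy (C.place i).2 hpr (C.θ_neg_one n)
      (C.θ_sub_one_mem n) (C.isUnit_two_diamond n) (C.three_lvl n hL) hqM hb,
    exists_rightInverse_betaLoc (p := p) _ hxy (C.place i).2 hpr (C.θ_neg_one n)
      (C.θ_sub_one_mem n) (C.isUnit_two_diamond n) (C.three_lvl n hL) hqM hb⟩

end Ctx

end FermatAgent.RTLift.Setup
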