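import Fermat.Agent.RTLift.Setup.Ctx
import Fermat.Agent.RTLift.Finish.Interface
import Fermat.Agent.RTLift.Setup.Global.Coeff
import Fermat.Agent.RTLift.Setup.Global.Level
import Fermat.Agent.RTLift.Setup.Global.AtP

/-!
# The residual data and the initial level of a curve
-/

set_option autoImplicit false

noncomputable section

namespace FermatAgent.RTLift.Setup

open IsLocalRing FermatAgent.RTLift.LocalRings WeierstrassCurve CongruenceSubgroup

local notation "Qb" => AlgebraicClosure ℚ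
local notation "GQ" => AlgebraicClosure ℚ ≃ₐ[ℚ] AlgebraicClosure ℚ

/-- The data of a residual system of the curve over the residual data: the initial level. -/
structure InitData {O : Type} [CommRing O] [IsLocalRing O] [IsAdicComplete (maximalIdeal O) O]
    {p r : ℕ} [Fact p.Prime] [Algebra (ZMod p) (ResidueField O)] {I : Type} [Fintype I]
    (C : Ctx O p r I) (W : WeierstrassCurve ℤ) (M : ℕ) where
  a_eq : ∀ ℓ : ℕ, C.a ℓ = W.apOfModel ℓ
  r_pos : 0 < r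
  /-- the initial level -/
  L₀ : List (Option I)
  admissible : C.Admissible L₀
  base_ne_bot : C.V₀ L₀ ≠ ⊥
  mem_iff : ∀ q : Nat.Primes, (q : ℕ) ∣ M → ∃ i ∈ L₀, C.place i = q
  place_mem : ∀ i ∈ L₀, (C.place i : ℕ) ∣ M ∨ ∀ ε, ∀ j, i = some j → ¬ C.D.Allowed j (.st ε)
  not_flat : none ∈ L₀ → ∀ (S : Type) [CommRing S] [IsDomain S] [IsLocalRing S] [Algebra O S]
    [Module.Finite O S] (r' : GQ →* Matrix (Fin 2) (Fin 2) S) (hc : DefRing.IsCont r'),
    (∀ σ, (r' σ).det = algebraMap O S (C.χ σ)) →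
    (∀ σ, ∃ o : O, residue O o = Matrix.trace (C.ρ σ : Matrix (Fin 2) (Fin 2) (ResidueField O)) ∧
      Matrix.trace (r' σ) - algebraMap O S o ∈ maximalIdeal S) →
    ¬ (DefRing.toAdic r' hc).IsFlatAt p
  /-- `O` contains the roots of unity of the tame characters at the auxiliary primes -/
  roots : ∀ (i : I) (k : ℕ), p ^ k ∣ (C.Fr.q i : ℕ) - 1 → ∃ z : O, IsPrimitiveRoot z (p ^ k)
  unramified_mod : ∀ i : I, Finish.UnramifiedMod W p (C.Fr.q i) →
    ∀ A : ValuationSubring Qb, A.LiesOverPrime (C.Fr.q i : ℕ) →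
      ∀ g ∈ A.inertiaSubgroupIn ℚ, C.ρ g = 1
  place_aux : ∀ i : I, some i ∈ L₀ → ¬ (C.Fr.q i : ℕ) ∣ M →
    (C.Fr.q i : ℕ) % p ≠ 1 ∧ Finish.UnramifiedMod W p (C.Fr.q i)

/-- The data of the curve over the residual data: the initial level, the configuration of the
curve and its point. -/
structure CurveData {O : Type} [CommRing O] [IsLocalRing O] [IsAdicComplete (maximalIdeal O) O]
    {p r : ℕ} [Fact p.Prime] [Algebra (ZMod p) (ResidueField O)] {I : Type} [Fintype I]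
    (C : Ctx O p r I) (W : WeierstrassCurve ℤ) (M : ℕ) extends InitData C W M where
  /-- the configuration of the curve -/
  cfg : I → Cfg
  cfg_plain : ∀ i, cfg i = .ur ∨ ∃ ε, cfg i = .st ε
  cfg_allowed : ∀ i, C.D.Allowed i (cfg i)
  initial_unique : ∀ i, some i ∈ L₀ →
    ¬ C.D.Allowed i .ur ∨ ∀ ε, ¬ C.D.Allowed i (.st ε)
  cfg_ur_of_aux : ∀ i, (∀ ε, ¬ C.D.Allowed i (.st ε)) → cfg i = .ur
  /-- the point of the curve -/
  rep : GQ →* Matrix (Fin 2) (Fin 2) O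
  cont : DefRing.IsCont rep
  det_eq : ∀ σ, (rep σ).det = C.χ σ
  residual : ∀ σ, residue O (Matrix.trace (rep σ)) =
    Matrix.trace (C.ρ σ : Matrix (Fin 2) (Fin 2) (ResidueField O))
  trace_frob : ∀ ℓ : Nat.Primes, ℓ ∉ C.Fr.support → ∀ P : ValuationSubring Qb,
    P.LiesOverPrime (ℓ : ℕ) → ∀ φ : GQ, P.IsFrobeniusAt φ (ℓ : ℕ) →
      Matrix.trace (rep φ) = (C.a (ℓ : ℕ) : O)
  unramified : ∀ ℓ : Nat.Primes, ℓ ∉ C.Fr.support → ∀ P : ValuationSubring Qb,
    P.LiesOverPrime (ℓ : ℕ) → ∀ σ ∈ P.inertiaSubgroupIn ℚ, rep σ = 1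
  sat : ∀ i, Sat (cfg i) (C.D.q i : O) (C.D.c i)
    (rep (C.Fr.frame i).frob) (rep (C.Fr.frame i).gen - 1)
  atP : (none ∉ L₀ ∧ (DefRing.toAdic rep cont).IsFlatAt p) ∨
    ∃ A : ValuationSubring Qb, A.LiesOverPrime p ∧ Galois.IsStrictPoint C.χ rep A ∧
      (none ∈ L₀ ∨ ∃ v, TW.OrdLine C.ρ A v)

/-- The residual data with what the curve needs to know about them. -/
theorem exists_initData_aux {W : WeierstrassCurve ℤ} {p : ℕ} [Fact p.Prime] (hp2 : p ≠ 2)
    (hΔ : W.Δ ≠ 0) (hΔ' : (W.map (Int.castRingHom ℚ)).Δ ≠ 0) (hss : W.IsSemistableModel)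
    (hirr : W.ModRepIsIrreducible p) (hI : Finish.FullImage W p) {M : ℕ} (hM : Squarefree M)
    (hres : W.IsResiduallyModularOfLevel p M) (hp : p ∣ M → ¬ Finish.FlatMod W p) :
    ∃ (O : Type) (_ : CommRing O) (_ : IsDomain O) (_ : IsDiscreteValuationRing O)
      (_ : IsAdicComplete (maximalIdeal O) O) (_ : Finite (ResidueField O)) (_ : CharZero O)
      (_ : Algebra (ZMod p) (ResidueField O)) (I : Type) (_ : Fintype I) (r : ℕ)
      (C : Ctx O p r I) (d : InitData C W M),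
      C.ρ = rhoO (p := p) hΔ' ∧
      (∀ ℓ : Nat.Primes, ℓ ∉ C.Fr.support → (ℓ : ℕ) ≠ p ∧ ¬ ((ℓ : ℕ) : ℤ) ∣ W.Δ) ∧
      (none ∈ d.L₀ → p ∣ M) := by
  classical
  have hpp := (Fact.out : p.Prime)
  obtain ⟨l, hl, hlB, hlp, hlΔ, hlm, hla⟩ := exists_auxPrime hΔ' hI hirr hp2 M.primeFactors
  have hlM : ¬ l ∣ M := fun h => hlB (Nat.mem_primeFactors.2 ⟨hl, h, hM.ne_zero⟩)
  obtain ⟨e, he, hN⟩ : ∃ e : ℕ, (e = 1 ∧ p ≠ 3 ∨ e = l ∧ p = 3) ∧ Squarefree (M * e) := by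
    by_cases h3 : p = 3
    · exact ⟨l, .inr ⟨rfl, h3⟩, (Nat.squarefree_mul
        ((Nat.Prime.coprime_iff_not_dvd hl).2 hlM).symm).2 ⟨hM, hl.squarefree⟩⟩
    · exact ⟨1, .inl ⟨rfl, h3⟩, by rwa [mul_one]⟩
  set T : Finset Nat.Primes := ((W.Δ.natAbs * (M * e)).primeFactors.erase p).subtype Nat.Prime
  have hmemT : ∀ q : Nat.Primes, q ∈ T ↔
      (q : ℕ) ≠ p ∧ (((q : ℕ) : ℤ) ∣ W.Δ ∨ (q : ℕ) ∣ M * e) := fun q => by
    refine Finset.mem_subtype.trans ?_
    rw [Finset.mem_erase, Nat.mem_primeFactors, q.2.dvd_mul,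
      Int.natCast_dvd]
    have h0 : W.Δ.natAbs * (M * e) ≠ 0 := mul_ne_zero (Int.natAbs_ne_zero.2 hΔ) hN.ne_zero
    exact ⟨fun h => ⟨h.1, h.2.2.1⟩, fun h => ⟨h.1, q.2, h.2, h0⟩⟩
  obtain ⟨O, i1, i2, i3, i4, i5, i6, i7, hpO, ⟨ζ, hζ, hζ1⟩, hroot, hk⟩ :=
    exists_coeff p hp2 (T.sup fun q => (q : ℕ))
  obtain ⟨r, C, hr, ha, hρ, hq⟩ := exists_ctx hΔ' hpO hp2 hss hirr hI hζ hζ1 hk T
    (fun q hqT => ((hmemT q).1 hqT).1) fun q h1 h2 => (hmemT q).2 ⟨h2, .inl h1⟩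
  have hnone : (C.place none : ℕ) = p := rfl
  have hcov : ∀ q : Nat.Primes, (q : ℕ) ∣ M * e → ∃ i, C.place i = q := fun q h => by
    by_cases hqp : (q : ℕ) = p
    · exact ⟨none, Subtype.ext hqp.symm⟩
    · exact ⟨some ⟨q, (hmemT q).2 ⟨hqp, .inr h⟩⟩, hq _⟩
  have hsupp : ∀ ℓ : Nat.Primes, ℓ ∉ C.Fr.support →
      (ℓ : ℕ) ≠ p ∧ ¬ ((ℓ : ℕ) : ℤ) ∣ W.Δ ∧ ¬ (ℓ : ℕ) ∣ M * e := by
    intro ℓ h
    simp only [Galois.Frames.support, Finset.mem_insert, Finset.mem_image, Finset.mem_univ,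
      true_and, not_or, not_exists] at h
    have hℓp : (ℓ : ℕ) ≠ p := fun e' => h.1 (Subtype.ext e')
    have hℓ : ℓ ∉ T := fun hT => h.2 ⟨ℓ, hT⟩ (hq _)
    rw [hmemT, not_and, not_or] at hℓ
    exact ⟨hℓp, hℓ hℓp⟩
  have hpM : p ∣ M * e → p ∣ M := fun h => by
    rcases hpp.dvd_mul.1 h with h | h
    · exact h
    · rcases he with ⟨rfl, -⟩ | ⟨rfl, -⟩
      · exact absurd h hpp.not_dvd_one
      · exact absurd ((Nat.prime_dvd_prime_iff_eq hpp hl).1 h).symm hlp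
  have h3 : p ≠ 3 → IsUnit (3 : O) := fun h => by
    rw [← residue_ne_zero_iff_isUnit, map_ofNat]
    intro h0
    have h' : (algebraMap (ZMod p) (ResidueField O)) ((3 : ℕ) : ZMod p) = 0 := by
      rw [map_natCast]; exact_mod_cast h0
    rw [map_eq_zero, ZMod.natCast_eq_zero_iff] at h'
    exact h ((Nat.prime_dvd_prime_iff_eq hpp Nat.prime_three).1 h')
  have hbase : C.base (levelOf C (M * e)) = M * e := base_levelOf C hN hcov
  refine ⟨O, i1, i2, i3, i4, i5, i6, i7, _, inferInstance, r, C,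
    { a_eq := ha
      r_pos := hr
      L₀ := levelOf C (M * e)
      admissible := ⟨nodup_levelOf C _, ?_⟩
      base_ne_bot := ?_
      mem_iff := fun q h => ?_
      place_mem := fun i hi => ?_
      not_flat := fun hn S _ _ _ _ _ r' hc _ htr => ?_
      roots := fun i k h => hroot k ?_
      unramified_mod := fun i h A hA g hg => Units.ext ?_
      place_aux := fun i hi hiM => ?_ },
    hρ, fun ℓ hℓ => ⟨(hsupp ℓ hℓ).1, (hsupp ℓ hℓ).2.1⟩, fun h => ?_⟩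
  · rcases he with ⟨-, h⟩ | ⟨rfl, rfl⟩
    · exact .inl (h3 h)
    · obtain ⟨_ | i, hi⟩ := hcov ⟨e, hl⟩ (dvd_mul_left _ _)
      · exact absurd (congrArg Subtype.val hi).symm hlp
      refine .inr ⟨i, (mem_levelOf C).2 (by rw [hi]; exact dvd_mul_left _ _), ?_⟩
      rw [show (C.Fr.q i : ℕ) = e from congrArg Subtype.val hi, ← ZMod.val_natCast, hlm]
      rfl
  · have : NeZero M := ⟨hM.ne_zero⟩
    have hξ : C.ξ₀ = fun l : C.J => (W.apOfModel (C.pr l : ℕ) : ResidueField O) :=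
      funext fun j => by simp [Ctx.ξ₀, ha]
    show Modules.localH1 _ _ O C.pr C.ξ₀ ≠ ⊥
    rw [hξ]
    refine localH1_ne_bot_of_level C.pr hpO hres
      (fun j => ⟨(hsupp _ j.2).2.1, fun h => (hsupp _ j.2).2.2 (h.mul_right e), (hsupp _ j.2).1⟩) _ ?_
    rcases he with ⟨rfl, -⟩ | ⟨rfl, -⟩
    · exact .inl (hbase.trans (mul_one M))
    · exact .inr ⟨e, hl, fun j h => (hsupp _ j.2).2.2 (h ▸ dvd_mul_left _ _), hbase⟩
  · obtain ⟨i, hi⟩ := hcov q (h.mul_right e)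
    exact ⟨i, (mem_levelOf C).2 (by rw [hi]; exact h.mul_right e), hi⟩
  · rcases (C.place i).2.dvd_mul.1 ((mem_levelOf C).1 hi) with h | h
    · exact .inl h
    rcases he with ⟨rfl, -⟩ | ⟨rfl, -⟩
    · exact absurd h (C.place i).2.not_dvd_one
    · refine .inr fun ε j hij => ?_
      subst hij
      have hje : (C.Fr.q j : ℕ) = e := (Nat.prime_dvd_prime_iff_eq (C.Fr.q j).2 hl).1 h
      refine not_allowed_st C hΔ' hρ hirr j ?_ ?_ ?_ ε <;> rw [hje]
      exacts [hlΔ, hlm, hla]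
  · have hpM' := hpM (hnone ▸ (mem_levelOf C).1 hn)
    refine not_isFlatAt_of_not_flatMod (O := O) hΔ' hp2 hirr hss (span_range_gmat hΔ' hI)
      (hp hpM') r' hc fun σ => ?_
    obtain ⟨o, ho, ho'⟩ := htr σ
    rw [DFunLike.congr_fun hρ] at ho
    exact ⟨o, ho, ho'⟩
  · have h1 := Nat.le_of_dvd (Nat.sub_pos_of_lt (C.Fr.q i).2.one_lt) h
    have h2 : k < p ^ k := Nat.lt_pow_self hpp.one_lt
    have h3 : (i.1 : ℕ) ≤ T.sup fun q => (q : ℕ) := Finset.le_sup (f := fun q : Nat.Primes => (q : ℕ)) i.2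
    rw [← hq i] at h3
    omega
  · rw [DFunLike.congr_fun hρ, coe_rhoO, gmat_eq_one_of_unramifiedMod hΔ' h hA hg,
      Matrix.map_one _ (map_zero _) (map_one _), Units.val_one]
  · rcases (C.Fr.q i).2.dvd_mul.1 ((mem_levelOf C).1 hi) with h | h
    · exact absurd h hiM
    rcases he with ⟨rfl, -⟩ | ⟨rfl, -⟩
    · exact absurd h (C.Fr.q i).2.not_dvd_one
    · have hie : (C.Fr.q i : ℕ) = e := (Nat.prime_dvd_prime_iff_eq (C.Fr.q i).2 hl).1 h
      refine ⟨fun h1 => ?_, unramifiedMod_of_gen hΔ' hss (C.Fr.q i).2 (C.Fr.ne i)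
        (C.Fr.frame i).liesOver (C.Fr.frame i).isTameGen ?_⟩
      · rw [hie] at h1
        rw [← ZMod.natCast_mod, h1, Nat.cast_one] at hlm
        refine hp2 ((Nat.prime_dvd_prime_iff_eq hpp Nat.prime_two).1
          ((ZMod.natCast_eq_zero_iff 2 p).1 ?_))
        push_cast
        linear_combination hlm
      · show (PadicInt.toZMod (p := p)).mapMatrix
          (GalRep.Tate.tateMatHom (p := p) hΔ' (C.Fr.frame i).gen) = 1
        rw [tateMatHom_eq_one_of_good hΔ' (C.Fr.q i).2 (C.Fr.ne i) (by rw [hie]; exact hlΔ)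
          (C.Fr.frame i).liesOver (C.Fr.frame i).isTameGen.1, map_one]
  · exact hpM (hnone ▸ (mem_levelOf C).1 h)

/-- The residual data and the curve data of a minimal residual system with full image. -/
theorem exists_curveData (W : WeierstrassCurve ℤ) (p : ℕ) [Fact p.Prime] (hS : Finish.Setting W p)
    (hI : Finish.FullImage W p) (M : ℕ) (hM : Squarefree M)
    (hres : W.IsResiduallyModularOfLevel p M)
    (hmin : ∀ q : ℕ, q.Prime → q ∣ M → q ≠ p → ¬ Finish.UnramifiedMod W p q)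
    (hp : p ∣ M → ¬ Finish.FlatMod W p) :
    ∃ (O : Type) (_ : CommRing O) (_ : IsDomain O) (_ : IsDiscreteValuationRing O)
      (_ : IsAdicComplete (maximalIdeal O) O) (_ : Finite (ResidueField O)) (_ : CharZero O)
      (_ : Algebra (ZMod p) (ResidueField O)) (I : Type) (_ : Fintype I) (r : ℕ)
      (C : Ctx O p r I), Nonempty (CurveData C W M) := by
  have hp2 : p ≠ 2 := by rcases hS.prime_three_five with rfl | rfl <;> norm_num
  have hΔ' : (W.map (Int.castRingHom ℚ)).Δ ≠ 0 := by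
    rw [WeierstrassCurve.map_Δ, eq_intCast]; exact_mod_cast hS.disc_ne_zero
  obtain ⟨O, i1, i2, i3, i4, i5, i6, i7, I, iI, r, C, d, hρ, hgood, hnone⟩ :=
    exists_initData_aux hp2 hS.disc_ne_zero hΔ' hS.semistable hS.irreducible hI hM hres hp
  choose cfg hplain hsat hallowed using
    fun i : I => exists_cfg C hΔ' hρ hS.semistable hS.irreducible i
  refine ⟨O, i1, i2, i3, i4, i5, i6, i7, I, iI, r, C, ⟨{ d with
    cfg := cfg
    cfg_plain := hplain
    cfg_allowed := hallowed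
    initial_unique := fun i hi => ?_
    cfg_ur_of_aux := fun i h => (hplain i).resolve_right fun ⟨ε, he⟩ => h ε (he ▸ hallowed i)
    rep := repO hΔ' C.hp
    cont := isCont_repO hΔ' C.hp
    det_eq := fun σ => det_repO hΔ' C.hp hS.irreducible σ
    residual := fun σ => by rw [DFunLike.congr_fun hρ]; exact residual_repO hΔ' C.hp σ
    trace_frob := fun ℓ hℓ P hP φ hφ => by
      rw [d.a_eq]
      exact trace_frob_repO hΔ' C.hp hS.irreducible ℓ.2 (hgood ℓ hℓ).1 (hgood ℓ hℓ).2 hP hφ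
    unramified := fun ℓ hℓ P hP σ hσ =>
      unramified_repO hΔ' C.hp ℓ.2 (hgood ℓ hℓ).1 (hgood ℓ hℓ).2 hP hσ
    sat := hsat
    atP := ?_ }⟩⟩
  · rcases d.place_mem (some i) hi with h | h
    · exact .inl fun hu => hmin _ (C.Fr.q i).2 h (C.Fr.ne i)
        (unramifiedMod_of_allowed_ur C hΔ' hρ hS.semistable i hu)
    · exact .inr fun ε => h ε i rfl
  · by_cases hbad : (p : ℤ) ∣ W.Δ
    · obtain ⟨A, hA, hst, v, hv⟩ := exists_strictPoint hΔ' C.hp hp2 hS.irreducible hbad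
        (hS.semistable p Fact.out hbad)
      exact .inr ⟨A, hA, hst, .inr ⟨v, by rw [hρ]; exact hv⟩⟩
    · refine .inl ⟨fun h => hp (hnone h) ?_, isFlatAt_repO hΔ' C.hp hbad _⟩
      show (p : ℤ) ∣ padicValRat p (W.map (Int.castRingHom ℚ)).Δ
      rw [WeierstrassCurve.map_Δ, eq_intCast, padicValRat.of_int,
        padicValInt.eq_zero_of_not_dvd hbad]
      exact dvd_zero _

end FermatAgent.RTLift.Setup
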