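import Fermat.Agent.RTLift.Setup.PointLists
import Fermat.Agent.RTLift.Setup.Global

/-!
# The system of the curve at the level of its configuration: the flat and the strict cases
-/

set_option autoImplicit false

noncomputable section

namespace FermatAgent.RTLift.Setup

open IsLocalRing FermatAgent.RTLift.Engine FermatAgent.RTLift.LocalRings FermatAgent.RTLift.Modules
  Matrix

local notation "Qb" => AlgebraicClosure ℚ
local notation "GQ" => AlgebraicClosure ℚ ≃ₐ[ℚ] AlgebraicClosure ℚ

variable {O : Type} [CommRing O] [IsDomain O] [IsDiscreteValuationRing O]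
  [IsAdicComplete (maximalIdeal O) O] [Finite (ResidueField O)]
  {p r : ℕ} [Fact p.Prime] [Algebra (ZMod p) (ResidueField O)] {I : Type} [Fintype I]
  {C : Ctx O p r I} {W : WeierstrassCurve ℤ} {M : ℕ} (d : CurveData C W M)

namespace CurveData

/-- The point of the curve at a step. -/
def galPoint (n : ℕ) : GalPoint C n where
  A := O
  injective _ _ h := h
  rep := d.rep
  cont := d.cont
  det_eq σ := d.det_eq σ
  trace_residual σ := ⟨Matrix.trace (d.rep σ), d.residual σ, by
    rw [Algebra.algebraMap_self, RingHom.id_apply, sub_self]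
    exact zero_mem _⟩
  unramified ℓ hℓ P hP σ hσ :=
    d.unramified ℓ (C.notMem_support_of_notMem_bad hℓ) P hP σ hσ
  trace_wd ℓ hℓ P hP φ hφ := by
    rw [d.trace_frob ℓ (C.notMem_support_of_notMem_bad hℓ) P hP φ hφ,
      d.trace_frob ℓ (C.notMem_support_of_notMem_bad hℓ) _ (frobPlace_liesOver ℓ) _
        (isFrobeniusAt_frobAt ℓ)]

open Classical in
/-- The places to add: where the curve is `St` outside the initial level. -/
def addPlaces : List I :=
  (Finset.univ.filter fun i => some i ∉ d.L₀ ∧ d.cfg i ≠ .ur).toList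

omit [Finite (ResidueField O)] in
theorem nodup_addPlaces : d.addPlaces.Nodup := Finset.nodup_toList _

omit [Finite (ResidueField O)] in
theorem mem_addPlaces {i : I} : i ∈ d.addPlaces ↔ some i ∉ d.L₀ ∧ ∃ ε, d.cfg i = .st ε := by
  classical
  rw [addPlaces, Finset.mem_toList, Finset.mem_filter]
  refine ⟨fun h => ⟨h.2.1, (d.cfg_plain i).resolve_left h.2.2⟩, ?_⟩
  rintro ⟨h, ε, hε⟩
  exact ⟨Finset.mem_univ _, h, by simp [hε]⟩

omit [Finite (ResidueField O)] in
theorem notMem_of_mem_addPlaces : ∀ i ∈ d.addPlaces, some i ∉ d.L₀ :=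
  fun _ hi => (d.mem_addPlaces.mp hi).1

/-- The level of the curve's configuration. -/
def topLevel : List (Option I) := levelAbove d.L₀ d.addPlaces

omit [Finite (ResidueField O)] in
theorem admissible_topLevel : C.Admissible d.topLevel :=
  admissible_levelAbove d.admissible d.nodup_addPlaces d.notMem_of_mem_addPlaces

omit [Finite (ResidueField O)] in
theorem none_mem_topLevel : none ∈ d.topLevel ↔ none ∈ d.L₀ := by
  simp [topLevel, levelAbove]

omit [Finite (ResidueField O)] in
/-- Outside the places to add, an initial configuration is the curve's. -/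
theorem eq_cfg {B : I → Cfg} (hB : B ∈ C.cfgs d.L₀) {j : I} (hj : j ∉ d.addPlaces) :
    B j = d.cfg j := by
  obtain ⟨hp1, hp2, hp3⟩ := Ctx.mem_cfgs.mp hB j
  by_cases hL : some j ∈ d.L₀
  · rcases d.initial_unique j hL with h | h
    · obtain ⟨ε, hε⟩ := hp1.resolve_left fun e => h (e ▸ hp2)
      obtain ⟨ε', hε'⟩ := (d.cfg_plain j).resolve_left fun e => h (e ▸ d.cfg_allowed j)
      have ha := d.cfg_allowed j
      rw [hε] at hp2
      rw [hε'] at ha
      rw [hε, hε', sign_unique C.valid h hp2 ha]
    · rw [d.cfg_ur_of_aux j h]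
      exact hp1.resolve_right fun ⟨ε, hε⟩ => h ε (hε ▸ hp2)
  · rw [hp3 hL]
    refine ((d.cfg_plain j).resolve_right fun h => hj (d.mem_addPlaces.mpr ⟨hL, h⟩)).symm

/-- The chain of raisings ends at the configuration of the curve. -/
theorem exists_supp [CharZero O] {T : Tower C r} (hr : T.Ready d.L₀ d.addPlaces)
    (hd₀ : T.Detects d.L₀) :
    RingHom.ker ((T.slot d.admissible_topLevel hr.detects).piece C.residue_p).toRingHom ≤
      C.D.cfgIdeal r d.cfg := by
  classical
  obtain ⟨B, hB, hsupp⟩ := T.exists_initial d.admissible hd₀ d.base_ne_bot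
  have h := Tower.chain d.admissible hd₀ (fun j => (Ctx.mem_cfgs.mp hB j).2.1)
    (Ctx.isPlain_of_mem_cfgs hB) hsupp (cfg := d.cfg) d.nodup_addPlaces d.notMem_of_mem_addPlaces
    (fun i hi => ⟨(Ctx.mem_cfgs.mp hB i).2.2 (d.mem_addPlaces.mp hi).1, d.cfg_allowed i,
      (d.mem_addPlaces.mp hi).2⟩) hr
  refine h.trans (le_of_eq (congrArg (C.D.cfgIdeal r) (funext fun j => ?_)))
  by_cases hj : j ∈ d.addPlaces
  · rw [if_pos hj]
  · rw [if_neg hj, d.eq_cfg hB hj]

/-- A tower through the curve with its component in the support gives the system. -/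
theorem hasPointAt_of_tower {rv k : ℕ} {T : Tower C rv} (hc : ∀ n, (T.S n).Covers (d.galPoint n))
    (N : Engine.Slot T.F p k)
    (hsupp : RingHom.ker (N.piece C.residue_p).toRingHom ≤ C.D.cfgIdeal rv d.cfg)
    {L : List (Option I)}
    (hN : ∀ n (s : MvPolynomial C.J O), (∀ l ∈ s.vars, ∀ j, C.Q n j ≠ l.1) →
      (∀ x ∈ C.V₀ L,
        heckeHom (R := O) (one_dvd (C.base L)) (1 : (ZMod 1)ˣ →* O) O C.pr s x = 0) →
      (N.act n (MvPolynomial.aeval (fun l : C.J => (T.S n).trFrob l.1) s)).map
        (diamondCC O r p n) = 0) :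
    C.HasPointAt L := by
  choose g hg using hc
  refine Tower.hasPointAt N hsupp g (fun n j => ?_) (fun n => (hg n).cfgIdeal_le fun i => ?_)
    (fun n l hl => ?_) hN
  · have h1 : d.rep (C.twGen n j) = 1 :=
      d.unramified (C.Q n j) (C.Q_notMem n j) _ (frobPlace_liesOver _) _
        (C.exists_twGen n j).choose_spec.1
    refine ((hg n).zEl j).trans ?_
    change Matrix.trace (d.rep (C.twGen n j)) - 2 = 0
    rw [h1, Matrix.trace_one, Fintype.card_fin, Nat.cast_ofNat, sub_self]
  · exact d.sat i
  · exact ((hg n).trFrob l.1).trans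
      (d.trace_frob l.1 l.2 _ (frobPlace_liesOver _) _ (isFrobeniusAt_frobAt _))

/-- The flat case and the strict case. -/
theorem hasPointAt_of_stages [CharZero O]
    (mk : ∀ (S : ∀ n, Stage C n),
      (∀ n k, (S n).pts k = d.galPoint n ∨ ∃ L' : List (Option I), L'.Nodup ∧
        (none ∈ L' ↔ none ∈ d.L₀) ∧ ∃ P : LevelPoint C n L', (S n).pts k = P.toGal) →
      ∃ T : Tower C r, T.S = S) :
    C.HasPointAt d.topLevel := by
  choose l hl1 hl2 using fun n =>
    exists_chainList (n := n) d.admissible d.nodup_addPlaces d.notMem_of_mem_addPlaces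
  obtain ⟨T, hT⟩ := mk (fun n => Stage.ofList (d.galPoint n :: l n) (List.cons_ne_nil _ _))
    fun n k => (List.mem_cons.mp (Stage.pts_ofList_mem _ (List.cons_ne_nil _ _) k)).imp_right
      (hl1 n _)
  have hcov : ∀ n, ∀ G ∈ d.galPoint n :: l n, (T.S n).Covers G := fun n G hG => by
    rw [hT]
    exact Stage.covers_ofList _ hG
  have hr : T.Ready d.L₀ d.addPlaces := Tower.ready_of_stages fun n =>
    hl2 n _ fun G hG => hcov n G (List.mem_cons_of_mem _ hG)
  have hd₀ : T.Detects d.L₀ := fun n =>
    (hl2 n _ fun G hG => hcov n G (List.mem_cons_of_mem _ hG)).detects_base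
  exact d.hasPointAt_of_tower (fun n => hcov n _ List.mem_cons_self) _ (d.exists_supp hr hd₀)
    fun n s hs hs0 => T.slot_relation d.admissible_topLevel hr.detects n s hs hs0

theorem hasPoint_flat [CharZero O] (h0 : none ∉ d.L₀)
    (hf : (DefRing.toAdic d.rep d.cont).IsFlatAt p) :
    C.HasPointAt d.topLevel :=
  d.hasPointAt_of_stages fun S hS => exists_tower_flat S fun n k => by
    rcases hS n k with h | ⟨L', -, hn, P, h⟩
    · rw [h]; exact hf
    · rw [h]; exact P.isFlatAt C fun hm => h0 (hn.mp hm)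

theorem hasPoint_strict [CharZero O] (h0 : none ∈ d.L₀) {A : ValuationSubring Qb}
    (hA : A.LiesOverPrime p)
    (hs : Galois.IsStrictPoint C.χ d.rep A) : C.HasPointAt d.topLevel :=
  d.hasPointAt_of_stages fun S hS => exists_tower_strict S hA fun n k => by
    rcases hS n k with h | ⟨L', hnd, -, P, h⟩
    · rw [h]; exact hs
    · rw [h]
      exact P.isStrictPoint C hnd hA
        (d.not_flat h0 P.A P.rep P.cont P.det_eq P.trace_residual)

end CurveData

end FermatAgent.RTLift.Setup
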