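import Fermat.Agent.RTLift.Setup.Slots

/-!
# The configurations of a level
-/

set_option autoImplicit false

noncomputable section

namespace FermatAgent.RTLift.Setup

open IsLocalRing FermatAgent.RTLift.Engine FermatAgent.RTLift.LocalRings FermatAgent.RTLift.Modules
  Matrix

variable {O : Type} [CommRing O] [IsDomain O] [IsDiscreteValuationRing O]
  [IsAdicComplete (maximalIdeal O) O]
  {p r : ℕ} [Fact p.Prime] [Algebra (ZMod p) (ResidueField O)] {I : Type} [Fintype I]
  {C : Ctx O p r I} {n : ℕ} {L : List (Option I)}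

section Residual

omit [IsDomain O] [IsDiscreteValuationRing O] [IsAdicComplete (maximalIdeal O) O]
  [Fact p.Prime] [Algebra (ZMod p) (ResidueField O)]
  [Fintype I]

variable [IsLocalRing O] {D : Datum O I} {i : I}

/-- Where `ur` and `St_ε` are allowed, so is the wall. -/
theorem allowed_wall {ε : ℤˣ} (hu : D.Allowed i .ur) (hs : D.Allowed i (.st ε)) :
    D.Allowed i (.wall ε) :=
  sat_wall_iff.mpr ⟨(sat_ur_iff.mp hu).1, (sat_ur_iff.mp hu).2, (sat_st_iff.mp hs).2.1⟩

/-- Where `ur` is not allowed, the sign of `St` is determined. -/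
theorem sign_unique {ζ : I → O} (hV : D.Valid p ζ) (hu : ¬ D.Allowed i .ur) {ε ε' : ℤˣ}
    (h : D.Allowed i (.st ε)) (h' : D.Allowed i (.st ε')) : ε = ε' := by
  by_contra hne
  have hneg : ((ε : ℤ) : ResidueField O) = -((ε' : ℤ) : ResidueField O) := by
    rw [Int.units_ne_iff_eq_neg.mp hne, Units.val_neg, Int.cast_neg]
  have : CharP (ResidueField O) p :=
    (CharP.charP_iff_prime_eq_zero hV.prime).mpr hV.residueChar
  have h2 : (2 : ResidueField O) ≠ 0 := by
    rw [show (2 : ResidueField O) = ((2 : ℕ) : ResidueField O) by norm_num, Ne,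
      CharP.cast_eq_zero_iff _ p]
    exact fun hd => hV.odd ((Nat.prime_dvd_prime_iff_eq hV.prime Nat.prime_two).mp hd)
  have hq : (D.q i : ResidueField O) ≠ 0 := by
    rw [Ne, CharP.cast_eq_zero_iff _ p]
    exact fun hd => hV.q_ne i ((Nat.prime_dvd_prime_iff_eq hV.prime (hV.q_prime i)).mp hd).symm
  obtain ⟨h1, -, -, -, h5, -⟩ := sat_st_iff.mp h
  obtain ⟨-, -, -, -, h5', -⟩ := sat_st_iff.mp h'
  refine hu (sat_ur_iff.mpr ⟨?_, h1⟩)
  have e := h5.symm.trans h5'
  ext a b
  have e' := congrFun (congrFun e a) b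
  simp only [Matrix.smul_apply, smul_eq_mul, hneg] at e'
  rw [Matrix.zero_apply]
  have e2 : 2 * ((ε' : ℤ) : ResidueField O) * (D.q i : ResidueField O) *
      (D.n₀ i).map (residue O) a b = 0 := by linear_combination -e'
  have hε : ((ε' : ℤ) : ResidueField O) ≠ 0 := fun h0 => by
    simpa [h0] using int_units_mul_self (S := ResidueField O) ε'
  exact (mul_eq_zero.mp e2).resolve_left (mul_ne_zero (mul_ne_zero h2 hε) hq)

end Residual

namespace Ctx

variable (C)

theorem card_image_Q (n : ℕ) : (Finset.univ.image (C.Q n)).card = r := by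
  rw [Finset.card_image_of_injective _ (C.Q_injective n), Finset.card_univ, Fintype.card_fin]

open Classical in
/-- The plain allowed configurations at an index of a level. -/
def cfgsAt (L : List (Option I)) (i : I) : Finset Cfg :=
  ({.ur, .st 1, .st (-1)} : Finset Cfg).filter fun b =>
    C.D.Allowed i b ∧ (some i ∉ L → b = .ur)

open Classical in
/-- The plain allowed configurations of a level, `ur` outside it. -/
def cfgs (L : List (Option I)) : Finset (I → Cfg) := Fintype.piFinset (C.cfgsAt L)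

open Classical in
/-- Those with `St` at an index. -/
def newCfgs (L : List (Option I)) (i₀ : I) : Finset (I → Cfg) :=
  (C.cfgs L).filter fun B => B i₀ ≠ .ur

variable {C}

theorem mem_cfgs {B : I → Cfg} : B ∈ C.cfgs L ↔
    ∀ i, (B i = .ur ∨ ∃ ε, B i = .st ε) ∧ C.D.Allowed i (B i) ∧ (some i ∉ L → B i = .ur) := by
  classical
  simp only [cfgs, Fintype.mem_piFinset, cfgsAt, Finset.mem_filter, Finset.mem_insert,
    Finset.mem_singleton]
  refine forall_congr' fun i => and_congr_left fun _ => ⟨?_, ?_⟩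
  · rintro (h | h | h)
    · exact .inl h
    · exact .inr ⟨_, h⟩
    · exact .inr ⟨_, h⟩
  · rintro (h | ⟨ε, h⟩)
    · exact .inl h
    · rcases Int.units_eq_one_or ε with rfl | rfl
      · exact .inr (.inl h)
      · exact .inr (.inr h)

theorem mem_newCfgs {B : I → Cfg} {i₀ : I} :
    B ∈ C.newCfgs L i₀ ↔ B ∈ C.cfgs L ∧ ∃ ε, B i₀ = .st ε := by
  classical
  rw [newCfgs, Finset.mem_filter]
  refine and_congr_right fun h => ⟨fun hne => ((mem_cfgs.mp h i₀).1).resolve_left hne, ?_⟩
  rintro ⟨ε, hε⟩ h'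
  rw [hε] at h'
  exact nomatch h'

theorem isPlain_of_mem_cfgs {B : I → Cfg} (h : B ∈ C.cfgs L) : IsPlain B :=
  fun i => (mem_cfgs.mp h i).1

theorem listed_cfgs (L : List (Option I)) : Listed C.D (C.cfgs L) := fun B hB =>
  ⟨fun i => (mem_cfgs.mp hB i).2.1, fun i => by
    rcases (mem_cfgs.mp hB i).1 with h | ⟨ε, h⟩ <;> simp [h, Cfg.IsWall]⟩

theorem listed_newCfgs (L : List (Option I)) (i₀ : I) : Listed C.D (C.newCfgs L i₀) :=
  fun B hB => C.listed_cfgs L B (mem_newCfgs.mp hB).1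

end Ctx

namespace Stage

variable {S : Stage C n} {P : LevelPoint C n L} {g : S.R →ₐ[O] P.A}

/-- A covered point has a configuration of its level. -/
theorem IsPt.exists_cfg (hg : S.IsPt P.toGal g) :
    ∃ B ∈ C.cfgs L, ∀ i, Sat (B i) (C.D.q i : P.A) (algebraMap O P.A (C.D.c i))
      (P.rep (C.Fr.frame i).frob) (P.rep (C.Fr.frame i).gen - 1) := by
  have key : ∀ i, ∃ b, (b = Cfg.ur ∨ ∃ ε, b = .st ε) ∧ C.D.Allowed i b ∧
      (some i ∉ L → b = .ur) ∧ Sat b (C.D.q i : P.A) (algebraMap O P.A (C.D.c i))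
        (P.rep (C.Fr.frame i).frob) (P.rep (C.Fr.frame i).gen - 1) := fun i => by
    by_cases hi : some i ∈ L
    · rcases P.sat_plain i with h | ⟨ε, h⟩
      · exact ⟨_, .inl rfl, hg.allowed (.inl rfl) h, fun h' => absurd hi h', h⟩
      · exact ⟨_, .inr ⟨ε, rfl⟩, hg.allowed (.inr ⟨ε, rfl⟩) h, fun h' => absurd hi h', h⟩
    · have h := P.sat_ur i hi
      exact ⟨_, .inl rfl, hg.allowed (.inl rfl) h, fun _ => rfl, h⟩
  choose B h1 h2 h3 h4 using key
  exact ⟨B, Ctx.mem_cfgs.mpr fun i => ⟨h1 i, h2 i, h3 i⟩, h4⟩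

/-- A covered point with `St` at an index has such a configuration. -/
theorem IsPt.exists_newCfg (hg : S.IsPt P.toGal g) {i₀ : I} {ε : ℤˣ}
    (hst : Sat (.st ε) (C.D.q i₀ : P.A) (algebraMap O P.A (C.D.c i₀))
      (P.rep (C.Fr.frame i₀).frob) (P.rep (C.Fr.frame i₀).gen - 1)) (hi₀ : some i₀ ∈ L) :
    ∃ B ∈ C.newCfgs L i₀, ∀ i, Sat (B i) (C.D.q i : P.A) (algebraMap O P.A (C.D.c i))
      (P.rep (C.Fr.frame i).frob) (P.rep (C.Fr.frame i).gen - 1) := by
  classical
  obtain ⟨B, hB, hs⟩ := hg.exists_cfg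
  refine ⟨Function.update B i₀ (.st ε), Ctx.mem_newCfgs.mpr ⟨Ctx.mem_cfgs.mpr fun i => ?_,
    ε, Function.update_self ..⟩, fun i => ?_⟩
  · rcases eq_or_ne i i₀ with rfl | hi
    · rw [Function.update_self]
      exact ⟨.inr ⟨ε, rfl⟩, hg.allowed (.inr ⟨ε, rfl⟩) hst, fun h' => absurd hi₀ h'⟩
    · rw [Function.update_of_ne hi]
      exact Ctx.mem_cfgs.mp hB i
  · rcases eq_or_ne i i₀ with rfl | hi
    · rw [Function.update_self]
      exact hst
    · rw [Function.update_of_ne hi]
      exact hs i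

/-- The configurations of a level kill its module. -/
theorem IsAct.eq_zero_of_mem_prod [Finite (ResidueField O)]
    {act : S.R →ₐ[O] Module.End (Diamond O r p n) (C.V n L)} (ha : S.IsAct L act)
    (hd : S.Detects L) {y : S.R} (hy : y ∈ ∏ B ∈ C.cfgs L, S.cfgIdeal B) : act y = 0 :=
  ha.eq_zero hd fun _ _ hg => by
    obtain ⟨B, hB, hs⟩ := hg.exists_cfg
    exact hg.map_eq_zero hB hs hy

end Stage

/-- A component in the support of a slot killed by listed configurations. -/
theorem exists_component_of_kills [CharZero O] [Finite (ResidueField O)] {F : Family C.D r r}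
    {k : ℕ} (N : Engine.Slot F p k) (hk : 0 < k)
    (hp : (p : ResidueField O) = 0) {𝒞 : Finset (I → Cfg)} (h𝒞 : Listed C.D 𝒞)
    (hkill : N.Kills 𝒞) :
    ∃ B ∈ 𝒞, RingHom.ker (N.piece hp).toRingHom ≤ C.D.cfgIdeal r B := by
  classical
  have : Nonempty (Fin k) := ⟨⟨0, hk⟩⟩
  have : Nontrivial (Matrix (Fin k) (Fin k) (Scal O I r)) := inferInstance
  have : IsLocalRing (Ambient O I r) := inferInstance
  have hle : RingHom.ker (N.piece hp).toRingHom ≤ maximalIdeal (Ambient O I r) :=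
    le_maximalIdeal (RingHom.ker_ne_top _)
  obtain ⟨B, hB, -, h⟩ := Engine.exists_cfg C.valid (N.hasScalars hp) h𝒞
    (N.prod_le_ker_piece hp hkill) hle
  exact ⟨B, hB, h⟩

end FermatAgent.RTLift.Setup
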