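import Fermat.Agent.RTLift.Engine.DiamondRing
import Fermat.Agent.RTLift.Engine.LevelAct
import Fermat.Agent.RTLift.Galois.Defs
import Fermat.Agent.RTLift.Old.Residual
import Fermat.Agent.GalRep.Construct.Algebra
import Fermat.Agent.GalRep.Construct.Cyclotomic

/-!
# The residual data of RTLift and the levels of the patched family

`I` indexes the auxiliary primes. A level is a list in `Option I` (`none` stands for `p`); at
the `n`-th step of the tower its modulus is the product of the `r` Taylor–Wiles primes times the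
primes of the list.
-/

set_option autoImplicit false

noncomputable section

namespace FermatAgent.RTLift.Setup

open IsLocalRing FermatAgent.RTLift.Modules FermatAgent.RTLift.Engine CongruenceSubgroup

local notation "Qb" => AlgebraicClosure ℚ
local notation "GQ" => AlgebraicClosure ℚ ≃ₐ[ℚ] AlgebraicClosure ℚ

/-- The residual data: coefficient ring, representation, frames at the auxiliary primes, the local
datum, and Taylor–Wiles primes at every step. -/
structure Ctx (O : Type) [CommRing O] [IsLocalRing O] [IsAdicComplete (maximalIdeal O) O] (p r : ℕ) [Fact p.Prime]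
    [Algebra (ZMod p) (ResidueField O)] (I : Type) [Fintype I] where
  /-- the residual representation -/
  ρ : GQ →* GL (Fin 2) (ResidueField O)
  hp : (p : O) ∈ maximalIdeal O
  /-- the frames at the auxiliary primes -/
  Fr : Galois.Frames p ρ I
  /-- the local datum -/
  D : LocalRings.Datum O I
  /-- the roots of unity -/
  ζ : I → O
  valid : D.Valid p ζ
  D_q : ∀ i, D.q i = (Fr.q i : ℕ)
  datumLifts : Galois.DatumLifts Fr D
  twHyp : TW.TWHyp p ρ
  unramified : ∀ ℓ : Nat.Primes, ℓ ∉ Fr.support → ∀ A : ValuationSubring Qb,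
    A.LiesOverPrime (ℓ : ℕ) → ∀ g ∈ A.inertiaSubgroupIn ℚ, ρ g = 1
  /-- the residual eigenvalues -/
  a : ℕ → ℤ
  trace_frob : ∀ ℓ : Nat.Primes, ℓ ∉ Fr.support → ∀ A : ValuationSubring Qb,
    A.LiesOverPrime (ℓ : ℕ) → ∀ φ : GQ, A.IsFrobeniusAt φ (ℓ : ℕ) →
      Matrix.trace (ρ φ : Matrix (Fin 2) (Fin 2) (ResidueField O)) = (a ℓ : ResidueField O)
  det_cyclo : ∀ σ, residue O (GalRep.padicToRing hp (GalRep.cycChar p σ)) =
    Matrix.det (ρ σ : Matrix (Fin 2) (Fin 2) (ResidueField O))
  nonEis : ∀ B : Finset ℕ,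
    Ihara.NonEisenstein {l : ℕ | l.Prime ∧ l ∉ B} fun l => (a l : ZMod p)
  /-- the Taylor–Wiles primes -/
  Q : ℕ → Fin r → Nat.Primes
  Q_injective : ∀ n, Function.Injective (Q n)
  Q_notMem : ∀ n j, Q n j ∉ Fr.support
  Q_dvd : ∀ n j, p ^ (n + 1) ∣ (Q n j : ℕ) - 1
  Q_tw : ∀ n, TW.IsTWSet ρ p Fr.support 1 (Finset.univ.image (Q n))
  /-- the chosen root at a Taylor–Wiles prime -/
  α : ℕ → Fin r → ResidueField O
  /-- the other root -/
  β : ℕ → Fin r → ResidueField O
  roots_ne : ∀ n j, α n j ≠ β n j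
  roots_sum : ∀ n j, α n j + β n j = (a (Q n j : ℕ) : ResidueField O)
  roots_prod : ∀ n j, α n j * β n j = 1

namespace Ctx

variable {O : Type} [CommRing O] [IsLocalRing O] [IsAdicComplete (maximalIdeal O) O] {p r : ℕ} [Fact p.Prime]
  [Algebra (ZMod p) (ResidueField O)] {I : Type} [Fintype I] (C : Ctx O p r I)

/-- The determinant. -/
def χ : GQ →* O := (GalRep.padicToRing C.hp).toMonoidHom.comp (GalRep.cycChar p)

/-- The symbols cutting out local parts: the primes outside `p` and the auxiliary ones. -/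
abbrev J : Type := {l : Nat.Primes // l ∉ C.Fr.support}

/-- The prime of a symbol. -/
abbrev pr : C.J → Nat.Primes := Subtype.val

/-- The residual system at the base. -/
def ξ₀ : C.J → ResidueField O := fun l => (C.a (l.1 : ℕ) : ResidueField O)

open Classical in
/-- The residual system at step `n`: the chosen root at the Taylor–Wiles primes. -/
def ξ (n : ℕ) : C.J → ResidueField O := fun l =>
  if h : ∃ j, C.Q n j = l.1 then C.α n h.choose else C.ξ₀ l

/-- The product of the Taylor–Wiles primes of step `n`. -/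
def modulus (n : ℕ) : ℕ := ∏ j, (C.Q n j : ℕ)

/-- The prime of an index. -/
def place : Option I → Nat.Primes
  | none => ExtCitation.pPrime p
  | some i => C.Fr.q i

/-- The modulus of a level at step `n`. -/
def lvl (n : ℕ) : List (Option I) → ℕ
  | [] => C.modulus n
  | i :: L => lvl n L * (C.place i : ℕ)

/-- The modulus of a level at the base. -/
def base : List (Option I) → ℕ
  | [] => 1
  | i :: L => base L * (C.place i : ℕ)

theorem modulus_dvd_lvl (n : ℕ) : ∀ L : List (Option I), C.modulus n ∣ C.lvl n L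
  | [] => dvd_rfl
  | _ :: L => (modulus_dvd_lvl n L).mul_right _

theorem lvl_eq (n : ℕ) : ∀ L : List (Option I), C.lvl n L = C.modulus n * C.base L
  | [] => (mul_one _).symm
  | i :: L => by rw [lvl, base, lvl_eq n L, mul_assoc]

instance neZero_base (L : List (Option I)) : NeZero (C.base L) := ⟨by
  induction L with
  | nil => exact one_ne_zero
  | cons i L ih => exact mul_ne_zero ih (C.place i).2.ne_zero⟩

instance neZero_lvl (n : ℕ) (L : List (Option I)) : NeZero (C.lvl n L) := ⟨by
  rw [C.lvl_eq]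
  exact mul_ne_zero (Finset.prod_ne_zero_iff.mpr fun j _ => (C.Q n j).2.ne_zero)
    (C.neZero_base L).out⟩

/-- The discrete logarithms at the Taylor–Wiles primes. -/
def dlog (n : ℕ) (j : Fin r) : (ZMod (C.Q n j : ℕ))ˣ →* Multiplicative (ZMod (p ^ n)) :=
  (exists_dlog (p := p) (n := n) (C.Q n j).2
    ((pow_dvd_pow p n.le_succ).trans (C.Q_dvd n j))).choose

theorem dlog_surjective (n : ℕ) (j : Fin r) : Function.Surjective (C.dlog n j) :=
  (exists_dlog (p := p) (n := n) (C.Q n j).2
    ((pow_dvd_pow p n.le_succ).trans (C.Q_dvd n j))).choose_spec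

/-- The square root of the diamond character. -/
def κ (n : ℕ) : (ZMod (C.modulus n))ˣ →* Diamond O r p n :=
  kappa O (fun j => (C.Q n j : ℕ)) (C.dlog n)

/-- The diamond character. -/
def θ (n : ℕ) : (ZMod (C.modulus n))ˣ →* Diamond O r p n := C.κ n * C.κ n

/-- The value of `κ` at a prime. -/
def κv (n : ℕ) (l : Nat.Primes) : Diamond O r p n :=
  if h : (l : ℕ).Coprime (C.modulus n) then C.κ n (ZMod.unitOfCoprime l h) else 1

/-- The patched module at step `n` and a level. -/
abbrev V (n : ℕ) (L : List (Option I)) :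
    Submodule (Diamond O r p n)
      (H1 (levelChar (C.modulus_dvd_lvl n L) (C.θ n)) (Diamond O r p n)) :=
  localH1 (C.modulus_dvd_lvl n L) (C.θ n) (Diamond O r p n) C.pr (C.ξ n)

/-- The base module at a level. -/
abbrev V₀ (L : List (Option I)) :
    Submodule O (H1 (levelChar (one_dvd (C.base L)) (1 : (ZMod 1)ˣ →* O)) O) :=
  localH1 (one_dvd (C.base L)) 1 O C.pr C.ξ₀

/-- The coinvariants at step `n` before the Taylor–Wiles primes are removed. -/
abbrev V₁ (n : ℕ) (L : List (Option I)) :
    Submodule O (H1 (levelChar (one_dvd (C.lvl n L)) (1 : (ZMod 1)ˣ →* O)) O) :=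
  localH1 (one_dvd (C.lvl n L)) 1 O C.pr (C.ξ n)

/-- Levels in use: no repetition, and no elliptic points of order `3` when `p = 3`. -/
structure Admissible (L : List (Option I)) : Prop where
  nodup : L.Nodup
  three : IsUnit (3 : O) ∨ ∃ i : I, some i ∈ L ∧ (C.Fr.q i : ℕ) % 3 = 2

theorem ξ_Q (n : ℕ) (j : Fin r) (h : C.Q n j ∉ C.Fr.support) :
    C.ξ n ⟨C.Q n j, h⟩ = C.α n j := by
  have hex : ∃ j', C.Q n j' = C.Q n j := ⟨j, rfl⟩
  simp only [ξ]
  rw [dif_pos hex, C.Q_injective n hex.choose_spec]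

theorem ξ_of_ne (n : ℕ) (l : C.J) (h : ∀ j, C.Q n j ≠ l.1) : C.ξ n l = C.ξ₀ l :=
  dif_neg fun ⟨j, hj⟩ => h j hj

theorem coprime_modulus {n : ℕ} {l : Nat.Primes} (h : ∀ j, C.Q n j ≠ l) :
    (l : ℕ).Coprime (C.modulus n) :=
  Nat.Coprime.prod_right fun j _ => (Nat.coprime_primes l.2 (C.Q n j).2).mpr
    fun e => h j (Subtype.ext e.symm)

/-- For a fixed prime the Taylor–Wiles primes are eventually different. -/
theorem eventually_ne (l : Nat.Primes) : ∀ᶠ n in Filter.atTop, ∀ j, C.Q n j ≠ l := by
  refine Filter.eventually_atTop.mpr ⟨(l : ℕ), fun n hn j e => ?_⟩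
  have h1 := Nat.le_of_dvd (by have := (C.Q n j).2.two_le; omega) (C.Q_dvd n j)
  have h2 : n + 1 < p ^ (n + 1) := Nat.lt_pow_self (Fact.out : p.Prime).one_lt
  have h3 : (C.Q n j : ℕ) = l := congrArg Subtype.val e
  omega

end Ctx

end FermatAgent.RTLift.Setup
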