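import Fermat.Agent.RTLift.Setup.Ctx

/-!
# The system of the residual data at a base level
-/

set_option autoImplicit false

noncomputable section

namespace FermatAgent.RTLift.Setup

open IsLocalRing FermatAgent.RTLift.Modules

variable {O : Type} [CommRing O] [IsLocalRing O] [IsAdicComplete (maximalIdeal O) O] {p r : ℕ}
  [Fact p.Prime] [Algebra (ZMod p) (ResidueField O)] {I : Type} [Fintype I]

/-- The values `a` satisfy every relation of the operators on the base module of the level. -/
def Ctx.HasPointAt (C : Ctx O p r I) (L : List (Option I)) : Prop :=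
  ∀ s : MvPolynomial C.J O,
    (∀ x ∈ C.V₀ L,
      heckeHom (R := O) (one_dvd (C.base L)) (1 : (ZMod 1)ˣ →* O) O C.pr s x = 0) →
    MvPolynomial.eval (fun l : C.J => (C.a (l.1 : ℕ) : O)) s = 0

end FermatAgent.RTLift.Setup
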