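import Fermat.Agent.RTLift.Setup.Global
import Fermat.Agent.RTLift.Setup.HasPoint
import Fermat.Agent.RTLift.Setup.Base
import Fermat.Agent.RTLift.Forms.Eigenform

/-!
# From a point of the base module to the minimal lifting step
-/

set_option autoImplicit false
set_option linter.unusedSectionVars false

noncomputable section

namespace FermatAgent.RTLift.Setup

open IsLocalRing CongruenceSubgroup ModularFormClass WeierstrassCurve

variable {O : Type} [CommRing O] [IsDomain O] [IsDiscreteValuationRing O]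
  [IsAdicComplete (maximalIdeal O) O] [Finite (ResidueField O)] [CharZero O]
  {p r : ℕ} [Fact p.Prime] [Algebra (ZMod p) (ResidueField O)] {I : Type} [Fintype I]

/-- A point of the base module gives a form of its level with the eigenvalues of the data. -/
theorem eigenform_of_hasPointAt (C : Ctx O p r I) {L : List (Option I)} (hL : C.Admissible L)
    (h : C.HasPointAt L) :
    ∃ g : CuspForm (Gamma0 (C.base L)) 2, g.IsNormalizedEigenform ∧
      Squarefree (C.base L) ∧
      ∀ l : Nat.Primes, l ∉ C.Fr.support → qCoeff g l = (C.a l : ℂ) := by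
  classical
  have := C.charP_residue
  obtain ⟨l, ⟨hl, hlB⟩, hl1, hal⟩ := (C.nonEis ((C.base L).primeFactors ∪
    C.Fr.support.image Subtype.val)).ne_mod (C.base L) (NeZero.pos _)
  rw [Finset.mem_union, not_or] at hlB
  let j₀ : C.J := ⟨⟨l, hl⟩, fun hS => hlB.2 (Finset.mem_image_of_mem Subtype.val hS)⟩
  have hj : ¬ (C.pr j₀ : ℕ) ∣ C.base L :=
    fun hd => hlB.1 (Nat.mem_primeFactors.2 ⟨hl, hd, NeZero.ne _⟩)
  have hne : C.ξ₀ j₀ ≠ ((C.pr j₀ : ℕ) : ResidueField O) + 1 := fun he => hal (by
    refine (algebraMap (ZMod p) (ResidueField O)).injective ?_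
    simp only [map_intCast, map_add, map_natCast, map_one]
    exact he)
  obtain ⟨g, hg, hgj⟩ := Forms.exists_eigenform_of_int_point C.pr C.ξ₀ C.isUnit_two hj
    (show ((C.base L : ℕ) : ℤ) ∣ ((C.pr j₀ : ℕ) : ℤ) - 1 from hl1) hne
    (fun j : C.J => C.a (j.1 : ℕ)) h
  exact ⟨g, hg, C.squarefree_base hL.nodup, fun l hl => hgj ⟨l, hl⟩⟩

/-- The minimal lifting step from a point at some admissible level of every curve datum. -/
theorem minimalLiftingStep_of_hasPoint
    (hpt : ∀ (O : Type) [CommRing O] [IsDomain O] [IsDiscreteValuationRing O]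
      [IsAdicComplete (maximalIdeal O) O] [Finite (ResidueField O)] [CharZero O]
      (I : Type) [Fintype I] (r p : ℕ) [Fact p.Prime] [Algebra (ZMod p) (ResidueField O)]
      (C : Ctx O p r I) (W : WeierstrassCurve ℤ) (M : ℕ) (_ : CurveData C W M),
      ∃ L, C.Admissible L ∧ C.HasPointAt L) :
    Finish.MinimalLiftingStep := by
  intro W p _ hS hI M hM hres hmin hp
  obtain ⟨O, i1, i2, i3, i4, i5, i6, i7, I, iI, r, C, ⟨d⟩⟩ :=
    exists_curveData W p hS hI M hM hres hmin hp
  obtain ⟨L, hL, hpt⟩ := hpt O I r p C W M d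
  obtain ⟨g, hg, hsq, hgl⟩ := eigenform_of_hasPointAt C hL hpt
  classical
  refine ⟨C.base L, g, C.Fr.support.image Subtype.val, hsq, hg, fun ℓ hℓ hℓB => ?_⟩
  rw [← d.a_eq]
  exact hgl ⟨ℓ, hℓ⟩ fun h => hℓB (Finset.mem_image_of_mem Subtype.val h)

end FermatAgent.RTLift.Setup
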