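import Fermat.Agent.RTLift.Setup.Walls
import Fermat.Agent.RT.Frobenius

/-!
# The unit root in a trace ring and the wall at `p`

At an ordinary point the eigenvalue `z` of Frobenius on the quotient is a rational function of two
traces: `z (1 - χ σ) = tr r(σ φ) - χ σ tr r(φ)` for an inertia element `σ` with `1 - χ σ` a unit.
-/

set_option autoImplicit false

noncomputable section

namespace FermatAgent.RTLift.Setup

open IsLocalRing FermatAgent.RTLift.Engine FermatAgent.RTLift.LocalRings FermatAgent.RTLift.Modules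
  Matrix
open FermatAgent.RTLift.Galois (qcoord IsOrdPoint IsStrictPoint)

local notation "Qb" => AlgebraicClosure ℚ
local notation "GQ" => AlgebraicClosure ℚ ≃ₐ[ℚ] AlgebraicClosure ℚ

section Algebra

variable {A : Type} [CommRing A] [IsDomain A] {N : Matrix (Fin 2) (Fin 2) A} {w : Fin 2 → A} {z : A}

/-- The eigenvalue on a quotient line is a root of the characteristic polynomial. -/
theorem quad_of_qcoord (hw : w ≠ 0) (h : ∀ v, qcoord w (N *ᵥ v) = z * qcoord w v) :
    z ^ 2 - N.trace * z + N.det = 0 := by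
  have e0 := h ![1, 0]
  have e1 := h ![0, 1]
  simp [qcoord, Matrix.mulVec, dotProduct, Fin.sum_univ_two] at e0 e1
  rw [Matrix.trace_fin_two, Matrix.det_fin_two]
  have h0 : (z ^ 2 - (N 0 0 + N 1 1) * z + (N 0 0 * N 1 1 - N 0 1 * N 1 0)) * w 0 = 0 := by
    linear_combination (N 0 0 - z) * e1 - N 0 1 * e0
  have h1 : (z ^ 2 - (N 0 0 + N 1 1) * z + (N 0 0 * N 1 1 - N 0 1 * N 1 0)) * w 1 = 0 := by
    linear_combination N 1 0 * e1 - (N 1 1 - z) * e0
  by_contra hne
  refine hw (funext fun i => ?_)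
  fin_cases i
  · exact (mul_eq_zero.mp h0).resolve_left hne
  · exact (mul_eq_zero.mp h1).resolve_left hne

/-- An eigenvalue is a root of the characteristic polynomial. -/
theorem quad_of_eigen (hw : w ≠ 0) (h : N *ᵥ w = z • w) :
    z ^ 2 - N.trace * z + N.det = 0 := by
  have e0 := congrFun h 0
  have e1 := congrFun h 1
  simp [Matrix.mulVec, dotProduct, Fin.sum_univ_two] at e0 e1
  rw [Matrix.trace_fin_two, Matrix.det_fin_two]
  have h0 : (z ^ 2 - (N 0 0 + N 1 1) * z + (N 0 0 * N 1 1 - N 0 1 * N 1 0)) * w 0 = 0 := by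
    linear_combination (N 1 1 - z) * e0 - N 0 1 * e1
  have h1 : (z ^ 2 - (N 0 0 + N 1 1) * z + (N 0 0 * N 1 1 - N 0 1 * N 1 0)) * w 1 = 0 := by
    linear_combination (N 0 0 - z) * e1 - N 1 0 * e0
  by_contra hne
  refine hw (funext fun i => ?_)
  fin_cases i
  · exact (mul_eq_zero.mp h0).resolve_left hne
  · exact (mul_eq_zero.mp h1).resolve_left hne

variable {r : GQ →* Matrix (Fin 2) (Fin 2) A} {P : ValuationSubring Qb} {φ σ : GQ}

omit [IsDomain A] in
theorem det_rep_ne_zero [Nontrivial A] (g : GQ) : (r g).det ≠ 0 :=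
  left_ne_zero_of_mul_eq_one (b := (r g⁻¹).det)
    (by rw [← Matrix.det_mul, ← map_mul r, mul_inv_cancel, map_one r, Matrix.det_one])

theorem ordPoint_ne_zero (h : IsOrdPoint r P φ z) : z ≠ 0 := by
  obtain ⟨w, hw, -, -, hφ⟩ := h
  rintro rfl
  have := quad_of_qcoord hw hφ
  simp at this
  exact det_rep_ne_zero φ this

/-- The eigenvalue of Frobenius on the quotient from two traces. -/
theorem ordPoint_formula (h : IsOrdPoint r P φ z) (hσ : σ ∈ P.inertiaSubgroupIn ℚ) :
    z * (1 - (r σ).det) = (r (σ * φ)).trace - (r σ).det * (r φ).trace := by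
  have hz := ordPoint_ne_zero h
  obtain ⟨w, hw, -, hI, hφ⟩ := h
  have e1 := quad_of_qcoord hw hφ
  have e2 := quad_of_qcoord hw (N := r (σ * φ)) (z := z) fun v => by
    rw [map_mul, ← Matrix.mulVec_mulVec, hI σ hσ, hφ]
  rw [map_mul r, Matrix.det_mul, ← map_mul r] at e2
  refine mul_left_cancel₀ hz ?_
  linear_combination e2 - (r σ).det * e1

/-- A strict point is ordinary with eigenvalue `±1`. -/
theorem strictPoint_ordPoint {O : Type} [CommRing O] [Algebra O A] {χ : GQ →* O}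
    (h : IsStrictPoint χ r P) (hdet : ∀ g, (r g).det = algebraMap O A (χ g))
    (hφ : φ ∈ P.decompositionSubgroup ℚ) (hσ : σ ∈ P.inertiaSubgroupIn ℚ)
    (hne : algebraMap O A (χ σ) ≠ 1) : ∃ z, IsOrdPoint r P φ z ∧ z ^ 2 = 1 := by
  obtain ⟨w, hw, hI, hD⟩ := h
  have hσd : σ ∈ P.decompositionSubgroup ℚ := Local.mem_decomposition_of_inertia hσ
  obtain ⟨x, z, hx, hz, hxz⟩ := hD φ hφ
  have hord : IsOrdPoint r P φ z := ⟨w, hw, fun g hg => by
    obtain ⟨x', -, hx', -, -⟩ := hD g hg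
    rw [hx']
    simp [qcoord]
    ring, hI, hz⟩
  refine ⟨z, hord, ?_⟩
  have hz0 := ordPoint_ne_zero hord
  have hz' : ∀ v, qcoord w (r (σ * φ) *ᵥ v) = z * qcoord w v := fun v => by
    rw [map_mul, ← Matrix.mulVec_mulVec, hI σ hσ, hz]
  obtain ⟨x', z', hx', hz'', hxz'⟩ := hD (σ * φ) (mul_mem hσd hφ)
  have hzz : z' = z := by
    by_contra hzne
    refine hw (funext fun i => ?_)
    have e := fun v : Fin 2 → A => (hz' v).symm.trans (hz'' v)
    have h1 := e ![1, 0]
    have h0 := e ![0, 1]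
    simp [qcoord] at h0 h1
    fin_cases i
    · exact h0.resolve_left (Ne.symm hzne)
    · exact h1.resolve_left (Ne.symm hzne)
  subst hzz
  have key : ∀ (g : GQ) (y : A), (∀ v, qcoord w (r g *ᵥ v) = z' * qcoord w v) → r g *ᵥ w = y • w →
      y = algebraMap O A (χ g) * z' → z' ^ 2 = 1 ∨ algebraMap O A (χ g) = 1 := by
    intro g y h1 h2 h3
    have q1 := quad_of_qcoord hw h1
    have q2 := quad_of_eigen hw h2
    rw [hdet g] at q1 q2
    by_cases hy : y = z'
    · exact .inr (mul_right_cancel₀ hz0 (by rw [one_mul, ← h3, hy]))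
    · left
      have h4 : y + z' - (r g).trace = 0 := by
        refine (mul_eq_zero.mp (show (y - z') * (y + z' - (r g).trace) = 0 by
          linear_combination q2 - q1)).resolve_left (sub_ne_zero.mpr hy)
      refine mul_left_cancel₀ (hdet g ▸ det_rep_ne_zero g : algebraMap O A (χ g) ≠ 0) ?_
      rw [h3] at h4
      linear_combination z' * h4 - q1
  rcases key φ x hz hx hxz with e | e
  · exact e
  rcases key (σ * φ) x' hz'' hx' hxz' with e' | e'
  · exact e'
  · rw [map_mul χ, map_mul (algebraMap O A), e, mul_one] at e'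
    exact absurd e' hne

end Algebra

variable {O : Type} [CommRing O] [IsDomain O] [IsDiscreteValuationRing O]
  [IsAdicComplete (maximalIdeal O) O] [Finite (ResidueField O)]
  {p r : ℕ} [Fact p.Prime] [Algebra (ZMod p) (ResidueField O)] {I : Type} [Fintype I]
  {C : Ctx O p r I} {n : ℕ} {L : List (Option I)}

variable (C) in
omit [Finite (ResidueField O)] in
/-- Some inertia element at `p` has `1 - χ` a unit. -/
theorem Ctx.exists_inertia_unit {A : ValuationSubring Qb} (hA : A.LiesOverPrime p) :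
    ∃ σ ∈ A.inertiaSubgroupIn ℚ, IsUnit (1 - C.χ σ) := by
  obtain ⟨σ, hσ, hc⟩ := TW.Flat.exists_inertia_cycloChar (p := p) hA (-1)
  refine ⟨σ, hσ, ?_⟩
  have h1 : residue O (C.χ σ) = -1 := by
    refine (C.det_cyclo σ).trans ?_
    rw [C.twHyp.detCyclo, hc, Units.val_neg, Units.val_one, map_neg, map_one]
  rw [← residue_ne_zero_iff_isUnit, map_sub, map_one, h1, sub_neg_eq_add, one_add_one_eq_two]
  exact TW.two_ne_zero_of (k := ResidueField O) C.twHyp.ne_two

namespace Stage

variable (S : Stage C n)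

omit [Finite (ResidueField O)] in
/-- Residues of scalars are respected. -/
theorem algebraMap_mem {o : O} (ho : o ∈ maximalIdeal O) :
    algebraMap O S.R o ∈ maximalIdeal S.R := by
  refine (mem_maximalIdeal _).mpr fun hu => (mem_maximalIdeal _).mp ho ?_
  have hu' := hu.map (S.ptAt 0)
  rw [AlgHom.commutes] at hu'
  exact isUnit_of_algebraMap (S.pts 0).injective _ hu'

omit [Finite (ResidueField O)] in
/-- The traces reduce to the residual ones. -/
theorem trace_sub_mem (g : GQ) {t : O}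
    (ht : residue O t = Matrix.trace (C.ρ g : Matrix (Fin 2) (Fin 2) (ResidueField O))) :
    Matrix.trace (S.M.rho g) - algebraMap O S.R t ∈ maximalIdeal S.R := by
  obtain ⟨o₀, h₀, h₀'⟩ := S.M.residual g 0 0
  obtain ⟨o₁, h₁, h₁'⟩ := S.M.residual g 1 1
  have ho : o₀ + o₁ - t ∈ maximalIdeal O := by
    rw [← residue_eq_zero_iff, map_sub, map_add, h₀, h₁, ht, Matrix.trace_fin_two, sub_self]
  have := add_mem (add_mem h₀' h₁') (S.algebraMap_mem ho)
  rw [map_sub, map_add] at this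
  rw [Matrix.trace_fin_two]
  convert this using 1
  ring

/-- The unit root from two traces. -/
def uEl (σ φ : GQ) : S.R :=
  (Matrix.trace (S.M.rho (σ * φ)) - algebraMap O S.R (C.χ σ) * Matrix.trace (S.M.rho φ)) *
    algebraMap O S.R (Ring.inverse (1 - C.χ σ))

/-- The trace at `p`: the unit root plus `p` over it. -/
def tEl (σ φ : GQ) : S.R := S.uEl σ φ + (p : S.R) * Ring.inverse (S.uEl σ φ)

variable {S} {σ φ : GQ}

omit [Finite (ResidueField O)] in
/-- The values of the unit root at ordinary points. -/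
theorem IsPt.uEl {G : GalPoint C n} {g : S.R →ₐ[O] G.A} (hg : S.IsPt G g)
    {A : ValuationSubring Qb} {z : G.A} (hz : IsOrdPoint G.rep A φ z)
    (hσ : σ ∈ A.inertiaSubgroupIn ℚ) (hu : IsUnit (1 - C.χ σ)) : g (S.uEl σ φ) = z := by
  rw [Stage.uEl, map_mul g, map_sub g, map_mul g, AlgHom.commutes, AlgHom.commutes, hg.trace, hg.trace,
    ← G.det_eq σ, ← ordPoint_formula hz hσ, G.det_eq, ← map_one (algebraMap O G.A), ← map_sub,
    mul_assoc, ← map_mul, Ring.mul_inverse_cancel _ hu, map_one, mul_one]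

omit [Finite (ResidueField O)] in
/-- The unit root is residually the one of any lift. -/
theorem uEl_sub_mem (hu : IsUnit (1 - C.χ σ)) (t : GQ → O)
    (ht : ∀ g, residue O (t g) = Matrix.trace (C.ρ g : Matrix (Fin 2) (Fin 2) (ResidueField O)))
    {η : O} (hη : η * (1 - C.χ σ) = t (σ * φ) - C.χ σ * t φ) :
    S.uEl σ φ - algebraMap O S.R η ∈ maximalIdeal S.R := by
  have hη' : η = (t (σ * φ) - C.χ σ * t φ) * Ring.inverse (1 - C.χ σ) := by
    rw [← hη, mul_assoc, Ring.mul_inverse_cancel _ hu, mul_one]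
  rw [hη', Stage.uEl, map_mul (algebraMap O S.R), ← sub_mul, map_sub (algebraMap O S.R),
    map_mul (algebraMap O S.R)]
  refine Ideal.mul_mem_right _ _ ?_
  convert sub_mem (S.trace_sub_mem _ (ht (σ * φ)))
    (Ideal.mul_mem_left _ (algebraMap O S.R (C.χ σ)) (S.trace_sub_mem _ (ht φ))) using 1
  ring

omit [Finite (ResidueField O)] in
theorem isUnit_uEl {η : O} (hη : IsUnit η)
    (h : S.uEl σ φ - algebraMap O S.R η ∈ maximalIdeal S.R) : IsUnit (S.uEl σ φ) := by
  by_contra hn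
  have := sub_mem ((mem_maximalIdeal (S.uEl σ φ)).mpr hn) h
  rw [sub_sub_cancel] at this
  exact (mem_maximalIdeal _).mp this (hη.map _)

theorem toSub_uEl {m : ℕ} [NeZero m] (e : Fin m → Fin S.m) (σ φ : GQ) :
    S.toSub e (S.uEl σ φ) = (S.sub e).uEl σ φ := by
  rw [Stage.uEl, Stage.uEl, map_mul (S.toSub e), map_sub (S.toSub e), map_mul (S.toSub e),
    AlgHom.commutes, AlgHom.commutes,
    S.toSub_trace, S.toSub_trace]

theorem toSub_tEl {m : ℕ} [NeZero m] (e : Fin m → Fin S.m) (hu : IsUnit (S.uEl σ φ)) :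
    S.toSub e (S.tEl σ φ) = (S.sub e).tEl σ φ := by
  have hinv : S.toSub e (Ring.inverse (S.uEl σ φ)) = Ring.inverse ((S.sub e).uEl σ φ) := by
    rw [← S.toSub_uEl e]
    refine (hu.map (S.toSub e)).mul_left_cancel ?_
    rw [Ring.mul_inverse_cancel _ (hu.map (S.toSub e)), ← map_mul,
      Ring.mul_inverse_cancel _ hu, map_one]
  rw [Stage.tEl, Stage.tEl, map_add, map_mul, map_natCast, hinv, S.toSub_uEl]

omit [Finite (ResidueField O)] in
theorem tEl_mul_uEl (hu : IsUnit (S.uEl σ φ)) :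
    S.tEl σ φ * S.uEl σ φ = S.uEl σ φ ^ 2 + (p : S.R) := by
  rw [Stage.tEl, add_mul, mul_assoc, Ring.inverse_mul_cancel _ hu, mul_one, sq]

/-- An action on a level read through a sub-stage. -/
theorem isAct_comp {m : ℕ} [NeZero m] {e : Fin m → Fin S.m}
    {a : (S.sub e).R →ₐ[O] Module.End (Diamond O r p n) (C.V n L)} (ha : (S.sub e).IsAct L a) :
    S.IsAct L (a.comp (S.toSub e)) := fun l hl => by
  rw [AlgHom.comp_apply, S.toSub_trFrob]
  exact ha l hl

/-- At a level prime to `p` the trace at `p` acts as the normalised operator. -/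
theorem IsAct.act_tEl {a : S.R →ₐ[O] Module.End (Diamond O r p n) (C.V n L)} (ha : S.IsAct L a)
    (hd : S.Detects L) (hi : none ∉ L) {A : ValuationSubring Qb} (hA : A.LiesOverPrime p)
    (hφ : A.IsFrobeniusAt φ p) {v : Fin 2 → ResidueField O} (hv : TW.OrdLine C.ρ A v)
    (hσ : σ ∈ A.inertiaSubgroupIn ℚ) (hu : IsUnit (1 - C.χ σ)) (huu : IsUnit (S.uEl σ φ)) :
    a (S.tEl σ φ) = C.κv n (C.place none) •
      localOp (C.modulus_dvd_lvl n L) (C.θ n) C.pr (C.ξ n) (C.place none) := by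
  have hp : ¬ p ∣ C.lvl n L := C.not_dvd_place (i := none) hi
  refine ha.eq_smul_op hd (C.κv n (C.place none))
    ⟨C.place none, hp, (Fact.out : p.Prime).ne_zero⟩ fun P g hg => ?_
  obtain ⟨z, hz, hzx⟩ := P.exists_unitRoot C hp hA hφ hv
  have hgu : g (S.uEl σ φ) = z := hg.uEl hz hσ hu
  refine mul_right_cancel₀ (ordPoint_ne_zero hz) ?_
  refine Eq.trans ?_ hzx.symm
  rw [← hgu, ← map_mul g, tEl_mul_uEl huu, map_add g, map_pow g, map_natCast g]

/-- Points covered by a sub-stage detect the new quotient. -/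
theorem DetectsNew.ofSub {m : ℕ} [NeZero m] {e : Fin m → Fin S.m} {i : Option I} {hi : i ∉ L}
    {Q : LevelPoint C n (i :: L) → Prop} (h : (S.sub e).DetectsNew hi Q) :
    S.DetectsNew hi fun P => Q P ∧ (S.sub e).Covers P.toGal := by
  obtain ⟨m', pt, hc, hf⟩ := h
  exact ⟨m', pt, fun k => ⟨(hc k).1.ofSub, (hc k).2, (hc k).1⟩, hf⟩

set_option maxHeartbeats 1000000 in
/-- **The wall maps at `p`**: `a`, `a'` the actions on the level and on the level with `p`; what
vanishes in a sub-stage detecting the new quotient maps into the restrictions. -/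
theorem exists_wall_p {m₁ m₂ : ℕ} [NeZero m₁] [NeZero m₂] {e₁ : Fin m₁ → Fin S.m}
    {e₂ : Fin m₂ → Fin S.m}
    {a : (S.sub e₁).R →ₐ[O] Module.End (Diamond O r p n) (C.V n L)}
    {a' : S.R →ₐ[O] Module.End (Diamond O r p n) (C.V n (none :: L))}
    (hL : C.Admissible L) (hi : none ∉ L) (ha : (S.sub e₁).IsAct L a)
    (hd : (S.sub e₁).Detects L) (ha' : S.IsAct (none :: L) a')
    {Q : LevelPoint C n (none :: L) → Prop} (hnew : (S.sub e₂).DetectsNew hi Q)
    {A : ValuationSubring Qb} (hA : A.LiesOverPrime p) (hφ : A.IsFrobeniusAt φ p)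
    {v : Fin 2 → ResidueField O} (hv : TW.OrdLine C.ρ A v)
    (hσ : σ ∈ A.inertiaSubgroupIn ℚ) (hu : IsUnit (1 - C.χ σ)) (huu : IsUnit (S.uEl σ φ)) :
    ∃ w : LinWall (a.comp (S.toSub e₁)) a' (p : S.R) (S.tEl σ φ),
      ∀ y, S.toSub e₂ y = 0 → ∀ x, ∃ u : Fin 2 → C.V n L, a' y x = ∑ j, w.res j (u j) := by
  have huu₁ : IsUnit ((S.sub e₁).uEl σ φ) := S.toSub_uEl e₁ σ φ ▸ huu.map (S.toSub e₁)
  have htr : (a.comp (S.toSub e₁)) (S.tEl σ φ) = C.κv n (C.place none) •
      localOp (C.modulus_dvd_lvl n L) (C.θ n) C.pr (C.ξ n) (C.place none) := by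
    rw [AlgHom.comp_apply, S.toSub_tEl e₁ huu]
    exact ha.act_tEl hd hi hA hφ hv hσ hu huu₁
  obtain ⟨w, hw⟩ := exists_wall_of_trace (i := none) hL hi (isAct_comp ha) ha' htr
  refine ⟨w, fun y hy x => hw _ (ha'.mem_alphaRange hnew.ofSub (fun P g hg hQ => ?_) x)⟩
  obtain ⟨g₂, hg₂⟩ := hQ.2
  rw [hg.unique hg₂.ofSub]
  change g₂ (S.toSub e₂ y) = 0
  rw [hy, map_zero]

theorem map_cfgIdeal {m : ℕ} [NeZero m] (e : Fin m → Fin S.m) (B : I → Cfg) :
    (S.cfgIdeal B).map (S.toSub e) = (S.sub e).cfgIdeal B := by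
  change (S.cfgIdeal B).map (S.toSub e).toRingHom = _
  rw [Stage.cfgIdeal, Stage.cfgIdeal, Ideal.map_iSup]
  refine iSup_congr fun i => ?_
  rw [Ideal.map_span, ← cfgEqns_map, map_natCast]
  congr 2
  · exact (S.toSub e).commutes _
  · change ((S.M.rho (C.Fr.frame i).gen - 1).map (S.toSub e)) = _
    rw [Matrix.map_sub _ (map_sub _), Matrix.map_one _ (map_zero _) (map_one _), S.toSub_rho]

end Stage

end FermatAgent.RTLift.Setup
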