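import Fermat.Agent.RTLift.Setup.Chain
import Fermat.Agent.RTLift.Setup.WallP

/-!
# The system of a curve multiplicative at `p` with flat residual representation

Per step: flat points of the chain, all points of `none :: top`, strict new points and the curve;
no condition at `p` on the whole stage, flat and strict on the two sub-stages. The strict component
of the cokernel of the wall at `p` carries the curve.
-/

set_option autoImplicit false

noncomputable section

namespace FermatAgent.RTLift.Setup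

open IsLocalRing FermatAgent.RTLift.Engine FermatAgent.RTLift.LocalRings FermatAgent.RTLift.Modules
  Matrix Filter
open FermatAgent.RTLift.Galois (IsOrdPoint IsStrictPoint)

local notation "Qb" => AlgebraicClosure ℚ
local notation "GQ" => AlgebraicClosure ℚ ≃ₐ[ℚ] AlgebraicClosure ℚ

variable {O : Type} [CommRing O] [IsDomain O] [IsDiscreteValuationRing O]
  [IsAdicComplete (maximalIdeal O) O]
  {p r : ℕ} [Fact p.Prime] [Algebra (ZMod p) (ResidueField O)] {I : Type} [Fintype I]
  {C : Ctx O p r I} {n : ℕ}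

omit [IsDomain O] [IsDiscreteValuationRing O] [IsAdicComplete (maximalIdeal O) O] in
/-- An element acting as a scalar acts as the scalar on the cokernel. -/
theorem cokerAct_algebraMap {Λ : Type} [CommRing Λ] [Algebra O Λ] {Rb R₂ : Type} [CommRing Rb]
    [Algebra O Rb] [CommRing R₂] [Algebra O R₂]
    {P P' : Type} [AddCommGroup P] [Module Λ P] [Module O P] [IsScalarTower O Λ P]
    [AddCommGroup P'] [Module Λ P'] [Module O P'] [IsScalarTower O Λ P']
    {aP : Rb →ₐ[O] Module.End Λ P} {aP' : Rb →ₐ[O] Module.End Λ P'} {q tr : Rb}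
    (w : LinWall aP aP' q tr) {φ : Rb →ₐ[O] R₂} {aK : R₂ →ₐ[O] Module.End Λ w.coker}
    (h : ∀ y v, aK (φ y) (w.proj v) = w.proj (aP' y v)) {y : Rb} {d : Λ}
    (hy : aP' y = algebraMap Λ _ d) : aK (φ y) = algebraMap Λ _ d :=
  LinearMap.ext fun x => by
    rw [← w.proj_coe x, h, hy, Module.algebraMap_end_apply, Module.algebraMap_end_apply, map_smul]

/-- Variables go to non-units. -/
theorem Stage.map_X_mem [Finite (ResidueField O)] (S : Stage C n) {rv : ℕ}
    (f : Ambient O I rv →ₐ[O] MvPowerSeries (I × Fin 3) S.R) (v : Vars I rv) :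
    f (MvPowerSeries.X v) ∈ maximalIdeal (MvPowerSeries (I × Fin 3) S.R) := by
  have : IsLocalHom (algebraMap O S.R) := ⟨fun o ho => by
    by_contra hn
    exact (mem_maximalIdeal _).mp (S.algebraMap_mem ((mem_maximalIdeal o).mpr hn)) ho⟩
  have : Finite (ResidueField S.R) := Module.finite_of_finite (ResidueField O)
  let g : Ambient O I rv →+* ResidueField S.R :=
    (residue S.R).comp ((MvPowerSeries.constantCoeff (σ := I × Fin 3)).comp f.toRingHom)
  have hg : g (MvPowerSeries.X v) = 0 := by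
    by_contra hne
    let := Fintype.ofFinite (ResidueField S.R)
    have hN := FiniteField.pow_card_sub_one_eq_one (g (MvPowerSeries.X v)) hne
    have hN0 : Fintype.card (ResidueField S.R) - 1 ≠ 0 :=
      Nat.sub_ne_zero_of_lt Fintype.one_lt_card
    have hu : IsUnit
        (1 - MvPowerSeries.X v ^ (Fintype.card (ResidueField S.R) - 1) : Ambient O I rv) := by
      rw [MvPowerSeries.isUnit_iff_constantCoeff, map_sub, map_one, map_pow,
        MvPowerSeries.constantCoeff_X, zero_pow hN0, sub_zero]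
      exact isUnit_one
    have h0 := hu.map g
    rw [map_sub, map_one, map_pow, hN, sub_self] at h0
    exact not_isUnit_zero h0
  refine (mem_maximalIdeal _).mpr fun hu => ?_
  have h := (MvPowerSeries.isUnit_iff_constantCoeff.mp hu).map (residue S.R)
  change IsUnit (g (MvPowerSeries.X v)) at h
  rw [hg] at h
  exact not_isUnit_zero h

/-- A level with a non-zero module has a point. -/
theorem exists_levelPoint [Finite (ResidueField O)] [CharZero O] {L : List (Option I)}
    (hL : C.Admissible L) (hne : C.V₀ L ≠ ⊥) :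
    Nonempty (LevelPoint C n L) := by
  obtain ⟨m, pt, h⟩ := exists_levelPoints C n hL
  rcases m with _ | m
  · exfalso
    obtain ⟨b⟩ := C.exists_basis (n := n) hL
    refine b.ne_zero ⟨0, C.finrank_pos hL hne⟩ (Subtype.ext ?_)
    have h1 := h 1 (fun i => i.elim0) _ (b ⟨0, C.finrank_pos hL hne⟩).2
    rwa [map_one, Module.End.one_apply] at h1
  · exact ⟨pt 0⟩

namespace CurveData

variable {W : WeierstrassCurve ℤ} {M : ℕ} (d : CurveData C W M)

/-- The stage of a step with its flat and strict sub-stages. -/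
theorem exists_pmultStage [CharZero O] [Finite (ResidueField O)] (h0 : none ∉ d.L₀)
    (hi : none ∉ d.topLevel)
    {A : ValuationSubring Qb} (hA : A.LiesOverPrime p) {φ : GQ} (hφ : A.IsFrobeniusAt φ p)
    (hs : IsStrictPoint C.χ d.rep A) {v : Fin 2 → ResidueField O} (hv : TW.OrdLine C.ρ A v) :
    ∃ (S : Stage C n) (m₁ : ℕ) (_ : NeZero m₁) (e₁ : Fin m₁ → Fin S.m) (m₂ : ℕ)
      (_ : NeZero m₂) (e₂ : Fin m₂ → Fin S.m),
      (∀ k, (DefRing.toAdic ((S.sub e₁).pts k).rep ((S.sub e₁).pts k).cont).IsFlatAt p ∧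
        ∃ z, IsOrdPoint ((S.sub e₁).pts k).rep A φ z) ∧
      (∀ k, IsStrictPoint C.χ ((S.sub e₂).pts k).rep A) ∧
      (S.sub e₁).Ready d.L₀ d.addPlaces ∧ (S.sub e₂).Covers (d.galPoint n) ∧
      ((S.sub e₂).DetectsNew hi fun P => IsStrictPoint C.χ P.rep A) ∧
      S.Detects (none :: d.topLevel) := by
  have hL' := Ctx.Admissible.cons C d.admissible_topLevel hi
  obtain ⟨lC, hC1, hC2⟩ :=
    exists_chainList (n := n) d.admissible d.nodup_addPlaces d.notMem_of_mem_addPlaces
  obtain ⟨P₀⟩ := exists_levelPoint (n := n) d.admissible d.base_ne_bot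
  obtain ⟨lA, -, hA2⟩ := exists_levelList (n := n) hL'
  obtain ⟨lS, hS1, hS2⟩ := exists_newList_p (n := n) d.admissible_topLevel hi hA
  set l₁ := P₀.toGal :: lC with hl₁
  set l₂ := d.galPoint n :: lS with hl₂
  set l := l₁ ++ l₂ ++ lA with hl
  have hne : l ≠ [] := by simp [hl, hl₁]
  set S := Stage.ofList l hne
  have hmem : ∀ G ∈ l, ∃ k, S.pts k = G := fun G hG => Stage.exists_pts_ofList hne hG
  obtain ⟨m₁, hm₁, e₁, he₁, hc₁⟩ := S.exists_sub (l := l₁) (by simp [hl₁])
    fun G hG => hmem G (by simp [hl, hG])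
  obtain ⟨m₂, hm₂, e₂, he₂, hc₂⟩ := S.exists_sub (l := l₂) (by simp [hl₂])
    fun G hG => hmem G (by simp [hl, hG])
  refine ⟨S, m₁, hm₁, e₁, m₂, hm₂, e₂, fun k => ?_, fun k => ?_,
    hC2 _ fun G hG => hc₁ G (List.mem_cons_of_mem _ hG), hc₂ _ List.mem_cons_self,
    hS2 _ fun G hG => hc₂ G (List.mem_cons_of_mem _ hG),
    hA2 _ fun G hG => Stage.covers_ofList hne (by simp [hl, hG])⟩
  · have key : ∀ {L' : List (Option I)}, none ∉ L' → ∀ P : LevelPoint C n L',
        (DefRing.toAdic P.toGal.rep P.toGal.cont).IsFlatAt p ∧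
          ∃ z, IsOrdPoint P.toGal.rep A φ z := fun hn P => by
      obtain ⟨z, hz, -⟩ := P.exists_unitRoot C (C.not_dvd_place (i := none) hn) hA hφ hv
      exact ⟨P.isFlatAt C hn, z, hz⟩
    change (DefRing.toAdic (S.pts (e₁ k)).rep (S.pts (e₁ k)).cont).IsFlatAt p ∧
      ∃ z, IsOrdPoint (S.pts (e₁ k)).rep A φ z
    rcases List.mem_cons.mp (he₁ k) with h | h
    · rw [h]; exact key h0 P₀
    · obtain ⟨L', -, hn, P, hP⟩ := hC1 _ h
      rw [hP]; exact key (fun hm => h0 (hn.mp hm)) P
  · change IsStrictPoint C.χ (S.pts (e₂ k)).rep A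
    rcases List.mem_cons.mp (he₂ k) with h | h
    · rw [h]; exact hs
    · exact hS1 _ h

set_option maxHeartbeats 8000000 in
/-- The wall at `p`: the system of the curve at the top level with `p` added. -/
theorem hasPoint_pmult [CharZero O] [Finite (ResidueField O)] (h0 : none ∉ d.L₀)
    {A : ValuationSubring Qb} (hA : A.LiesOverPrime p)
    (hs : IsStrictPoint C.χ d.rep A) {v : Fin 2 → ResidueField O} (hv : TW.OrdLine C.ρ A v) :
    C.HasPointAt (none :: d.topLevel) := by
  classical
  have hi : none ∉ d.topLevel := mt d.none_mem_topLevel.mp h0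
  have hL := d.admissible_topLevel
  have hL' := Ctx.Admissible.cons C hL hi
  -- Frobenius, inertia and the sign
  obtain ⟨φ, hφ⟩ := RT.exists_isFrobeniusAt (Fact.out : p.Prime) hA
  obtain ⟨σ, hσ, hu⟩ := C.exists_inertia_unit hA
  obtain ⟨z₀, hz₀, hz₀2⟩ := strictPoint_ordPoint hs (fun g => d.det_eq g)
    hφ.mem_decompositionSubgroup hσ fun h => by
      rw [Algebra.algebraMap_self, RingHom.id_apply] at h
      rw [h, sub_self] at hu
      exact not_isUnit_zero hu
  obtain ⟨η, rfl⟩ : ∃ η : ℤˣ, z₀ = ((η : ℤ) : O) := by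
    rcases sq_eq_one_iff.mp hz₀2 with h | h
    · exact ⟨1, by simp [h]⟩
    · exact ⟨-1, by simp [h]⟩
  have hηeq : ((η : ℤ) : O) * (1 - C.χ σ) =
      Matrix.trace (d.rep (σ * φ)) - C.χ σ * Matrix.trace (d.rep φ) := by
    rw [← d.det_eq σ]
    exact ordPoint_formula hz₀ hσ
  have huη : ∀ {n : ℕ} (S : Stage C n),
      S.uEl σ φ - algebraMap O S.R ((η : ℤ) : O) ∈ maximalIdeal S.R := fun S =>
    Stage.uEl_sub_mem hu (fun g => Matrix.trace (d.rep g)) (fun g => d.residual g) hηeq
  have hηu : IsUnit ((η : ℤ) : O) := (η.isUnit).map (Int.castRingHom O)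
  have huu : ∀ {n : ℕ} (S : Stage C n), IsUnit (S.uEl σ φ) := fun S =>
    Stage.isUnit_uEl hηu (huη S)
  -- stages and presentations
  choose S m₁ hm₁ e₁ m₂ hm₂ e₂ hflat hstrict hready hcov hnew hdet using fun n =>
    d.exists_pmultStage (n := n) h0 hi hA hφ hs hv
  obtain ⟨e, he⟩ := Galois.exists_surjection_any (O := O) (χ := C.χ) C.twHyp C.Fr C.unramified
  have hb : ∀ n, ∃ π : Ambient O I (r + e) →ₐ[O] MvPowerSeries (I × Fin 3) (S n).R,
      Function.Surjective π ∧ Galois.IsFramedMap (S n).M C.Fr C.D (r + e) π := fun n => by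
    obtain ⟨π, h1, h2⟩ := he _ (C.Q_tw n) _ (S n).M (S n).unramifiedOutside C.D C.datumLifts
    revert π
    rw [C.card_image_Q n]
    exact fun π h1 h2 => ⟨π, h1, h2⟩
  choose πb hπb hfrb using hb
  obtain ⟨⟨S₁, π₁, hπ₁, hfr₁⟩, hT₁⟩ :=
    exists_tower_flat (fun n => (S n).sub (e₁ n)) fun n k => (hflat n k).1
  change S₁ = _ at hT₁
  subst hT₁
  obtain ⟨⟨S₂, π₂, hπ₂, hfr₂⟩, hT₂⟩ :=
    exists_tower_strict (fun n => (S n).sub (e₂ n)) hA hstrict
  change S₂ = _ at hT₂
  subst hT₂
  set Tb : Tower C (r + e) := ⟨S, πb, hπb, hfrb⟩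
  set T₁ : Tower C r := ⟨_, π₁, hπ₁, hfr₁⟩
  set T₂ : Tower C r := ⟨_, π₂, hπ₂, hfr₂⟩
  let f₁ : FamilyMap Tb.F T₁.F := familyMap S πb hπb hfrb e₁ π₁ hπ₁ hfr₁
  let f₂ : FamilyMap Tb.F T₂.F := familyMap S πb hπb hfrb e₂ π₂ hπ₂ hfr₂
  -- the top level in the flat tower
  have hr : T₁.Ready d.L₀ d.addPlaces := Tower.ready_of_stages hready
  have hd₀ : T₁.Detects d.L₀ := fun n => (hready n).detects_base
  have hd₁ : T₁.Detects d.topLevel := hr.detects
  have hdb : Tb.Detects (none :: d.topLevel) := hdet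
  have hsupp := d.exists_supp hr hd₀
  -- the wall
  have hex := fun n => Stage.exists_wall_p (S := S n) (e₁ := e₁ n) (e₂ := e₂ n) hL hi
    (T₁.isAct hd₁ n) (hd₁ n) (Tb.isAct hdb n) (hnew n) hA hφ hv hσ hu (huu (S n))
  choose w hw using hex
  set b : ∀ n, Module.Basis (Fin (Module.finrank O (C.V₀ d.topLevel))) (Diamond O r p n)
    (C.V n d.topLevel) := fun n => (C.exists_basis hL).some
  set b' : ∀ n, Module.Basis (Fin (Module.finrank O (C.V₀ (none :: d.topLevel))))
    (Diamond O r p n) (C.V n (none :: d.topLevel)) := fun n => (C.exists_basis hL').some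
  have : ∀ n, Module.Finite (Diamond O r p n) (C.V n (none :: d.topLevel)) := fun n =>
    Module.Finite.of_basis (b' n)
  have : ∀ n, Module.Free (Diamond O r p n) (C.V n (none :: d.topLevel)) := fun n =>
    Module.Free.of_basis (b' n)
  let bK := fun n => ((w n).exists_basis_coker (b n) (b' n)).some
  have haK := fun n => (w n).exists_cokerAct ((S n).toSub (e₂ n))
    ((S n).toSub_surjective (e₂ n)) (hw n)
  choose aK haK using haK
  have hzK : ∀ n j, aK n (T₂.F.z n j) = algebraMap (Diamond O r p n)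
      (Module.End (Diamond O r p n) (w n).coker) (diamondZ O r p n j) := fun n j =>
    (congrArg (aK n) ((S n).toSub_zEl (e₂ n) j)).symm.trans
      (cokerAct_algebraMap (w n) (haK n) (Tb.act_z hdb n j))
  let u₁ : ∀ n, T₁.F.R n := fun n => ((S n).sub (e₁ n)).uEl σ φ
  have hroot : ∀ n, T₁.act hd₁ n (f₁.φ n ((S n).tEl σ φ) * u₁ n) =
      T₁.act hd₁ n (u₁ n ^ 2 + (p : T₁.F.R n)) := fun n => by
    refine congrArg _ (((congrArg (· * u₁ n) ((S n).toSub_tEl (e₁ n) (huu (S n)))).trans ?_))
    exact Stage.tEl_mul_uEl (huu _)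
  let : ∀ n, AddCommGroup (C.V n d.topLevel) := fun _ => inferInstance
  let : ∀ n, Module O (C.V n d.topLevel) := fun _ => inferInstance
  let : ∀ n, Module (Diamond O r p n) (C.V n d.topLevel) := fun _ => inferInstance
  have : ∀ n, IsScalarTower O (Diamond O r p n) (C.V n d.topLevel) := fun _ => inferInstance
  let : ∀ n, AddCommGroup (C.V n (none :: d.topLevel)) := fun _ => inferInstance
  let : ∀ n, Module O (C.V n (none :: d.topLevel)) := fun _ => inferInstance
  let : ∀ n, Module (Diamond O r p n) (C.V n (none :: d.topLevel)) := fun _ => inferInstance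
  have : ∀ n, IsScalarTower O (Diamond O r p n) (C.V n (none :: d.topLevel)) :=
    fun _ => inferInstance
  let : ∀ n, AddCommGroup (w n).coker := fun _ => inferInstance
  let : ∀ n, Module O (w n).coker := fun _ => inferInstance
  let : ∀ n, Module (Diamond O r p n) (w n).coker := fun _ => inferInstance
  have : ∀ n, IsScalarTower O (Diamond O r p n) (w n).coker := fun _ => inferInstance
  let wd := PWallData.ofLin (f₁ := f₁) (f₂ := f₂) (M := fun n => C.V n d.topLevel)
    (M' := fun n => C.V n (none :: d.topLevel)) b b' (T₁.act hd₁) (Tb.act hdb)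
    (fun n => (S n).tEl σ φ) u₁ w bK aK haK hroot
    (T₁.act_z hd₁) (Tb.act_z hdb) hzK
  -- the flat rings with one variable fewer
  obtain ⟨r', hr'⟩ : ∃ r', r' + 1 = r := ⟨r - 1, Nat.sub_add_cancel d.r_pos⟩
  have hflat' : ∀ n, ∃ π : Ambient O I r' →ₐ[O]
      MvPowerSeries (I × Fin 3) ((S n).sub (e₁ n)).R,
      Galois.IsFramedMap ((S n).sub (e₁ n)).M C.Fr C.D r' π ∧
      ∀ y, ∃ x c, y = π x + c * MvPowerSeries.C
        (((S n).sub (e₁ n)).uEl σ φ - algebraMap O _ ((η : ℤ) : O)) := fun n =>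
    Galois.exists_surjection_flat_unitRoot C.twHyp C.Fr C.unramified _ (C.Q_tw n)
      ((S n).sub (e₁ n)).M ((S n).sub (e₁ n)).unramifiedOutside (fun k => (hflat n k).1)
      (fun g => (C.det_cyclo g).trans (C.twHyp.detCyclo g)) hA hφ _ (fun k => by
        obtain ⟨z, hz⟩ := (hflat n k).2
        have e := (((S n).sub (e₁ n)).isPt_ptAt k).uEl hz hσ hu
        exact (congrArg (IsOrdPoint _ A φ) e).mpr hz)
      _ C.D C.datumLifts r' (hr'.trans (C.card_image_Q n).symm)
  choose π' hfr' hgen using hflat'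
  have hkills := Slot.kills_ofActs (F := T₂.F) (M := fun n => ↥(w n).coker) (hz := hzK) bK aK (𝒞 := C.cfgs (none :: d.topLevel))
    (Eventually.of_forall fun n y hy => by
      have hmap : (∏ B ∈ C.cfgs (none :: d.topLevel), (S n).cfgIdeal B).map
          ((S n).toSub (e₂ n)) =
          ∏ B ∈ C.cfgs (none :: d.topLevel), ((S n).sub (e₂ n)).cfgIdeal B :=
        (map_prod (Ideal.mapHom ((S n).toSub (e₂ n))) _ _).trans
          (Finset.prod_congr rfl fun B _ => (S n).map_cfgIdeal (e₂ n) B)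
      obtain ⟨yb, hyb, rfl⟩ := (Ideal.mem_map_iff_of_surjective _
        ((S n).toSub_surjective (e₂ n))).mp (by rw [hmap]; exact hy)
      exact (cokerAct_algebraMap (w n) (haK n) (d := 0)
        (((Tb.isAct hdb n).eq_zero_of_mem_prod (hdb n) hyb).trans
          (map_zero _).symm)).trans (map_zero _))
  have hK := wd.raise C.residue_p C.valid hr' η
    (fun n => by
      have h := huη ((S n).sub (e₁ n))
      rwa [map_intCast] at h)
    π' (fun n x => map_X_inl_eq (D := C.D) (π' n) (π₁ n)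
      (fun i => (hfr' n i).1.trans (hfr₁ n i).1.symm)
      (fun i => (hfr' n i).2.trans (hfr₁ n i).2.symm) x)
    (fun n x => ((S n).sub (e₁ n)).map_X_mem (π' n) x)
    (fun n j => by
      obtain ⟨x, c, h⟩ := hgen n (π₁ n (MvPowerSeries.X (Sum.inr j)))
      rw [map_intCast] at h
      exact ⟨x, c, h⟩)
    d.cfg_allowed d.cfg_plain hsupp (C.listed_cfgs (none :: d.topLevel))
    (fun B hB => Ctx.isPlain_of_mem_cfgs hB) hkills
  refine d.hasPointAt_of_tower (T := T₂) hcov _ hK fun n s hs' hs0 => ?_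
  have he' : MvPolynomial.aeval (fun l : C.J => (T₂.S n).trFrob l.1) s =
      f₂.φ n (MvPolynomial.aeval (fun l : C.J => (S n).trFrob l.1) s) := by
    refine Eq.trans ?_ (DFunLike.congr_fun
      (MvPolynomial.comp_aeval (fun l : C.J => (S n).trFrob l.1) ((S n).toSub (e₂ n))) s).symm
    exact congrArg (fun g => MvPolynomial.aeval g s)
      (funext fun l => ((S n).toSub_trFrob (e₂ n) l.1).symm)
  rw [he']
  refine (congrArg (fun N => Matrix.map N (diamondCC O r p n)) (wd.coker_act n _)).trans ?_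
  rw [Matrix.map_mul, Matrix.map_mul]
  refine (congrArg (fun N => _ * N * _) (Tb.slot_relation hL' hdb n s hs' hs0)).trans ?_
  rw [Matrix.mul_zero, Matrix.zero_mul]

include d in
/-- The system of the curve occurs at an admissible level. -/
theorem exists_hasPoint [CharZero O] [Finite (ResidueField O)] :
    ∃ L : List (Option I), C.Admissible L ∧ C.HasPointAt L := by
  rcases d.atP with ⟨h0, hf⟩ | ⟨A, hA, hs, h⟩
  · exact ⟨_, d.admissible_topLevel, d.hasPoint_flat h0 hf⟩
  · by_cases h0 : none ∈ d.L₀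
    · exact ⟨_, d.admissible_topLevel, d.hasPoint_strict h0 hA hs⟩
    · obtain ⟨v, hv⟩ := h.resolve_left h0
      exact ⟨_, Ctx.Admissible.cons C d.admissible_topLevel (mt d.none_mem_topLevel.mp h0),
        d.hasPoint_pmult h0 hA hs hv⟩

end CurveData

end FermatAgent.RTLift.Setup
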