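import Fermat.Agent.RTLift.Setup.Final
import Fermat.Agent.RTLift.Setup.PMult

/-!
# The minimal lifting step
-/

set_option autoImplicit false

noncomputable section

namespace FermatAgent.RTLift.Setup

/-- Minimal modularity lifting at 3 and 5. -/
theorem minimalLiftingStep : Finish.MinimalLiftingStep :=
  minimalLiftingStep_of_hasPoint fun _ _ _ _ _ _ _ _ _ _ _ _ _ _ _ _ d => d.exists_hasPoint

end FermatAgent.RTLift.Setup
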