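import Fermat.Agent.RTLift.Setup.Ctx
import Fermat.Agent.RTLift.Systems.FamilyRep

/-!
# The Hecke point and the representation of a point of a level
-/

set_option autoImplicit false

noncomputable section

namespace FermatAgent.RTLift.Setup

open IsLocalRing FermatAgent.RTLift.Engine CuspForm

local notation "Qb" => AlgebraicClosure ℚ
local notation "GQ" => AlgebraicClosure ℚ ≃ₐ[ℚ] AlgebraicClosure ℚ

section Ctx

variable {O : Type} [CommRing O] [IsLocalRing O] [IsAdicComplete (maximalIdeal O) O]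
  {p r : ℕ} [Fact p.Prime] [Algebra (ZMod p) (ResidueField O)] {I : Type} [Fintype I]
  (C : Ctx O p r I)

/-- The level of the untwisted Hecke algebra at step `n`. -/
abbrev Ctx.hlvl (n : ℕ) (L : List (Option I)) : ℕ := C.lvl n L * C.modulus n

theorem Ctx.not_dvd_hlvl {n : ℕ} {L : List (Option I)} {l : ℕ} (hl : l.Prime)
    (h : ¬ l ∣ C.lvl n L) : ¬ l ∣ C.hlvl n L := fun hd =>
  h ((hl.dvd_mul.mp hd).elim id fun h' => h'.trans (C.modulus_dvd_lvl n L))

theorem Ctx.notMem_primeFactors_hlvl {n : ℕ} {L : List (Option I)} {l : ℕ} (hl : l.Prime)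
    (h : ¬ l ∣ C.lvl n L) : l ∉ (↑(C.hlvl n L).primeFactors : Set ℕ) := fun hm =>
  C.not_dvd_hlvl hl h (Nat.dvd_of_mem_primeFactors hm)

end Ctx

instance Ctx.neZero_hlvl {O : Type} [CommRing O] [IsLocalRing O]
    [IsAdicComplete (maximalIdeal O) O] {p r : ℕ} [Fact p.Prime]
    [Algebra (ZMod p) (ResidueField O)] {I : Type} [Fintype I] (C : Ctx O p r I) (n : ℕ)
    (L : List (Option I)) : NeZero (C.hlvl n L) :=
  ⟨mul_ne_zero (C.neZero_lvl n L).out
    (Finset.prod_ne_zero_iff.mpr fun j _ => (C.Q n j).2.ne_zero)⟩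

variable {O : Type} [CommRing O] [IsDomain O] [IsDiscreteValuationRing O]
  [IsAdicComplete (maximalIdeal O) O] [Finite (ResidueField O)] [CharZero O]
  {p r : ℕ} [Fact p.Prime] [Algebra (ZMod p) (ResidueField O)] {I : Type} [Fintype I]

/-- A point of a level at step `n`: the values of the good operators, the point of the Hecke
algebra, and the representation. -/
structure PointData (C : Ctx O p r I) (n : ℕ) (L : List (Option I)) where
  /-- the ring of values -/
  A : Type
  [instCommRing : CommRing A]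
  [instIsDomain : IsDomain A]
  [instIsDVR : IsDiscreteValuationRing A]
  [instIsAdicComplete : IsAdicComplete (maximalIdeal A) A]
  [instFiniteResidue : Finite (ResidueField A)]
  [instCharZero : CharZero A]
  [instAlgebra : Algebra O A]
  [instFinite : Module.Finite O A]
  [instIsLocalHom : IsLocalHom (algebraMap O A)]
  injective : Function.Injective (algebraMap O A)
  /-- the values -/
  x : MvPolynomial (Good (C.lvl n L) 0) (Diamond O r p n) →ₐ[O] A
  /-- the point of the Hecke algebra -/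
  χ : heckeAlgebra (C.hlvl n L) 2 (↑(C.hlvl n L).primeFactors : Set ℕ) →+* A
  χ_T : ∀ l : Good (C.lvl n L) 0,
    χ (heckeAlgebra.T l.1.2 (C.not_dvd_hlvl l.1.2 l.2.1)
      (C.notMem_primeFactors_hlvl l.1.2 l.2.1)) =
      x (MvPolynomial.C (C.κv n l.1) * MvPolynomial.X l)
  /-- the representation -/
  rep : GQ →* Matrix (Fin 2) (Fin 2) A
  cont : DefRing.IsCont rep
  det_eq : ∀ σ, (rep σ).det = algebraMap O A (C.χ σ)
  trace_residual : ∀ σ, ∃ o : O,
    residue O o = Matrix.trace (C.ρ σ : Matrix (Fin 2) (Fin 2) (ResidueField O)) ∧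
      Matrix.trace (rep σ) - algebraMap O A o ∈ maximalIdeal A
  trace_frob : ∀ l : Good (C.lvl n L) 0, (l.1 : ℕ) ≠ p → ∀ P : ValuationSubring Qb,
    P.LiesOverPrime (l.1 : ℕ) → ∀ φ : GQ, P.IsFrobeniusAt φ (l.1 : ℕ) →
      Matrix.trace (rep φ) = x (MvPolynomial.C (C.κv n l.1) * MvPolynomial.X l)
  unramified : ∀ ℓ : Nat.Primes, (ℓ : ℕ) ≠ p → ¬ (ℓ : ℕ) ∣ C.lvl n L →
    ∀ P : ValuationSubring Qb, P.LiesOverPrime (ℓ : ℕ) → ∀ σ ∈ P.inertiaSubgroupIn ℚ, rep σ = 1

attribute [instance] PointData.instCommRing PointData.instIsDomain PointData.instIsDVR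
  PointData.instIsAdicComplete PointData.instFiniteResidue PointData.instCharZero
  PointData.instAlgebra PointData.instFinite PointData.instIsLocalHom

end FermatAgent.RTLift.Setup
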