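import Fermat.Agent.RTLift.Setup.Tower

/-!
# Finite lists of points detecting levels, and towers of stages
-/

set_option autoImplicit false

noncomputable section

namespace FermatAgent.RTLift.Setup

open IsLocalRing FermatAgent.RTLift.Engine FermatAgent.RTLift.LocalRings FermatAgent.RTLift.Modules
  Matrix

local notation "Qb" => AlgebraicClosure ℚ
local notation "GQ" => AlgebraicClosure ℚ ≃ₐ[ℚ] AlgebraicClosure ℚ

variable {O : Type} [CommRing O] [IsDomain O] [IsDiscreteValuationRing O]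
  [IsAdicComplete (maximalIdeal O) O] [Finite (ResidueField O)]
  {p r : ℕ} [Fact p.Prime] [Algebra (ZMod p) (ResidueField O)] {I : Type} [Fintype I]
  {C : Ctx O p r I} {n : ℕ} {L : List (Option I)}

theorem exists_levelList [CharZero O] (hL : C.Admissible L) :
    ∃ l : List (GalPoint C n), (∀ G ∈ l, ∃ P : LevelPoint C n L, G = P.toGal) ∧
      ∀ S : Stage C n, (∀ G ∈ l, S.Covers G) → S.Detects L := by
  obtain ⟨m, pt, h⟩ := exists_levelPoints C n hL
  refine ⟨List.ofFn fun k => (pt k).toGal, fun G hG => ?_, fun S hS => ⟨m, pt, fun k => hS _ ?_, h⟩⟩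
  · obtain ⟨k, rfl⟩ := List.mem_ofFn.mp hG
    exact ⟨pt k, rfl⟩
  · exact List.mem_ofFn.mpr ⟨k, rfl⟩

theorem exists_newList [CharZero O] {i : I} (hL : C.Admissible L) (hi : some i ∉ L) :
    ∃ l : List (GalPoint C n), (∀ G ∈ l, ∃ P : LevelPoint C n (some i :: L), G = P.toGal) ∧
      ∀ S : Stage C n, (∀ G ∈ l, S.Covers G) →
        S.DetectsNew hi fun P : LevelPoint C n (some i :: L) =>
          ∃ ε, Sat (.st ε) (C.D.q i : P.A) (algebraMap O P.A (C.D.c i))
            (P.rep (C.Fr.frame i).frob) (P.rep (C.Fr.frame i).gen - 1) := by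
  obtain ⟨m, pt, hst, h⟩ := exists_newPoints C n hL i hi (C.bez_spec n hi)
    fun j => C.pr_ne_place j _
  refine ⟨List.ofFn fun k => (pt k).toGal, fun G hG => ?_,
    fun S hS => ⟨m, pt, fun k => ⟨hS _ (List.mem_ofFn.mpr ⟨k, rfl⟩), hst k⟩, fun s hs v => ?_⟩⟩
  · obtain ⟨k, rfl⟩ := List.mem_ofFn.mp hG
    exact ⟨pt k, rfl⟩
  · obtain ⟨w, hw⟩ := h s hs v
    exact ⟨_, LinearMap.mem_range_self _ w, hw⟩

theorem exists_newList_p [CharZero O] (hL : C.Admissible L) (hi : none ∉ L)
    {A : ValuationSubring Qb}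
    (hA : A.LiesOverPrime p) :
    ∃ l : List (GalPoint C n), (∀ G ∈ l, Galois.IsStrictPoint C.χ G.rep A) ∧
      ∀ S : Stage C n, (∀ G ∈ l, S.Covers G) →
        S.DetectsNew hi fun P : LevelPoint C n (none :: L) =>
          Galois.IsStrictPoint C.χ P.rep A := by
  obtain ⟨m, pt, hst, h⟩ := exists_newPoints_p C n hL hi (C.bez_spec n hi)
    (fun j => C.pr_ne_place j _) hA
  refine ⟨List.ofFn fun k => (pt k).toGal, fun G hG => ?_,
    fun S hS => ⟨m, pt, fun k => ⟨hS _ (List.mem_ofFn.mpr ⟨k, rfl⟩), hst k⟩, fun s hs v => ?_⟩⟩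
  · obtain ⟨k, rfl⟩ := List.mem_ofFn.mp hG
    exact hst k
  · obtain ⟨w, hw⟩ := h s hs v
    exact ⟨_, LinearMap.mem_range_self _ w, hw⟩

namespace Stage

/-- The levels of a chain and their new quotients are detected. -/
def Ready (S : Stage C n) (L₀ : List (Option I)) : List I → Prop
  | [] => S.Detects L₀
  | i :: ls => Ready S L₀ ls ∧ S.Detects (levelAbove L₀ (i :: ls)) ∧
      ∀ hi : some i ∉ levelAbove L₀ ls,
        S.DetectsNew hi fun P : LevelPoint C n (some i :: levelAbove L₀ ls) =>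
          ∃ ε, Sat (.st ε) (C.D.q i : P.A) (algebraMap O P.A (C.D.c i))
            (P.rep (C.Fr.frame i).frob) (P.rep (C.Fr.frame i).gen - 1)

omit [Finite (ResidueField O)] in
theorem Ready.detects_base {S : Stage C n} {L₀ : List (Option I)} :
    ∀ {ls : List I}, S.Ready L₀ ls → S.Detects L₀
  | [], h => h
  | _ :: _, h => detects_base h.1

/-- The stage of a non-empty list of points. -/
def ofList (l : List (GalPoint C n)) (hl : l ≠ []) : Stage C n :=
  haveI : NeZero l.length := ⟨fun h => hl (List.length_eq_zero_iff.mp h)⟩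
  Stage.of l.get

theorem covers_ofList {l : List (GalPoint C n)} (hl : l ≠ []) {G : GalPoint C n} (h : G ∈ l) :
    (ofList l hl).Covers G := by
  obtain ⟨k, rfl⟩ := List.get_of_mem h
  exact (ofList l hl).covers_pts k

theorem pts_ofList_mem (l : List (GalPoint C n)) (hl : l ≠ []) (k : Fin (ofList l hl).m) :
    (ofList l hl).pts k ∈ l :=
  List.get_mem l k

theorem exists_pts_ofList {l : List (GalPoint C n)} (hl : l ≠ []) {G : GalPoint C n} (h : G ∈ l) :
    ∃ k, (ofList l hl).pts k = G :=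
  List.get_of_mem h

/-- A sub-stage with the points of a list. -/
theorem exists_sub (S : Stage C n) {l : List (GalPoint C n)} (hl : l ≠ [])
    (h : ∀ G ∈ l, ∃ k, S.pts k = G) :
    ∃ (m : ℕ) (_ : NeZero m) (e : Fin m → Fin S.m),
      (∀ k, S.pts (e k) ∈ l) ∧ ∀ G ∈ l, (S.sub e).Covers G := by
  have : NeZero l.length := ⟨fun h => hl (List.length_eq_zero_iff.mp h)⟩
  choose e he using fun k : Fin l.length => h _ (List.get_mem l k)
  refine ⟨l.length, inferInstance, e, fun k => he k ▸ List.get_mem l k, fun G hG => ?_⟩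
  obtain ⟨k, rfl⟩ := List.get_of_mem hG
  have h' := (S.sub e).covers_pts k
  rwa [show (S.sub e).pts k = l.get k from he k] at h'

end Stage

/-- The points of a chain of levels. -/
theorem exists_chainList [CharZero O] {L₀ : List (Option I)} (hL₀ : C.Admissible L₀) :
    ∀ {ls : List I}, ls.Nodup → (∀ i ∈ ls, some i ∉ L₀) →
    ∃ l : List (GalPoint C n),
      (∀ G ∈ l, ∃ L' : List (Option I), L'.Nodup ∧ (none ∈ L' ↔ none ∈ L₀) ∧
        ∃ P : LevelPoint C n L', G = P.toGal) ∧
      ∀ S : Stage C n, (∀ G ∈ l, S.Covers G) → S.Ready L₀ ls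
  | [], _, _ => by
    obtain ⟨l, h1, h2⟩ := exists_levelList (n := n) hL₀
    exact ⟨l, fun G hG => ⟨L₀, hL₀.nodup, Iff.rfl, h1 G hG⟩, h2⟩
  | i :: ls, hnd, hn => by
    obtain ⟨hi', hnd'⟩ := List.nodup_cons.mp hnd
    have hn' : ∀ j ∈ ls, some j ∉ L₀ := fun j hj => hn j (List.mem_cons_of_mem _ hj)
    have hi := some_notMem_levelAbove (hn i List.mem_cons_self) hi'
    obtain ⟨l, h1, h2⟩ := exists_chainList hL₀ hnd' hn'
    obtain ⟨l₁, k1, k2⟩ := exists_levelList (n := n) (admissible_levelAbove hL₀ hnd hn)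
    obtain ⟨l₂, j1, j2⟩ := exists_newList (n := n) (admissible_levelAbove hL₀ hnd' hn') hi
    have hnone : none ∈ levelAbove L₀ (i :: ls) ↔ none ∈ L₀ := by simp [levelAbove]
    refine ⟨l ++ l₁ ++ l₂, fun G hG => ?_, fun S hS =>
      ⟨h2 S fun G hG => hS G (by simp [hG]), k2 S fun G hG => hS G (by simp [hG]),
        fun _ => j2 S fun G hG => hS G (by simp [hG])⟩⟩
    rcases List.mem_append.mp hG with hG | hG
    · rcases List.mem_append.mp hG with hG | hG
      · exact h1 G hG
      · exact ⟨_, (admissible_levelAbove hL₀ hnd hn).nodup, hnone, k1 G hG⟩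
    · exact ⟨_, (admissible_levelAbove hL₀ hnd hn).nodup, hnone, j1 G hG⟩

namespace Tower

omit [Finite (ResidueField O)] in
theorem ready_of_stages {T : Tower C r} {L₀ : List (Option I)} :
    ∀ {ls : List I}, (∀ n, (T.S n).Ready L₀ ls) → T.Ready L₀ ls
  | [], h => h
  | _ :: _, h => ⟨ready_of_stages fun n => (h n).1, fun n => (h n).2.1, fun hi n => (h n).2.2 hi⟩

end Tower

/-- Stages whose points are strict at `p` form a tower. -/
theorem exists_tower_strict (S : ∀ n, Stage C n) {A : ValuationSubring Qb}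
    (hA : A.LiesOverPrime p) (h : ∀ n k, Galois.IsStrictPoint C.χ ((S n).pts k).rep A) :
    ∃ T : Tower C r, T.S = S := by
  suffices hex : ∀ n, ∃ π : Ambient O I r →ₐ[O] MvPowerSeries (I × Fin 3) (S n).R,
      Function.Surjective π ∧ Galois.IsFramedMap (S n).M C.Fr C.D r π by
    choose π h1 h2 using hex
    exact ⟨⟨S, π, h1, h2⟩, rfl⟩
  intro n
  obtain ⟨π, h1, h2⟩ := Galois.exists_surjection_strict C.twHyp C.Fr C.unramified _ (C.Q_tw n)
    (S n).M (S n).unramifiedOutside hA (h n) C.D C.datumLifts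
  revert π
  rw [C.card_image_Q n]
  exact fun π h1 h2 => ⟨π, h1, h2⟩

/-- Stages whose points are flat at `p` form a tower. -/
theorem exists_tower_flat (S : ∀ n, Stage C n)
    (h : ∀ n k, (DefRing.toAdic ((S n).pts k).rep ((S n).pts k).cont).IsFlatAt p) :
    ∃ T : Tower C r, T.S = S := by
  suffices hex : ∀ n, ∃ π : Ambient O I r →ₐ[O] MvPowerSeries (I × Fin 3) (S n).R,
      Function.Surjective π ∧ Galois.IsFramedMap (S n).M C.Fr C.D r π by
    choose π h1 h2 using hex
    exact ⟨⟨S, π, h1, h2⟩, rfl⟩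
  intro n
  obtain ⟨π, h1, h2⟩ := Galois.exists_surjection_flat C.twHyp C.Fr C.unramified _ (C.Q_tw n)
    (S n).M (S n).unramifiedOutside (h n) C.D C.datumLifts
  revert π
  rw [C.card_image_Q n]
  exact fun π h1 h2 => ⟨π, h1, h2⟩

end FermatAgent.RTLift.Setup
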