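import Fermat.Agent.RTLift.Setup.Ctx
import Fermat.Agent.RTLift.Systems.FamilyRep
import Fermat.Agent.RTLift.Old.Lift
import Fermat.Agent.RTLift.Setup.Points.Local
import Fermat.Agent.RTLift.Setup.Points.TWTrace
import Fermat.Agent.RTLift.Setup.Points.NewQuotient
import Fermat.Agent.RTLift.Setup.Points.NewTrace
import Fermat.Agent.RTLift.Setup.Points.NewP

/-!
# The points of a level with their local properties

Points with their local properties, and families of points detecting the module of a level and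
its new quotient at an auxiliary place or at `p`.
-/

set_option autoImplicit false

noncomputable section

namespace FermatAgent.RTLift.Setup

open IsLocalRing FermatAgent.RTLift.Modules FermatAgent.RTLift.Engine FermatAgent.RTLift.LocalRings
  FermatAgent.RTLift.Old CongruenceSubgroup

local notation "Qb" => AlgebraicClosure ℚ
local notation "GQ" => AlgebraicClosure ℚ ≃ₐ[ℚ] AlgebraicClosure ℚ

variable {O : Type} [CommRing O] [IsDomain O] [IsDiscreteValuationRing O]
  [IsAdicComplete (maximalIdeal O) O]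
  {p r : ℕ} [Fact p.Prime] [Algebra (ZMod p) (ResidueField O)] {I : Type} [Fintype I]

/-- A point of a level at step `n` with its local properties. -/
structure LevelPoint (C : Ctx O p r I) (n : ℕ) (L : List (Option I)) extends PointData C n L where
  trace_tw : ∀ (j : Fin r) (P : ValuationSubring Qb), P.LiesOverPrime (C.Q n j : ℕ) →
    ∀ σ ∈ P.inertiaSubgroupIn ℚ, ∀ u : (ZMod (C.modulus n))ˣ,
      (∀ i, i ≠ j → ZMod.unitsMap (Finset.dvd_prod_of_mem (fun j => (C.Q n j : ℕ))
        (Finset.mem_univ i)) u = 1) →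
      (∀ z : Qb, z ^ (C.Q n j : ℕ) = 1 → σ z = z ^ ((ZMod.unitsMap (Finset.dvd_prod_of_mem
        (fun j => (C.Q n j : ℕ)) (Finset.mem_univ j)) u : ZMod (C.Q n j : ℕ))).val) →
      Matrix.trace (rep σ) = x (MvPolynomial.C (C.κ n u + C.κ n u⁻¹))
  sat_ur : ∀ i : I, some i ∉ L → Sat .ur (C.D.q i : A) (algebraMap O A (C.D.c i))
    (rep (C.Fr.frame i).frob) (rep (C.Fr.frame i).gen - 1)
  sat_plain : ∀ i : I,
    Sat .ur (C.D.q i : A) (algebraMap O A (C.D.c i))
        (rep (C.Fr.frame i).frob) (rep (C.Fr.frame i).gen - 1) ∨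
      ∃ ε, Sat (.st ε) (C.D.q i : A) (algebraMap O A (C.D.c i))
        (rep (C.Fr.frame i).frob) (rep (C.Fr.frame i).gen - 1)

variable (C : Ctx O p r I)

/-- A residual point killing the annihilator of the patched module is a point of the level. -/
def LevelPoint.ofFamPoint [CharZero O] [Finite (ResidueField O)] {n : ℕ} {L : List (Option I)}
    (hL : C.Admissible L) (pt : LvlPt C n L)
    (hres : IsResidualPoint pt)
    (hker : ∀ s, (∀ y ∈ C.V n L, heckeHom (R := Diamond O r p n) (C.modulus_dvd_lvl n L) (C.θ n)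
      (Diamond O r p n) (id : Nat.Primes → Nat.Primes) s y = 0) → pt.x s = 0) :
    LevelPoint C n L :=
  { PointData.ofFamPoint pt hres with
    trace_tw := fun j P hP σ hσ u hu hz => by
      rw [PointData.ofFamPoint_x, MvPolynomial.rename_C]
      exact PointData.trace_tw_ofFamPoint hL pt hres hker j P hP σ hσ u hu hz
    sat_ur := fun i hi => (PointData.ofFamPoint pt hres).sat_ur i hi
    sat_plain := fun i => (PointData.ofFamPoint pt hres).sat_plain hL.nodup i }

/-- Finitely many points detect the action on the patched module. -/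
theorem exists_levelPoints [CharZero O] [Finite (ResidueField O)] (n : ℕ) {L : List (Option I)}
    (hL : C.Admissible L) :
    ∃ (m : ℕ) (pt : Fin m → LevelPoint C n L),
      ∀ s, (∀ i, (pt i).x s = 0) → ∀ v ∈ C.V n L,
        heckeHom (R := Diamond O r p n) (C.modulus_dvd_lvl n L) (C.θ n) (Diamond O r p n)
          (fun l : Good (C.lvl n L) 0 => (l : Nat.Primes)) s v = 0 := by
  obtain ⟨m, pt, hres, hker, -, h⟩ := C.exists_lvlPts n hL
  exact ⟨m, fun i => LevelPoint.ofFamPoint C hL (pt i) (hres i) (hker i), fun s hs => h s hs⟩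

/-- Points of a level prime to `p` are flat at `p`. -/
theorem LevelPoint.isFlatAt {n : ℕ} {L : List (Option I)} (P : LevelPoint C n L)
    (hL : none ∉ L) : (DefRing.toAdic P.rep P.cont).IsFlatAt p :=
  P.toPointData.isFlatAt hL

/-- The unit root at a level prime to `p`, residually ordinary. -/
theorem LevelPoint.exists_unitRoot {n : ℕ} {L : List (Option I)} (P : LevelPoint C n L)
    (hgood : ¬ p ∣ C.lvl n L) {A : ValuationSubring Qb} (hA : A.LiesOverPrime p)
    {φ : GQ} (hφ : A.IsFrobeniusAt φ p) {v : Fin 2 → ResidueField O}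
    (hv : TW.OrdLine C.ρ A v) :
    ∃ z : P.A, Galois.IsOrdPoint P.rep A φ z ∧
      P.x (MvPolynomial.C (C.κv n (ExtCitation.pPrime p)) *
        MvPolynomial.X ⟨ExtCitation.pPrime p, hgood, (Fact.out : p.Prime).ne_zero⟩) * z =
          z ^ 2 + (p : P.A) :=
  P.toPointData.exists_unitRoot hgood hA hφ hv

/-- A point which is not flat at `p` is strict at `p`. -/
theorem LevelPoint.isStrictPoint {n : ℕ} {L : List (Option I)} (P : LevelPoint C n L) (hL : L.Nodup)
    {A : ValuationSubring Qb} (hA : A.LiesOverPrime p)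
    (hnf : ¬ (DefRing.toAdic P.rep P.cont).IsFlatAt p) :
    Galois.IsStrictPoint C.χ P.rep A :=
  P.toPointData.isStrictPoint hL hA hnf

/-- The points with `St` at a new auxiliary place detect the new quotient. -/
theorem exists_newPoints [CharZero O] [Finite (ResidueField O)] (n : ℕ) {L : List (Option I)}
    (hL : C.Admissible L) (i : I)
    (hi : some i ∉ L) {x y : ℤ}
    (hxy : x * (C.place (some i) : ℕ) - y * (C.lvl n L : ℕ) = 1)
    (hpr : ∀ j : C.J, (C.pr j : ℕ) ≠ (C.place (some i) : ℕ)) [NeZero (C.place (some i) : ℕ)] :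
    ∃ (m : ℕ) (pt : Fin m → LevelPoint C n (some i :: L)),
      (∀ k, ∃ ε, Sat (.st ε) (C.D.q i : (pt k).A) (algebraMap O (pt k).A (C.D.c i))
        ((pt k).rep (C.Fr.frame i).frob) ((pt k).rep (C.Fr.frame i).gen - 1)) ∧
      ∀ s, (∀ k, (pt k).x s = 0) → ∀ v : C.V n (some i :: L), ∃ w,
        heckeHom (R := Diamond O r p n) (C.modulus_dvd_lvl n (some i :: L)) (C.θ n) (Diamond O r p n)
          (fun l : Good (C.lvl n (some i :: L)) 0 => (l : Nat.Primes)) s v =
            (alphaLoc (C.ξ n) (C.modulus_dvd_lvl n L) (C.θ n) hxy (C.place (some i)).2 hpr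
              (Diamond O r p n) w).1 := by
  have hL' := Ctx.Admissible.cons C hL hi
  obtain ⟨m, pt, hres, hker, hsq, h⟩ := C.exists_newFamily n hL hi hxy hpr
  exact ⟨m, fun k => LevelPoint.ofFamPoint C hL' (pt k) (hres k) (hker k),
    fun k => exists_sat_st hi hL' (pt k) (hres k) (hker k) (hsq k),
    fun s hs v => h s (fun k => hs k) v⟩

/-- The strict points detect the new quotient at `p`. -/
theorem exists_newPoints_p [CharZero O] [Finite (ResidueField O)] (n : ℕ) {L : List (Option I)}
    (hL : C.Admissible L) (hi : none ∉ L)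
    {x y : ℤ} (hxy : x * (C.place none : ℕ) - y * (C.lvl n L : ℕ) = 1)
    (hpr : ∀ j : C.J, (C.pr j : ℕ) ≠ (C.place (none : Option I) : ℕ))
    [NeZero (C.place (none : Option I) : ℕ)] {A : ValuationSubring Qb} (hA : A.LiesOverPrime p) :
    ∃ (m : ℕ) (pt : Fin m → LevelPoint C n (none :: L)),
      (∀ k, Galois.IsStrictPoint C.χ (pt k).rep A) ∧
      ∀ s, (∀ k, (pt k).x s = 0) → ∀ v : C.V n (none :: L), ∃ w,
        heckeHom (R := Diamond O r p n) (C.modulus_dvd_lvl n (none :: L)) (C.θ n) (Diamond O r p n)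
          (fun l : Good (C.lvl n (none :: L)) 0 => (l : Nat.Primes)) s v =
            (alphaLoc (C.ξ n) (C.modulus_dvd_lvl n L) (C.θ n) hxy (C.place none).2 hpr
              (Diamond O r p n) w).1 := by
  have hL' := Ctx.Admissible.cons C hL hi
  obtain ⟨m, pt, hres, hker, hsq, h⟩ := C.exists_newFamily n hL hi hxy hpr
  exact ⟨m, fun k => LevelPoint.ofFamPoint C hL' (pt k) (hres k) (hker k),
    fun k => isStrictPoint_of_sq_eq_one hi hL' (pt k) (hres k) (hker k) (hsq k) hA,
    fun s hs v => h s (fun k => hs k) v⟩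

end FermatAgent.RTLift.Setup
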