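import Fermat.Agent.RTLift.Setup.Points
import Fermat.Agent.RTLift.Galois.Interface
import Fermat.Agent.RT.Frobenius
import Fermat.Agent.TW.Flat.Val

/-!
# The trace ring of finitely many points at a step, with its distinguished elements
-/

set_option autoImplicit false

noncomputable section

namespace FermatAgent.RTLift.Setup

open IsLocalRing FermatAgent.RTLift.Engine FermatAgent.RTLift.LocalRings Matrix

local notation "Qb" => AlgebraicClosure ℚ
local notation "GQ" => AlgebraicClosure ℚ ≃ₐ[ℚ] AlgebraicClosure ℚ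

/-- A chosen place over a prime. -/
def frobPlace (ℓ : Nat.Primes) : ValuationSubring Qb :=
  (FermatAgent.RT.exists_place_isFrobeniusAt ℓ.2).choose

/-- A chosen Frobenius at a prime. -/
def frobAt (ℓ : Nat.Primes) : GQ :=
  (FermatAgent.RT.exists_place_isFrobeniusAt ℓ.2).choose_spec.choose

theorem frobPlace_liesOver (ℓ : Nat.Primes) : (frobPlace ℓ).LiesOverPrime (ℓ : ℕ) :=
  (FermatAgent.RT.exists_place_isFrobeniusAt ℓ.2).choose_spec.choose_spec.1

theorem isFrobeniusAt_frobAt (ℓ : Nat.Primes) : (frobPlace ℓ).IsFrobeniusAt (frobAt ℓ) (ℓ : ℕ) :=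
  (FermatAgent.RT.exists_place_isFrobeniusAt ℓ.2).choose_spec.choose_spec.2

variable {O : Type} [CommRing O] [IsDomain O] [IsDiscreteValuationRing O]
  [IsAdicComplete (maximalIdeal O) O]
  {p r : ℕ} [Fact p.Prime] [Algebra (ZMod p) (ResidueField O)] {I : Type} [Fintype I]
  (C : Ctx O p r I)

namespace Ctx

theorem Q_coprime (n : ℕ) :
    Pairwise fun i j : Fin r => ((C.Q n i : ℕ)).Coprime (C.Q n j) := fun i j hij =>
  (Nat.coprime_primes (C.Q n i).2 (C.Q n j).2).mpr fun e => hij (C.Q_injective n (Subtype.ext e))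

theorem exists_twUnit (n : ℕ) (j : Fin r) : ∃ u : (ZMod (C.modulus n))ˣ,
    (∀ i ≠ j, ZMod.unitsMap (Finset.dvd_prod_of_mem (fun j => (C.Q n j : ℕ))
      (Finset.mem_univ i)) u = 1) ∧
    C.κ n u = 1 + Ideal.Quotient.mk _ (MvPowerSeries.X j) := by
  rcases Nat.eq_zero_or_pos n with rfl | hn
  · refine ⟨1, fun i _ => map_one _, ?_⟩
    have h0 := one_add_X_pow (O := O) (p := p) r 0 j
    rw [pow_zero, pow_one] at h0
    rw [map_one, h0]
  · exact exists_kappa_eq _ _ (C.Q_coprime n) (C.dlog_surjective n) hn j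

/-- The unit generating the `j`-th diamond factor. -/
def twUnit (n : ℕ) (j : Fin r) : (ZMod (C.modulus n))ˣ := (C.exists_twUnit n j).choose

/-- The image of the unit at its prime. -/
def twResidue (n : ℕ) (j : Fin r) : (ZMod (C.Q n j : ℕ))ˣ :=
  ZMod.unitsMap (Finset.dvd_prod_of_mem (fun j => (C.Q n j : ℕ)) (Finset.mem_univ j)) (C.twUnit n j)

theorem exists_twGen (n : ℕ) (j : Fin r) : ∃ σ : GQ,
    σ ∈ (frobPlace (C.Q n j)).inertiaSubgroupIn ℚ ∧
    ∀ z : Qb, z ^ (C.Q n j : ℕ) = 1 → σ z = z ^ (C.twResidue n j : ZMod (C.Q n j : ℕ)).val := by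
  have : Fact (C.Q n j : ℕ).Prime := ⟨(C.Q n j).2⟩
  obtain ⟨σ, hσ, hc⟩ := TW.Flat.exists_inertia_cycloChar (frobPlace_liesOver (C.Q n j))
    (C.twResidue n j)
  refine ⟨σ, hσ, fun z hz => ?_⟩
  obtain ⟨ζ, hζ⟩ := TW.exists_primitiveRoot_qbar (C.Q n j : ℕ)
  obtain ⟨i, -, rfl⟩ := hζ.eq_pow_of_pow_eq_one hz
  rw [map_pow, TW.apply_root_eq_pow hζ σ, hc, ← pow_mul, ← pow_mul, mul_comm]

/-- The inertia element at the `j`-th Taylor–Wiles prime. -/
def twGen (n : ℕ) (j : Fin r) : GQ := (C.exists_twGen n j).choose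

/-- The primes excluded at step `n`. -/
def bad (n : ℕ) : Finset Nat.Primes := C.Fr.support ∪ Finset.univ.image (C.Q n)

theorem mem_bad {n : ℕ} {ℓ : Nat.Primes} :
    ℓ ∈ C.bad n ↔ ℓ ∈ C.Fr.support ∨ ∃ j, C.Q n j = ℓ := by
  simp [bad]

theorem q_mem_support (i : I) : C.Fr.q i ∈ C.Fr.support := by
  simp [Galois.Frames.support]

theorem p_mem_support : ExtCitation.pPrime p ∈ C.Fr.support := by
  simp [Galois.Frames.support]

theorem mem_bad_of_dvd {n : ℕ} {ℓ : Nat.Primes} :
    ∀ {L : List (Option I)}, (ℓ : ℕ) ∣ C.lvl n L → ℓ ∈ C.bad n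
  | [], h => by
    replace h : (ℓ : ℕ) ∣ ∏ j, (C.Q n j : ℕ) := h
    obtain ⟨j, -, hj⟩ := (Prime.dvd_finsetProd_iff (Nat.prime_iff.mp ℓ.2) _).mp h
    exact C.mem_bad.mpr (.inr ⟨j, Subtype.ext
      ((Nat.prime_dvd_prime_iff_eq ℓ.2 (C.Q n j).2).mp hj).symm⟩)
  | i :: L, h => by
    rcases ℓ.2.dvd_mul.mp h with h | h
    · exact mem_bad_of_dvd h
    · refine C.mem_bad.mpr (.inl ?_)
      rw [Subtype.ext ((Nat.prime_dvd_prime_iff_eq ℓ.2 (C.place i).2).mp h)]
      exact C.place_mem_support i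

end Ctx

/-- A point over the residual representation at step `n`. -/
structure GalPoint (n : ℕ) where
  /-- the ring of values -/
  A : Type
  [instCommRing : CommRing A]
  [instIsDomain : IsDomain A]
  [instIsLocalRing : IsLocalRing A]
  [instAlgebra : Algebra O A]
  [instFinite : Module.Finite O A]
  injective : Function.Injective (algebraMap O A)
  /-- the representation -/
  rep : GQ →* Matrix (Fin 2) (Fin 2) A
  cont : DefRing.IsCont rep
  det_eq : ∀ σ, (rep σ).det = algebraMap O A (C.χ σ)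
  trace_residual : ∀ σ, ∃ o : O,
    residue O o = Matrix.trace (C.ρ σ : Matrix (Fin 2) (Fin 2) (ResidueField O)) ∧
      Matrix.trace (rep σ) - algebraMap O A o ∈ maximalIdeal A
  unramified : ∀ ℓ : Nat.Primes, ℓ ∉ C.bad n →
    ∀ P : ValuationSubring Qb, P.LiesOverPrime (ℓ : ℕ) → ∀ σ ∈ P.inertiaSubgroupIn ℚ, rep σ = 1
  trace_wd : ∀ ℓ : Nat.Primes, ℓ ∉ C.bad n → ∀ P : ValuationSubring Qb,
    P.LiesOverPrime (ℓ : ℕ) → ∀ φ : GQ, P.IsFrobeniusAt φ (ℓ : ℕ) →
      Matrix.trace (rep φ) = Matrix.trace (rep (frobAt ℓ))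

attribute [instance] GalPoint.instCommRing GalPoint.instIsDomain GalPoint.instIsLocalRing
  GalPoint.instAlgebra GalPoint.instFinite

variable {C}

/-- A point of a level as a point at its step. -/
def LevelPoint.toGal {n : ℕ} {L : List (Option I)} (P : LevelPoint C n L) : GalPoint C n where
  A := P.A
  injective := P.injective
  rep := P.rep
  cont := P.cont
  det_eq := P.det_eq
  trace_residual := P.trace_residual
  unramified ℓ hℓ := P.unramified ℓ (fun h => hℓ (C.mem_bad.mpr (.inl (by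
      rw [show ℓ = ExtCitation.pPrime p from Subtype.ext h]; exact C.p_mem_support))))
    fun h => hℓ (C.mem_bad_of_dvd h)
  trace_wd ℓ hℓ Pl hPl φ hφ := by
    have hne : (ℓ : ℕ) ≠ p := fun h => hℓ (C.mem_bad.mpr (.inl (by
      rw [show ℓ = ExtCitation.pPrime p from Subtype.ext h]; exact C.p_mem_support)))
    have hg : ¬ (ℓ : ℕ) ∣ C.lvl n L ∧ (ℓ : ℕ) ≠ 0 := ⟨fun h => hℓ (C.mem_bad_of_dvd h), ℓ.2.ne_zero⟩
    rw [P.trace_frob ⟨ℓ, hg⟩ hne Pl hPl φ hφ,
      P.trace_frob ⟨ℓ, hg⟩ hne (frobPlace ℓ) (frobPlace_liesOver ℓ) (frobAt ℓ)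
        (isFrobeniusAt_frobAt ℓ)]

variable {n m : ℕ} [NeZero m] (pts : Fin m → GalPoint C n)

/-- The lifts of finitely many points. -/
def lifts : Galois.Lifts C.ρ C.χ where
  ι := Fin m
  nonempty := ⟨0⟩
  S i := (pts i).A
  injective i := (pts i).injective
  r i := (pts i).rep
  cont i := (pts i).cont
  det_eq i := (pts i).det_eq
  trace_eq i := (pts i).trace_residual

variable (C) in
/-- Finitely many points at a step with a trace ring. -/
structure Stage (n : ℕ) where
  /-- the number of points -/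
  m : ℕ
  [neZero : NeZero m]
  /-- the points -/
  pts : Fin m → GalPoint C n
  /-- the trace ring -/
  M : Galois.Model (lifts pts)

attribute [instance] Stage.neZero

/-- The stage of finitely many points. -/
def Stage.of [Finite (ResidueField O)] : Stage C n :=
  ⟨m, pts, (Galois.nonempty_model C.twHyp (lifts pts)).some⟩

variable (S : Stage C n)

namespace Stage

/-- The trace ring of a stage. -/
abbrev R : Type := S.M.R

/-- A point of the trace ring over a point of the step. -/
structure IsPt (G : GalPoint C n) (g : S.R →ₐ[O] G.A) : Prop where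
  trace : ∀ σ, g (Matrix.trace (S.M.rho σ)) = Matrix.trace (G.rep σ)
  conj : ∃ P : Matrix (Fin 2) (Fin 2) G.A, IsUnit P.det ∧
    ∀ σ, P * (S.M.rho σ).map g = G.rep σ * P

/-- The stage has a point over `G`. -/
def Covers (G : GalPoint C n) : Prop := ∃ g, S.IsPt G g

/-- The points of the trace ring. -/
def ptAt (k : Fin S.m) : S.R →ₐ[O] (S.pts k).A := S.M.pt k

theorem isPt_ptAt (k : Fin S.m) : S.IsPt (S.pts k) (S.ptAt k) :=
  ⟨S.M.pt_trace k, S.M.pt_conj k⟩

theorem covers_pts (k : Fin S.m) : S.Covers (S.pts k) := ⟨_, S.isPt_ptAt k⟩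

theorem ptAt_injective (x y : S.R) (h : ∀ k, S.ptAt k x = S.ptAt k y) : x = y :=
  S.M.pt_injective x y h

theorem unramifiedOutside :
    (lifts S.pts).UnramifiedOutside C.Fr (Finset.univ.image (C.Q n)) := by
  intro i ℓ hℓp hℓq hℓQ P hP σ hσ
  refine (S.pts i).unramified ℓ (fun h => ?_) P hP σ hσ
  rcases C.mem_bad.mp h with h | ⟨j, rfl⟩
  · simp only [Galois.Frames.support, Finset.mem_insert, Finset.mem_image, Finset.mem_univ,
      true_and] at h
    rcases h with rfl | ⟨j, rfl⟩
    · exact hℓp rfl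
    · exact hℓq ⟨j, rfl⟩
  · exact hℓQ (Finset.mem_image_of_mem _ (Finset.mem_univ j))

/-- The trace of Frobenius at a prime in the trace ring. -/
def trFrob (ℓ : Nat.Primes) : S.R := Matrix.trace (S.M.rho (frobAt ℓ))

theorem adjoin_trFrob [Finite (ResidueField O)] :
    Algebra.adjoin O (S.trFrob '' (↑(C.bad n) : Set Nat.Primes)ᶜ) = ⊤ := by
  rw [eq_top_iff, ← Galois.adjoin_trace_frobenius S.M (C.bad n)]
  refine Algebra.adjoin_mono ?_
  rintro x ⟨ℓ, P, φ, hℓ, hP, hφ, rfl⟩
  refine ⟨ℓ, hℓ, S.ptAt_injective _ _ fun i => ?_⟩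
  exact ((S.isPt_ptAt i).trace _).trans (((S.pts i).trace_wd ℓ hℓ P hP φ hφ).symm.trans
    ((S.isPt_ptAt i).trace φ).symm)

/-- The diamond element at a Taylor–Wiles prime in the trace ring. -/
def zEl (j : Fin r) : S.R := Matrix.trace (S.M.rho (C.twGen n j)) - 2

end Stage

omit [IsDomain O] [IsDiscreteValuationRing O] [IsAdicComplete (maximalIdeal O) O] in
theorem isUnit_of_algebraMap {A : Type} [CommRing A] [IsLocalRing A] [Algebra O A]
    [Module.Finite O A] (hinj : Function.Injective (algebraMap O A)) (o : O)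
    (hu : IsUnit (algebraMap O A o)) : IsUnit o := by
  have : Algebra.IsIntegral O A := Algebra.IsIntegral.of_finite O A
  have := RingHom.IsIntegral.isLocalHom (Algebra.IsIntegral.isIntegral (R := O) (A := A)) hinj
  exact isUnit_of_map_unit (algebraMap O A) o hu

namespace Stage

theorem zEl_mem (j : Fin r) : S.zEl j ∈ maximalIdeal S.R := by
  have hρ : C.ρ (C.twGen n j) = 1 :=
    C.unramified (C.Q n j) (C.Q_notMem n j) _ (frobPlace_liesOver _) _
      (C.exists_twGen n j).choose_spec.1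
  have key : ∀ a b : Fin 2, S.M.rho (C.twGen n j) a b -
      (1 : Matrix (Fin 2) (Fin 2) S.R) a b ∈ maximalIdeal S.R := fun a b => by
    obtain ⟨o, ho, hmem⟩ := S.M.residual (C.twGen n j) a b
    rw [hρ, Units.val_one] at ho
    have h1 : o - (1 : Matrix (Fin 2) (Fin 2) O) a b ∈ maximalIdeal O := by
      rw [← residue_eq_zero_iff, map_sub, ho]
      by_cases h : a = b
      · rw [h, Matrix.one_apply_eq, Matrix.one_apply_eq, map_one, sub_self]
      · rw [Matrix.one_apply_ne h, Matrix.one_apply_ne h, map_zero, sub_self]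
    have h2 : algebraMap O S.R o -
        (1 : Matrix (Fin 2) (Fin 2) S.R) a b ∈ maximalIdeal S.R := by
      rw [show (1 : Matrix (Fin 2) (Fin 2) S.R) a b =
        algebraMap O _ ((1 : Matrix (Fin 2) (Fin 2) O) a b) by
          by_cases h : a = b
          · rw [h, Matrix.one_apply_eq, Matrix.one_apply_eq, map_one]
          · rw [Matrix.one_apply_ne h, Matrix.one_apply_ne h, map_zero], ← map_sub]
      refine (mem_maximalIdeal _).mpr fun hu => (mem_maximalIdeal _).mp h1 ?_
      have hu' := hu.map (S.ptAt 0)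
      rw [AlgHom.commutes] at hu'
      exact isUnit_of_algebraMap (S.pts 0).injective _ hu'
    simpa using add_mem hmem h2
  rw [zEl, Matrix.trace_fin_two]
  have := add_mem (key 0 0) (key 1 1)
  simp only [Matrix.one_apply_eq] at this
  convert this using 1
  ring

variable {S} {G : GalPoint C n} {g : S.R →ₐ[O] G.A}

theorem IsPt.trFrob (h : S.IsPt G g) (ℓ : Nat.Primes) :
    g (S.trFrob ℓ) = Matrix.trace (G.rep (frobAt ℓ)) :=
  h.trace _

/-- The value of the diamond element at a point. -/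
theorem IsPt.zEl (h : S.IsPt G g) (j : Fin r) :
    g (S.zEl j) = Matrix.trace (G.rep (C.twGen n j)) - 2 := by
  rw [Stage.zEl, map_sub, map_ofNat, h.trace]

/-- Points are local. -/
theorem map_mem_maximalIdeal (g : S.R →ₐ[O] G.A) {y : S.R} (hy : y ∈ maximalIdeal S.R) :
    g y ∈ maximalIdeal G.A := by
  have : Algebra.IsIntegral O S.R := Algebra.IsIntegral.of_finite O _
  set P := (maximalIdeal G.A).comap g.toRingHom
  have : P.IsPrime := Ideal.IsPrime.comap _
  have hmax : P.IsMaximal := by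
    refine Ideal.isMaximal_of_isIntegral_of_isMaximal_comap (R := O) P ?_
    have : P.comap (algebraMap O S.R) = maximalIdeal O := by
      refine Ideal.ext fun o => ?_
      rw [Ideal.mem_comap, Ideal.mem_comap, AlgHom.toRingHom_eq_coe, AlgHom.coe_toRingHom,
        AlgHom.commutes, mem_maximalIdeal, mem_maximalIdeal, mem_nonunits_iff, mem_nonunits_iff]
      exact not_congr ⟨isUnit_of_algebraMap G.injective o, fun h => h.map _⟩
    rw [this]
    exact maximalIdeal.isMaximal O
  have : y ∈ P := by rwa [IsLocalRing.eq_maximalIdeal hmax]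
  exact this

/-- Equations at a point hold for the image of the local matrices. -/
theorem IsPt.sat (hg : S.IsPt G g) {B : Cfg} {i : I}
    (h : Sat B (C.D.q i : G.A) (algebraMap O G.A (C.D.c i))
      (G.rep (C.Fr.frame i).frob) (G.rep (C.Fr.frame i).gen - 1)) :
    Sat B (C.D.q i : G.A) (algebraMap O G.A (C.D.c i))
      ((S.M.rho (C.Fr.frame i).frob).map g) ((S.M.rho (C.Fr.frame i).gen - 1).map g) := by
  obtain ⟨P, hP, hconj⟩ := hg.conj
  have hVU : P⁻¹ * P = 1 := Matrix.nonsing_inv_mul P hP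
  have e : ∀ σ, (S.M.rho σ).map g = P⁻¹ * G.rep σ * P := fun σ => by
    rw [Matrix.mul_assoc, show G.rep σ * P = P * (S.M.rho σ).map g
      from (hconj σ).symm, ← Matrix.mul_assoc, hVU, Matrix.one_mul]
  have e1 : (S.M.rho (C.Fr.frame i).gen - 1).map g =
      P⁻¹ * (G.rep (C.Fr.frame i).gen - 1) * P := by
    rw [Matrix.map_sub g (map_sub _), Matrix.map_one _ (map_zero _) (map_one _), e,
      Matrix.mul_sub, Matrix.sub_mul, Matrix.mul_one, hVU]
  rw [e, e1]
  exact Sat.conj hVU h

/-- A plain configuration satisfied at a point is allowed. -/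
theorem IsPt.allowed (hg : S.IsPt G g) {B : Cfg} (hB : B = .ur ∨ ∃ ε, B = .st ε) {i : I}
    (h : Sat B (C.D.q i : G.A) (algebraMap O G.A (C.D.c i))
      (G.rep (C.Fr.frame i).frob) (G.rep (C.Fr.frame i).gen - 1)) :
    C.D.Allowed i B := by
  suffices hs : C.D.ResidualSat i B by
    rcases hB with rfl | ⟨ε, rfl⟩ <;> exact hs
  have h1 := hg.sat h
  obtain ⟨hΦ, hn⟩ := C.datumLifts i
  have hloc : IsLocalHom (algebraMap O G.A) :=
    ⟨fun o ho => isUnit_of_algebraMap G.injective o ho⟩
  set ι : ResidueField O →+* ResidueField G.A := ResidueField.map (algebraMap O G.A)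
  have hres : ∀ σ, (S.M.rho σ).map (fun x => residue _ (g x)) =
      (C.ρ σ : Matrix (Fin 2) (Fin 2) (ResidueField O)).map ι := fun σ => by
    ext a b
    obtain ⟨o, ho, hmem⟩ := S.M.residual σ a b
    rw [Matrix.map_apply, Matrix.map_apply, ← ho]
    rw [ResidueField.map_residue]
    rw [← sub_eq_zero, ← map_sub, residue_eq_zero_iff, ← g.commutes, ← map_sub]
    exact map_mem_maximalIdeal g hmem
  intro x hx
  refine RingHom.injective ι ?_
  rw [map_zero]
  have h2 : Sat B (ι (C.D.q i : ResidueField O)) (ι (residue O (C.D.c i)))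
      (((C.D.Φ₀ i).map (residue O)).map ι) (((C.D.n₀ i).map (residue O)).map ι) := by
    have h3 : Sat B (residue G.A (C.D.q i : G.A)) (residue _ (algebraMap O G.A (C.D.c i)))
        (((S.M.rho (C.Fr.frame i).frob).map g).map (residue _))
        (((S.M.rho (C.Fr.frame i).gen - 1).map g).map (residue _)) :=
      Sat.map (residue G.A) h1
    have e2 : ((S.M.rho (C.Fr.frame i).gen - 1).map g).map (residue _) =
        ((C.D.n₀ i).map (residue O)).map ι := by
      rw [hn, Matrix.map_sub ι (map_sub ι), Matrix.map_one _ (map_zero ι) (map_one ι),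
        Matrix.map_sub g (map_sub _), Matrix.map_one _ (map_zero _) (map_one _),
        Matrix.map_sub (residue _) (map_sub _), Matrix.map_one _ (map_zero _) (map_one _),
        Matrix.map_map]
      exact congrArg (· - 1) (hres _)
    have e1 : ((S.M.rho (C.Fr.frame i).frob).map g).map (residue _) =
        ((C.D.Φ₀ i).map (residue O)).map ι := by
      rw [hΦ, Matrix.map_map]
      exact hres _
    rw [e1, e2] at h3
    rw [map_natCast] at h3 ⊢
    exact h3
  exact h2 (ι x) (by rw [cfgEqns_map]; exact ⟨x, hx, rfl⟩)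

end Stage

theorem LevelPoint.trace_twGen {L : List (Option I)} (P : LevelPoint C n L) (j : Fin r) :
    Matrix.trace (P.rep (C.twGen n j)) = P.x (MvPolynomial.C
      ((1 + Ideal.Quotient.mk _ (MvPowerSeries.X j)) +
        Ring.inverse (1 + Ideal.Quotient.mk _ (MvPowerSeries.X j)))) := by
  obtain ⟨hu1, hu2⟩ := (C.exists_twUnit n j).choose_spec
  obtain ⟨hs1, hs2⟩ := (C.exists_twGen n j).choose_spec
  have hinv : ∀ u : (ZMod (C.modulus n))ˣ, C.κ n u⁻¹ = Ring.inverse (C.κ n u) := fun u => by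
    refine ((Group.isUnit u).map (C.κ n)).mul_left_cancel ?_
    rw [Ring.mul_inverse_cancel _ ((Group.isUnit u).map (C.κ n)), ← map_mul, mul_inv_cancel, map_one]
  have h := P.trace_tw j _ (frobPlace_liesOver (C.Q n j)) (C.twGen n j) hs1 (C.twUnit n j) hu1 hs2
  rw [hinv, show C.κ n (C.twUnit n j) = _ from hu2] at h
  exact h

end FermatAgent.RTLift.Setup
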