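import Fermat.Agent.RTLift.Setup.Configs

/-!
# The wall between a level and the level with one more place
-/

set_option autoImplicit false

noncomputable section

namespace FermatAgent.RTLift.Setup

open IsLocalRing FermatAgent.RTLift.Engine FermatAgent.RTLift.LocalRings FermatAgent.RTLift.Modules
  FermatAgent.RTLift.Old Matrix

variable {O : Type} [CommRing O] [IsDomain O] [IsDiscreteValuationRing O]
  [IsAdicComplete (maximalIdeal O) O] [Finite (ResidueField O)]
  {p r : ℕ} [Fact p.Prime] [Algebra (ZMod p) (ResidueField O)] {I : Type} [Fintype I]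
  {C : Ctx O p r I} {n : ℕ} {L : List (Option I)} {i : Option I}

namespace Ctx

variable (C)

instance neZero_place (i : Option I) : NeZero (C.place i : ℕ) := ⟨(C.place i).2.ne_zero⟩

omit [Finite (ResidueField O)] in
theorem pr_ne_place (j : C.J) (i : Option I) : (C.pr j : ℕ) ≠ (C.place i : ℕ) := fun h => by
  have e : j.1 = C.place i := Subtype.ext h
  exact j.2 (e.symm ▸ C.place_mem_support i)

omit [Finite (ResidueField O)] in
theorem exists_bezout (n : ℕ) (hi : i ∉ L) :
    ∃ xy : ℤ × ℤ, xy.1 * (C.place i : ℕ) - xy.2 * (C.lvl n L : ℕ) = 1 := by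
  obtain ⟨x, z, h⟩ : IsCoprime ((C.place i : ℕ) : ℤ) (C.lvl n L : ℤ) := by
    rw [Int.isCoprime_iff_gcd_eq_one, Int.gcd, Int.natAbs_natCast, Int.natAbs_natCast]
    exact (C.place i).2.coprime_iff_not_dvd.mpr (C.not_dvd_place hi)
  exact ⟨(x, -z), by linear_combination h⟩

/-- The Bézout coefficients at a new place. -/
def bez (n : ℕ) (hi : i ∉ L) : ℤ × ℤ := (C.exists_bezout n hi).choose

omit [Finite (ResidueField O)] in
theorem bez_spec (n : ℕ) (hi : i ∉ L) :
    (C.bez n hi).1 * (C.place i : ℕ) - (C.bez n hi).2 * (C.lvl n L : ℕ) = 1 :=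
  (C.exists_bezout n hi).choose_spec

/-- The image of the two restrictions at a new place. -/
def alphaRange (n : ℕ) (hi : i ∉ L) : Submodule (Diamond O r p n) (C.V n (i :: L)) :=
  LinearMap.range (alphaLoc (C.ξ n) (C.modulus_dvd_lvl n L) (C.θ n) (C.bez_spec n hi) (C.place i).2
    (fun j => C.pr_ne_place j i) (Diamond O r p n))

omit [Finite (ResidueField O)] in
theorem κv_eq {l : Nat.Primes} (h : (l : ℕ).Coprime (C.modulus n)) :
    C.κv n l = C.κ n (ZMod.unitOfCoprime l h) := dif_pos h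

end Ctx

namespace Stage

variable (S : Stage C n)

/-- Finitely many covered points with a property detect the new quotient at a place. -/
def DetectsNew (hi : i ∉ L) (Q : LevelPoint C n (i :: L) → Prop) : Prop :=
  ∃ (m : ℕ) (pt : Fin m → LevelPoint C n (i :: L)), (∀ k, S.Covers (pt k).toGal ∧ Q (pt k)) ∧
    ∀ s, (∀ k, (pt k).x s = 0) → ∀ v : C.V n (i :: L), ∃ w ∈ C.alphaRange n hi,
      heckeHom (R := Diamond O r p n) (C.modulus_dvd_lvl n (i :: L)) (C.θ n) (Diamond O r p n)
        (fun l : Good (C.lvl n (i :: L)) 0 => (l : Nat.Primes)) s v =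
          (w : H1 _ (Diamond O r p n))

variable {S} {a : S.R →ₐ[O] Module.End (Diamond O r p n) (C.V n L)}
  {a' : S.R →ₐ[O] Module.End (Diamond O r p n) (C.V n (i :: L))}

/-- Elements vanishing at the points of the new quotient map the module into the restrictions. -/
theorem IsAct.mem_alphaRange (ha' : S.IsAct (i :: L) a') {hi : i ∉ L}
    {Q : LevelPoint C n (i :: L) → Prop} (hd : S.DetectsNew hi Q) {y : S.R}
    (h : ∀ (P : LevelPoint C n (i :: L)) (g : S.R →ₐ[O] P.A), S.IsPt P.toGal g → Q P → g y = 0)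
    (v : C.V n (i :: L)) : a' y v ∈ C.alphaRange n hi := by
  obtain ⟨m, pt, hc, hf⟩ := hd
  obtain ⟨s, h1, h2⟩ := ha'.exists_poly y
  obtain ⟨w, hw, hwv⟩ := hf s (fun k => by
    obtain ⟨⟨g, hg⟩, hQ⟩ := hc k
    rw [← h2 _ g hg, h _ g hg hQ]) v
  rwa [show a' y v = w from Subtype.ext ((h1 v).trans hwv)]

/-- An element with the values of a normalised operator acts by it. -/
theorem IsAct.eq_smul_op (ha : S.IsAct L a) (hd : S.Detects L) {y : S.R} (c : Diamond O r p n)
    (l : Good (C.lvl n L) 0)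
    (h : ∀ (P : LevelPoint C n L) (g : S.R →ₐ[O] P.A), S.IsPt P.toGal g →
      g y = P.x (MvPolynomial.C c * MvPolynomial.X l)) :
    a y = c • localOp (C.modulus_dvd_lvl n L) (C.θ n) C.pr (C.ξ n) l.1 :=
  LinearMap.ext fun v => Subtype.ext ((ha.coe_apply hd y _ h v).trans (by
    rw [← MvPolynomial.algebraMap_eq, ← Algebra.smul_def, map_smul, heckeHom_X]
    rfl))

set_option maxHeartbeats 1000000 in
/-- The wall maps at a new place. -/
theorem exists_wall_of_trace (hL : C.Admissible L) (hi : i ∉ L) (ha : S.IsAct L a)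
    (ha' : S.IsAct (i :: L) a') {tr : S.R}
    (htr : a tr = C.κv n (C.place i) •
      localOp (C.modulus_dvd_lvl n L) (C.θ n) C.pr (C.ξ n) (C.place i)) :
    ∃ w : LinWall a a' ((C.place i : ℕ) : S.R) tr,
      ∀ v ∈ C.alphaRange n hi, ∃ u : Fin 2 → C.V n L, v = ∑ j, w.res j (u j) := by
  have : NeZero (C.lvl n L * (C.place i : ℕ)) := C.neZero_lvl n (i :: L)
  obtain ⟨⟨g, hg⟩, g', hg'⟩ := C.exists_wall_inverses n i hL (C.bez_spec n hi)
    fun j => C.pr_ne_place j i
  rw [C.κv_eq (coprime_of_bezout (C.bez_spec n hi) (C.modulus_dvd_lvl n L))] at htr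
  obtain ⟨w, hw⟩ := exists_linWall (C.modulus_dvd_lvl n L) (C.θ n) (C.bez_spec n hi) (C.place i).2
    (C.not_dvd_place hi) (fun j => C.pr_ne_place j i) (↑(C.bad n) : Set Nat.Primes) ha ha'
    (C.mem_bad.mpr (.inl (C.place_mem_support i))) S.adjoin_trFrob (C.κ n) (fun _ => rfl) htr hg hg'
  refine ⟨w, ?_⟩
  rintro v ⟨c, rfl⟩
  exact hw c

/-- The wall maps at an auxiliary prime, with kernel of the new configurations in the restrictions. -/
theorem exists_wall {i : I} {a : S.R →ₐ[O] Module.End (Diamond O r p n) (C.V n L)}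
    {a' : S.R →ₐ[O] Module.End (Diamond O r p n) (C.V n (some i :: L))} (hL : C.Admissible L)
    (hi : some i ∉ L) (ha : S.IsAct L a) (hd : S.Detects L) (ha' : S.IsAct (some i :: L) a')
    (hnew : S.DetectsNew hi fun P => ∃ ε, Sat (.st ε) (C.D.q i : P.A)
      (algebraMap O P.A (C.D.c i)) (P.rep (C.Fr.frame i).frob)
      (P.rep (C.Fr.frame i).gen - 1)) :
    ∃ w : LinWall a a' (C.D.q i : S.R) (Matrix.trace (S.M.rho (C.Fr.frame i).frob)),
      ∀ y ∈ ∏ B ∈ C.newCfgs (some i :: L) i, S.cfgIdeal B, ∀ v, ∃ u : Fin 2 → C.V n L,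
        a' y v = ∑ j, w.res j (u j) := by
  rw [C.D_q i]
  obtain ⟨w, hw⟩ := exists_wall_of_trace (i := some i) hL hi ha ha' (ha.act_trace_frame hd hi)
  refine ⟨w, fun y hy v => hw _ (ha'.mem_alphaRange hnew (fun P g hg hQ => ?_) v)⟩
  obtain ⟨ε, hε⟩ := hQ
  obtain ⟨B, hB, hs⟩ := hg.exists_newCfg hε List.mem_cons_self
  exact hg.map_eq_zero hB hs hy

end Stage

end FermatAgent.RTLift.Setup
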