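import Fermat.Agent.RTLift.Setup.Stage
import Fermat.Agent.RTLift.Setup.Base
import Fermat.Agent.RTLift.Engine.Assemble

/-!
# The action of the trace ring of a stage on a level
-/

set_option autoImplicit false
set_option maxHeartbeats 8000000

noncomputable section

namespace FermatAgent.RTLift.Setup

open IsLocalRing FermatAgent.RTLift.Engine FermatAgent.RTLift.LocalRings FermatAgent.RTLift.Modules
  Matrix

local notation "Qb" => AlgebraicClosure ℚ
local notation "GQ" => AlgebraicClosure ℚ ≃ₐ[ℚ] AlgebraicClosure ℚ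

variable {O : Type} [CommRing O] [IsDomain O] [IsDiscreteValuationRing O]
  [IsAdicComplete (maximalIdeal O) O] [Finite (ResidueField O)]
  {p r : ℕ} [Fact p.Prime] [Algebra (ZMod p) (ResidueField O)] {I : Type} [Fintype I]
  {C : Ctx O p r I} {n : ℕ} {L : List (Option I)}

omit [IsDomain O] [IsDiscreteValuationRing O] [IsAdicComplete (maximalIdeal O) O]
  [Fact (Nat.Prime p)] [Algebra (ZMod p) (ResidueField O)] in
theorem diamondCC_algebraMap (o : O) :
    diamondCC O r p n (algebraMap O (Diamond O r p n) o) = o := by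
  rw [IsScalarTower.algebraMap_apply O (MvPowerSeries (Fin r) O) (Diamond O r p n),
    Ideal.Quotient.algebraMap_eq, diamondCC, Ideal.Quotient.lift_mk,
    MvPowerSeries.algebraMap_apply, MvPowerSeries.constantCoeff_C]
  rfl

theorem toMatrix_mem_of_range {Λ : Type} [CommRing Λ] {M M' : Type} [AddCommGroup M] [Module Λ M]
    [AddCommGroup M'] [Module Λ M'] {k k' : ℕ} (b : Module.Basis (Fin k) Λ M)
    (b' : Module.Basis (Fin k') Λ M') {J : Ideal Λ} {f : M →ₗ[Λ] M'}
    (h : ∀ v, f v ∈ J • (⊤ : Submodule Λ M')) (i : Fin k') (j : Fin k) :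
    LinearMap.toMatrix b b' f i j ∈ J := by
  rw [LinearMap.toMatrix_apply]
  refine Submodule.smul_induction_on (h (b j)) (fun c hc w _ => ?_) fun x y hx hy => ?_
  · rw [map_smul, Finsupp.smul_apply, smul_eq_mul]
    exact Ideal.mul_mem_right _ _ hc
  · rw [map_add, Finsupp.add_apply]
    exact add_mem hx hy

namespace Ctx

variable (C)

omit [Finite (ResidueField O)] in
theorem notMem_support_of_notMem_bad {l : Nat.Primes} (hl : l ∉ C.bad n) : l ∉ C.Fr.support :=
  fun h => hl (C.mem_bad.mpr (.inl h))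

omit [Finite (ResidueField O)] in
theorem not_dvd_of_notMem_bad {l : Nat.Primes} (hl : l ∉ (↑(C.bad n) : Set Nat.Primes)) :
    ¬ (l : ℕ) ∣ C.lvl n L :=
  fun h => hl (C.mem_bad_of_dvd h)

omit [Finite (ResidueField O)] in
theorem ne_p_of_notMem_bad {l : Nat.Primes} (hl : l ∉ (↑(C.bad n) : Set Nat.Primes)) :
    (l : ℕ) ≠ p := fun h => C.notMem_support_of_notMem_bad hl (by
  rw [show l = ExtCitation.pPrime p from Subtype.ext h]
  exact C.p_mem_support)

/-- Operators away from the Taylor–Wiles primes: the coinvariants of the patched module have the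
same rank. -/
theorem exists_basis (hL : C.Admissible L) :
    Nonempty (Module.Basis (Fin (Module.finrank O (C.V₀ L))) (Diamond O r p n) (C.V n L)) := by
  obtain ⟨_, _⟩ := C.finite_free_V n hL
  obtain ⟨_, _⟩ := C.finite_free_V₀ hL
  obtain ⟨π, h1, h2, h3, -⟩ := C.exists_baseMap n hL
  obtain ⟨b, -⟩ := exists_basis_lift (diamondCC O r p n)
    (IsLocalRing.le_maximalIdeal (RingHom.ker_ne_top _)) π h1 h2 h3
    (Module.finBasis O (C.V₀ L)) fun o => ⟨algebraMap O _ o, diamondCC_algebraMap o⟩
  exact ⟨b⟩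

end Ctx

namespace Stage

variable (S : Stage C n)

/-- Finitely many covered points of a level detect its module. -/
def Detects (L : List (Option I)) : Prop :=
  ∃ (m : ℕ) (pt : Fin m → LevelPoint C n L), (∀ k, S.Covers (pt k).toGal) ∧
    ∀ s, (∀ i, (pt i).x s = 0) → ∀ v ∈ C.V n L,
      heckeHom (R := Diamond O r p n) (C.modulus_dvd_lvl n L) (C.θ n) (Diamond O r p n)
        (fun l : Good (C.lvl n L) 0 => (l : Nat.Primes)) s v = 0

/-- The traces of Frobenius outside the bad primes act as the normalised operators. -/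
abbrev IsAct (L : List (Option I))
    (act : S.R →ₐ[O] Module.End (Diamond O r p n) (C.V n L)) : Prop :=
  IsTrAct (C.modulus_dvd_lvl n L) (C.θ n) C.pr (C.ξ n) (↑(C.bad n) : Set Nat.Primes) (C.κv n)
    S.trFrob act

variable {S} {P : LevelPoint C n L} {g : S.R →ₐ[O] P.A}

omit [Finite (ResidueField O)] in
theorem IsPt.trFrob_level (h : S.IsPt P.toGal g) {l : Nat.Primes}
    (hl : l ∉ (↑(C.bad n) : Set Nat.Primes)) :
    g (S.trFrob l) = P.x (MvPolynomial.C (C.κv n l) *
      MvPolynomial.X ⟨l, C.not_dvd_of_notMem_bad hl, l.2.ne_zero⟩) :=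
  (h.trFrob l).trans (P.trace_frob ⟨l, C.not_dvd_of_notMem_bad hl, l.2.ne_zero⟩
    (C.ne_p_of_notMem_bad hl) _ (frobPlace_liesOver l) _ (isFrobeniusAt_frobAt l))

/-- A level detected by a stage carries an action of its trace ring. -/
theorem Detects.exists_isAct (hd : S.Detects L) : ∃ act, S.IsAct L act := by
  obtain ⟨m, pt, hc, hf⟩ := hd
  choose g hg using hc
  exact exists_isTrAct (fun l hl => C.not_dvd_of_notMem_bad hl) (ι := Fin m)
    (A := fun k => (pt k).A) g (fun k => (pt k).x) (fun k l hl => (hg k).trFrob_level hl)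
    S.adjoin_trFrob hf

variable {act : S.R →ₐ[O] Module.End (Diamond O r p n) (C.V n L)}

/-- An element acts as a polynomial with the same values at the covered points. -/
theorem IsAct.exists_poly (ha : S.IsAct L act) (y : S.R) :
    ∃ s : MvPolynomial (Good (C.lvl n L) 0) (Diamond O r p n),
      (∀ v : C.V n L, (act y v : H1 _ (Diamond O r p n)) =
        heckeHom (R := Diamond O r p n) (C.modulus_dvd_lvl n L) (C.θ n) (Diamond O r p n)
          (fun l : Good (C.lvl n L) 0 => (l : Nat.Primes)) s v) ∧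
      ∀ (P : LevelPoint C n L) (g : S.R →ₐ[O] P.A), S.IsPt P.toGal g → g y = P.x s := by
  obtain ⟨s, h1, h2⟩ := IsTrAct.exists_poly ha S.adjoin_trFrob
    (fun l hl => C.not_dvd_of_notMem_bad hl) y
  exact ⟨s, h1, fun P g hg => h2 P.A g P.x fun l hl => hg.trFrob_level hl⟩

/-- An element with the values of a polynomial at the covered points acts as the polynomial. -/
theorem IsAct.coe_apply (ha : S.IsAct L act) (hd : S.Detects L) (y : S.R)
    (s : MvPolynomial (Good (C.lvl n L) 0) (Diamond O r p n))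
    (h : ∀ (P : LevelPoint C n L) (g : S.R →ₐ[O] P.A), S.IsPt P.toGal g → g y = P.x s)
    (v : C.V n L) :
    (act y v : H1 _ (Diamond O r p n)) =
      heckeHom (R := Diamond O r p n) (C.modulus_dvd_lvl n L) (C.θ n) (Diamond O r p n)
        (fun l : Good (C.lvl n L) 0 => (l : Nat.Primes)) s v := by
  obtain ⟨m, pt, hc, hf⟩ := hd
  obtain ⟨s', h1, h2⟩ := ha.exists_poly y
  rw [h1, ← sub_eq_zero, ← LinearMap.sub_apply, ← map_sub]
  refine hf (s' - s) (fun k => ?_) v v.2
  obtain ⟨g, hg⟩ := hc k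
  rw [map_sub, ← h2 _ g hg, h _ g hg, sub_self]

/-- An element vanishing at the covered points acts by zero. -/
theorem IsAct.eq_zero (ha : S.IsAct L act) (hd : S.Detects L) {y : S.R}
    (h : ∀ (P : LevelPoint C n L) (g : S.R →ₐ[O] P.A), S.IsPt P.toGal g → g y = 0) :
    act y = 0 :=
  LinearMap.ext fun v => Subtype.ext ((ha.coe_apply hd y 0
    (fun P g hg => (h P g hg).trans (map_zero P.x).symm) v).trans (by simp))

/-- An element with scalar values acts by the scalar. -/
theorem IsAct.eq_scalar (ha : S.IsAct L act) (hd : S.Detects L) {y : S.R} (c : Diamond O r p n)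
    (h : ∀ (P : LevelPoint C n L) (g : S.R →ₐ[O] P.A), S.IsPt P.toGal g →
      g y = P.x (MvPolynomial.C c)) :
    act y = algebraMap _ _ c :=
  LinearMap.ext fun v => Subtype.ext ((ha.coe_apply hd y _ h v).trans (by
    rw [← MvPolynomial.algebraMap_eq, AlgHom.commutes, Module.algebraMap_end_apply,
      Module.algebraMap_end_apply]
    rfl))

/-- The diamond elements act as the diamond values. -/
theorem IsAct.act_zEl (ha : S.IsAct L act) (hd : S.Detects L) (j : Fin r) :
    act (S.zEl j) = algebraMap _ _ (diamondZ O r p n j) := by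
  refine act_z_of_values (O := O) (r := r) (p := p) (n := n) (R := S.R)
    (A := Module.End (Diamond O r p n) (C.V n L)) (f := act) (z := S.zEl j) (j := j) (h :=
    (ha.eq_scalar hd ((1 + Ideal.Quotient.mk _ (MvPowerSeries.X j)) +
      Ring.inverse (1 + Ideal.Quotient.mk _ (MvPowerSeries.X j)) - 2) fun P g hg => ?_))
  rw [map_sub MvPolynomial.C, map_sub, map_ofNat, map_ofNat, ← P.trace_twGen]
  exact hg.zEl j

/-- At a place outside the level the trace of the Frobenius of the frame is the Hecke operator. -/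
theorem IsAct.act_trace_frame (ha : S.IsAct L act) (hd : S.Detects L) {i : I} (hi : some i ∉ L) :
    act (Matrix.trace (S.M.rho (C.Fr.frame i).frob)) = C.κv n (C.Fr.q i) •
      localOp (C.modulus_dvd_lvl n L) (C.θ n) C.pr (C.ξ n) (C.Fr.q i) := by
  have hg' : ¬ (C.Fr.q i : ℕ) ∣ C.lvl n L ∧ (C.Fr.q i : ℕ) ≠ 0 :=
    ⟨C.not_dvd_place (i := some i) hi, (C.Fr.q i).2.ne_zero⟩
  refine LinearMap.ext fun v => Subtype.ext ((ha.coe_apply hd _
    (MvPolynomial.C (C.κv n (C.Fr.q i)) * MvPolynomial.X ⟨C.Fr.q i, hg'⟩)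
    (fun P g hg => ?_) v).trans ?_)
  · exact (hg.trace _).trans (P.trace_frob ⟨C.Fr.q i, hg'⟩ (C.Fr.ne i) _ (C.Fr.frame i).liesOver _
      (C.Fr.frame i).isFrobenius)
  · rw [← MvPolynomial.algebraMap_eq, ← Algebra.smul_def, map_smul, heckeHom_X]
    rfl

variable (S)

/-- The ideal of a configuration in the trace ring. -/
def cfgIdeal (B : I → Cfg) : Ideal S.R :=
  ⨆ i, Ideal.span (cfgEqns (B i) (C.D.q i : S.R) (algebraMap O _ (C.D.c i))
    (S.M.rho (C.Fr.frame i).frob) (S.M.rho (C.Fr.frame i).gen - 1))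

variable {S}

omit [Finite (ResidueField O)] in
/-- Points with a configuration kill its ideal. -/
theorem IsPt.cfgIdeal_le {G : GalPoint C n} {g : S.R →ₐ[O] G.A} (hg : S.IsPt G g) {B : I → Cfg}
    (h : ∀ i, Sat (B i) (C.D.q i : G.A) (algebraMap O G.A (C.D.c i))
      (G.rep (C.Fr.frame i).frob) (G.rep (C.Fr.frame i).gen - 1)) :
    S.cfgIdeal B ≤ RingHom.ker g.toRingHom :=
  iSup_le fun i => by
    rw [span_le_ker_iff, map_natCast, AlgHom.toRingHom_eq_coe, AlgHom.coe_toRingHom,
      AlgHom.commutes]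
    exact hg.sat (h i)

omit [Finite (ResidueField O)] in
/-- Points with configurations of a list kill the product. -/
theorem IsPt.map_eq_zero {G : GalPoint C n} {g : S.R →ₐ[O] G.A} (hg : S.IsPt G g)
    {𝒞 : Finset (I → Cfg)} {B : I → Cfg} (hB : B ∈ 𝒞)
    (h : ∀ i, Sat (B i) (C.D.q i : G.A) (algebraMap O G.A (C.D.c i))
      (G.rep (C.Fr.frame i).frob) (G.rep (C.Fr.frame i).gen - 1))
    {y : S.R} (hy : y ∈ ∏ B ∈ 𝒞, S.cfgIdeal B) : g y = 0 :=
  hg.cfgIdeal_le h (Ideal.le_of_dvd (Finset.dvd_prod_of_mem _ hB) hy)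

omit [Finite (ResidueField O)] in
/-- Modulo the augmentation an expression in the traces acts as the base operators. -/
theorem IsAct.base_apply (ha : S.IsAct L act) (π : C.V n L →+ C.V₀ L)
    (hπ : ∀ (c : Diamond O r p n) v, π (c • v) = diamondCC O r p n c • π v)
    (hop : ∀ l : C.J, (∀ j, C.Q n j ≠ l.1) → ∀ v,
      π (localOp (C.modulus_dvd_lvl n L) (C.θ n) C.pr (C.ξ n) l.1 v) =
        localOp (one_dvd (C.base L)) (1 : (ZMod 1)ˣ →* O) C.pr C.ξ₀ l.1 (π v))
    (s : MvPolynomial C.J O) (hs : ∀ l ∈ s.vars, ∀ j, C.Q n j ≠ l.1) (v : C.V n L) :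
    (π (act (MvPolynomial.aeval (fun l : C.J => S.trFrob l.1) s) v) : H1 _ O) =
      heckeHom (R := O) (one_dvd (C.base L)) (1 : (ZMod 1)ˣ →* O) O C.pr s (π v) := by
  classical
  have hmon : ∀ m : C.J →₀ ℕ, (∀ l ∈ m.support, ∀ j, C.Q n j ≠ l.1) → ∀ (c : O) (v : C.V n L),
      (π (act (MvPolynomial.aeval (fun l : C.J => S.trFrob l.1) (MvPolynomial.monomial m c)) v) :
        H1 _ O) =
        heckeHom (R := O) (one_dvd (C.base L)) (1 : (ZMod 1)ˣ →* O) O C.pr
          (MvPolynomial.monomial m c) (π v) := by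
    intro m
    induction m using Finsupp.induction with
    | zero =>
      intro _ c v
      rw [MvPolynomial.monomial_zero', MvPolynomial.aeval_C, ← MvPolynomial.algebraMap_eq,
        AlgHom.commutes, AlgHom.commutes, Module.algebraMap_end_apply,
        Module.algebraMap_end_apply, ← algebraMap_smul (Diamond O r p n) c v, hπ]
      rw [diamondCC_algebraMap]
      rfl
    | single_add l k m hlm hk ih =>
      intro hl c
      have hsup : ∀ l' ∈ m.support, ∀ j, C.Q n j ≠ l'.1 := fun l' hl' => hl l' (by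
        rw [Finsupp.support_single_add hlm hk]; exact Finset.mem_cons_of_mem hl')
      have hlQ := hl l (by
        rw [Finsupp.support_single_add hlm hk]; exact Finset.mem_cons_self _ _)
      have hlb : l.1 ∉ (↑(C.bad n) : Set Nat.Primes) := fun h =>
        (C.mem_bad.mp h).elim l.2 fun ⟨j, hj⟩ => hlQ j hj
      have hκ : diamondCC O r p n (C.κv n l.1) = 1 := by
        rw [Ctx.κv, dif_pos (C.coprime_modulus hlQ)]
        exact diamondCC_kappa _ _ _
      rw [MvPolynomial.monomial_single_add, map_mul, map_mul, map_pow, map_pow,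
        MvPolynomial.aeval_X, map_mul, map_pow, ha l.1 hlb, heckeHom_X]
      clear hl hk
      induction k with
      | zero => intro v; simpa using ih hsup c v
      | succ k ihk =>
        intro v
        rw [pow_succ', mul_assoc, Module.End.mul_apply, LinearMap.smul_apply, hπ, hκ, one_smul,
          hop l hlQ, coe_localOp, ihk, pow_succ', mul_assoc]
        rfl
  rw [← s.support_sum_monomial_coeff, map_sum, map_sum, map_sum, LinearMap.sum_apply, map_sum,
    Submodule.coe_sum, LinearMap.sum_apply]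
  exact Finset.sum_congr rfl fun m hm => hmon m
    (fun l hl => hs l ((MvPolynomial.mem_vars_iff_mem_support _).mpr ⟨m, hm, hl⟩)) _ v

/-- A relation of the base operators acts into the augmentation. -/
theorem IsAct.mem_smul_top_of_base (ha : S.IsAct L act) (hL : C.Admissible L)
    (s : MvPolynomial C.J O) (hs : ∀ l ∈ s.vars, ∀ j, C.Q n j ≠ l.1)
    (hs0 : ∀ x ∈ C.V₀ L,
      heckeHom (R := O) (one_dvd (C.base L)) (1 : (ZMod 1)ˣ →* O) O C.pr s x = 0)
    (v : C.V n L) :
    act (MvPolynomial.aeval (fun l : C.J => S.trFrob l.1) s) v ∈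
      RingHom.ker (diamondCC O r p n) • (⊤ : Submodule (Diamond O r p n) (C.V n L)) := by
  obtain ⟨π, h1, -, h3, h4⟩ := C.exists_baseMap n hL
  refine h3 _ (Subtype.ext ?_)
  rw [ha.base_apply π h1 h4 s hs, hs0 _ (π v).2]
  rfl

end Stage

end FermatAgent.RTLift.Setup
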