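import Fermat.Agent.RTLift.Setup.Ring
import Fermat.Agent.RTLift.Engine.SlotAtP

/-!
# Sub-stages and the families of stages along the tower
-/

set_option autoImplicit false

noncomputable section

namespace FermatAgent.RTLift.Setup

open IsLocalRing FermatAgent.RTLift.Engine FermatAgent.RTLift.LocalRings Matrix

local notation "GQ" => AlgebraicClosure ℚ ≃ₐ[ℚ] AlgebraicClosure ℚ

variable {O : Type} [CommRing O] [IsDomain O] [IsDiscreteValuationRing O]
  [IsAdicComplete (maximalIdeal O) O] [Finite (ResidueField O)]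
  {p r : ℕ} [Fact p.Prime] [Algebra (ZMod p) (ResidueField O)] {I : Type} [Fintype I]
  {C : Ctx O p r I} {n : ℕ}

namespace Stage

variable (S : Stage C n) {m : ℕ} [NeZero m] (e : Fin m → Fin S.m)

theorem exists_proj :
    ∃ φ : S.R →ₐ[O] (Stage.of (S.pts ∘ e)).R, Function.Surjective φ ∧
      ∀ k, ((Stage.of (S.pts ∘ e)).ptAt k).comp φ = S.ptAt (e k) := by
  set T := Stage.of (S.pts ∘ e)
  let E : T.R →ₐ[O] ∀ k, (S.pts (e k)).A := AlgHom.pi fun k => T.ptAt k
  let Φ : S.R →ₐ[O] ∀ k, (S.pts (e k)).A := AlgHom.pi fun k => S.ptAt (e k)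
  have hE : Function.Injective E := fun a b h => T.ptAt_injective a b fun k => congrFun h k
  have htr : ∀ σ, Φ (trace (S.M.rho σ)) = E (trace (T.M.rho σ)) := fun σ => funext fun k =>
    ((S.isPt_ptAt (e k)).trace σ).trans ((T.isPt_ptAt k).trace σ).symm
  have hr : Φ.range = E.range := by
    rw [← Algebra.map_top, ← Algebra.map_top, ← S.M.adjoin_trace, ← T.M.adjoin_trace,
      AlgHom.map_adjoin, AlgHom.map_adjoin]
    congr 1
    rw [← Set.range_comp, ← Set.range_comp]
    exact congrArg Set.range (funext htr)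
  let Ei := AlgEquiv.ofInjective E hE
  refine ⟨Ei.symm.toAlgHom.comp (Φ.codRestrict E.range fun x => hr ▸ ⟨x, rfl⟩), fun y => ?_,
    fun k => AlgHom.ext fun x => ?_⟩
  · obtain ⟨x, hx⟩ : E y ∈ Φ.range := hr.symm ▸ ⟨y, rfl⟩
    refine ⟨x, Ei.injective (Subtype.ext ?_)⟩
    rw [AlgHom.comp_apply, AlgEquiv.coe_toAlgHom, AlgEquiv.apply_symm_apply]
    exact hx
  · have h := congrArg Subtype.val (Ei.apply_symm_apply
      (Φ.codRestrict E.range (fun x => hr ▸ ⟨x, rfl⟩) x))
    exact congrFun h k

/-- The projection to the trace ring of some of the points. -/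
def proj : S.R →ₐ[O] (Stage.of (S.pts ∘ e)).R := (S.exists_proj e).choose

theorem proj_surjective : Function.Surjective (S.proj e) := (S.exists_proj e).choose_spec.1

theorem proj_mem_maximalIdeal {y : S.R} (hy : y ∈ maximalIdeal S.R) :
    S.proj e y ∈ maximalIdeal (Stage.of (S.pts ∘ e)).R := by
  have : IsLocalHom (S.proj e).toRingHom := IsLocalHom.of_surjective _ (S.proj_surjective e)
  exact (mem_maximalIdeal _).mpr fun hu => (mem_maximalIdeal _).mp hy
    ((isUnit_map_iff (S.proj e).toRingHom y).mp hu)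

/-- The representation pushed to the trace ring of some of the points. -/
def subRho : GQ →* Matrix (Fin 2) (Fin 2) (Stage.of (S.pts ∘ e)).R :=
  (S.proj e).toRingHom.mapMatrix.toMonoidHom.comp S.M.rho

theorem subRho_apply (σ : GQ) : S.subRho e σ = (S.M.rho σ).map (S.proj e) := rfl

theorem trace_subRho (σ : GQ) : (S.subRho e σ).trace = S.proj e (S.M.rho σ).trace := by
  simp [subRho_apply, Matrix.trace_fin_two]

/-- The stage of some of the points, with the pushed representation. -/
def sub : Stage C n where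
  m := m
  pts := S.pts ∘ e
  M :=
    { R := (Stage.of (S.pts ∘ e)).R
      rho := S.subRho e
      cont := fun N => by
        obtain ⟨L, hL, h⟩ := S.M.cont N
        refine ⟨L, hL, fun σ hσ i j => ?_⟩
        have h1 := Ideal.mem_map_of_mem (S.proj e) (h σ hσ i j)
        rw [Ideal.map_pow] at h1
        have h2 : S.proj e ((S.M.rho σ - 1) i j) = (S.subRho e σ - 1) i j := by
          rw [Matrix.sub_apply, Matrix.sub_apply, map_sub, subRho_apply, Matrix.map_apply,
            Matrix.one_apply, Matrix.one_apply, apply_ite (S.proj e), map_one, map_zero]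
        rw [← h2]
        exact Ideal.pow_right_mono ((Ideal.map_le_iff_le_comap (f := S.proj e)).mpr fun y hy =>
          Ideal.mem_comap.mpr (S.proj_mem_maximalIdeal e hy)) N h1
      det_eq := fun σ => by
        rw [subRho_apply]
        exact ((S.proj e).map_det _).symm.trans
          ((congrArg _ (S.M.det_eq σ)).trans (AlgHom.commutes _ _))
      residual := fun σ a b => by
        obtain ⟨o, ho, h⟩ := S.M.residual σ a b
        refine ⟨o, ho, ?_⟩
        have h1 := S.proj_mem_maximalIdeal e h
        rw [map_sub, AlgHom.commutes] at h1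
        exact h1
      pt := fun k => (Stage.of (S.pts ∘ e)).ptAt k
      pt_injective := (Stage.of (S.pts ∘ e)).ptAt_injective
      pt_trace := fun k σ => by
        have h := DFunLike.congr_fun ((S.exists_proj e).choose_spec.2 k) (S.M.rho σ).trace
        rw [trace_subRho]
        exact h.trans ((S.isPt_ptAt (e k)).trace σ)
      pt_conj := fun k => by
        obtain ⟨P, hP, h⟩ := (S.isPt_ptAt (e k)).conj
        refine ⟨P, hP, fun σ => ?_⟩
        let g : (Stage.of (S.pts ∘ e)).R →ₐ[O] (S.pts (e k)).A := (Stage.of (S.pts ∘ e)).ptAt k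
        have he : (S.subRho e σ).map g = (S.M.rho σ).map (S.ptAt (e k)) := by
          rw [subRho_apply, Matrix.map_map]
          exact congrArg (S.M.rho σ).map (funext fun x =>
            DFunLike.congr_fun ((S.exists_proj e).choose_spec.2 k) x)
        exact (congrArg (fun X : Matrix (Fin 2) (Fin 2) (S.pts (e k)).A => P * X) he).trans (h σ)
      adjoin_trace := by
        have h := congrArg (Subalgebra.map (S.proj e)) S.M.adjoin_trace
        rw [Algebra.map_top, (AlgHom.range_eq_top _).mpr (S.proj_surjective e), AlgHom.map_adjoin,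
          ← Set.range_comp] at h
        exact (congrArg (fun s => Algebra.adjoin O (Set.range s))
          (funext fun σ => S.trace_subRho e σ)).trans h }

/-- The map to a sub-stage. -/
def toSub : S.R →ₐ[O] (S.sub e).R := S.proj e

theorem toSub_surjective : Function.Surjective (S.toSub e) := S.proj_surjective e

theorem toSub_rho (σ : GQ) : (S.M.rho σ).map (S.toSub e) = (S.sub e).M.rho σ := rfl

theorem toSub_trace (σ : GQ) :
    S.toSub e (S.M.rho σ).trace = ((S.sub e).M.rho σ).trace := (S.trace_subRho e σ).symm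

theorem toSub_zEl (j : Fin r) : S.toSub e (S.zEl j) = (S.sub e).zEl j := by
  rw [Stage.zEl, Stage.zEl, map_sub, map_ofNat, S.toSub_trace]

theorem toSub_trFrob (ℓ : Nat.Primes) : S.toSub e (S.trFrob ℓ) = (S.sub e).trFrob ℓ :=
  S.toSub_trace e _

variable {S e}

theorem IsPt.ofSub {G : GalPoint C n} {g : (S.sub e).R →ₐ[O] G.A} (h : (S.sub e).IsPt G g) :
    S.IsPt G (g.comp (S.toSub e)) := by
  refine ⟨fun σ => by rw [AlgHom.comp_apply, S.toSub_trace, h.trace], ?_⟩
  obtain ⟨P, hP, hc⟩ := h.conj
  refine ⟨P, hP, fun σ => ?_⟩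
  rw [show (S.M.rho σ).map (g.comp (S.toSub e)) = ((S.sub e).M.rho σ).map g from by
    rw [← S.toSub_rho e, Matrix.map_map]; rfl]
  exact hc σ

theorem Covers.ofSub {G : GalPoint C n} (h : (S.sub e).Covers G) : S.Covers G :=
  let ⟨_, hg⟩ := h; ⟨_, hg.ofSub⟩

omit [Finite (ResidueField O)] in
/-- Points are determined by traces. -/
theorem IsPt.unique {G : GalPoint C n} {g g' : S.R →ₐ[O] G.A} (h : S.IsPt G g) (h' : S.IsPt G g') :
    g = g' := by
  refine AlgHom.ext fun x => ?_
  have hx : x ∈ Algebra.adjoin O (Set.range fun σ => Matrix.trace (S.M.rho σ)) :=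
    S.M.adjoin_trace ▸ Algebra.mem_top
  induction hx using Algebra.adjoin_induction with
  | mem x hx =>
    obtain ⟨σ, rfl⟩ := hx
    rw [h.trace, h'.trace]
  | algebraMap o => rw [AlgHom.commutes, AlgHom.commutes]
  | add a b _ _ ha hb => rw [map_add, map_add, ha, hb]
  | mul a b _ _ ha hb => rw [map_mul, map_mul, ha, hb]

end Stage

section Family

variable (S : ∀ n, Stage C n) {rv : ℕ}
  (π : ∀ n, Ambient O I rv →ₐ[O] MvPowerSeries (I × Fin 3) (S n).R)
  (hπ : ∀ n, Function.Surjective (π n))
  (hfr : ∀ n, Galois.IsFramedMap (S n).M C.Fr C.D rv (π n))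

/-- The family of the stages. -/
def family : Family C.D rv r where
  R n := (S n).R
  frob n i := (S n).M.rho (C.Fr.frame i).frob
  mono n i := (S n).M.rho (C.Fr.frame i).gen - 1
  z n := (S n).zEl
  z_mem n := (S n).zEl_mem
  π := π
  π_surjective := hπ
  π_frob n i := (hfr n i).1
  π_mono n i := (hfr n i).2

variable {m : ℕ → ℕ} [∀ n, NeZero (m n)] (e : ∀ n, Fin (m n) → Fin (S n).m) {rv' : ℕ}
  (π' : ∀ n, Ambient O I rv' →ₐ[O] MvPowerSeries (I × Fin 3) ((S n).sub (e n)).R)
  (hπ' : ∀ n, Function.Surjective (π' n))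
  (hfr' : ∀ n, Galois.IsFramedMap ((S n).sub (e n)).M C.Fr C.D rv' (π' n))

/-- The map of the families of sub-stages. -/
def familyMap : FamilyMap (family S π hπ hfr) (family (fun n => (S n).sub (e n)) π' hπ' hfr') where
  φ n := (S n).toSub (e n)
  surjective n := (S n).toSub_surjective (e n)
  map_frob n i := (S n).toSub_rho (e n) _
  map_mono n i := by
    change ((S n).M.rho (C.Fr.frame i).gen - 1).map ((S n).toSub (e n)) =
      ((S n).sub (e n)).M.rho (C.Fr.frame i).gen - 1
    rw [Matrix.map_sub _ (map_sub _), Matrix.map_one _ (map_zero _) (map_one _),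
      (S n).toSub_rho]
  map_z n j := (S n).toSub_zEl (e n) j

end Family

end FermatAgent.RTLift.Setup
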