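import Fermat.Agent.RTLift.Setup.Walls
import Fermat.Agent.RTLift.Setup.HasPoint

/-!
# Towers of stages: slots of levels, raising, and points
-/

set_option autoImplicit false

noncomputable section

namespace FermatAgent.RTLift.Setup

open IsLocalRing FermatAgent.RTLift.Engine FermatAgent.RTLift.LocalRings FermatAgent.RTLift.Modules
  Matrix Filter

variable {O : Type} [CommRing O] [IsDomain O] [IsDiscreteValuationRing O]
  [IsAdicComplete (maximalIdeal O) O] [Finite (ResidueField O)]
  {p r : ℕ} [Fact p.Prime] [Algebra (ZMod p) (ResidueField O)] {I : Type} [Fintype I]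
  {C : Ctx O p r I}

/-- Stages at all steps presented over the local data with `rv` variables. -/
structure Tower (C : Ctx O p r I) (rv : ℕ) where
  /-- the stages -/
  S : ∀ n, Stage C n
  /-- the presentations -/
  π : ∀ n, Ambient O I rv →ₐ[O] MvPowerSeries (I × Fin 3) (S n).R
  surjective : ∀ n, Function.Surjective (π n)
  framed : ∀ n, Galois.IsFramedMap (S n).M C.Fr C.D rv (π n)

/-- The levels above `L₀` with the places of `ls`. -/
def levelAbove (L₀ : List (Option I)) (ls : List I) : List (Option I) := ls.map some ++ L₀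

omit [Fintype I] in
theorem some_notMem_levelAbove {L₀ : List (Option I)} {i : I} {ls : List I}
    (h₀ : some i ∉ L₀) (h : i ∉ ls) : some i ∉ levelAbove L₀ ls := by
  simp [levelAbove, h₀, h]

omit [Finite (ResidueField O)] in
theorem admissible_levelAbove {L₀ : List (Option I)} (hL : C.Admissible L₀) :
    ∀ {ls : List I}, ls.Nodup → (∀ i ∈ ls, some i ∉ L₀) → C.Admissible (levelAbove L₀ ls)
  | [], _, _ => hL
  | i :: ls, hnd, hn => by
    obtain ⟨h1, h2⟩ := List.nodup_cons.mp hnd
    exact Ctx.Admissible.cons C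
      (admissible_levelAbove hL h2 fun j hj => hn j (List.mem_cons_of_mem _ hj))
      (some_notMem_levelAbove (hn i List.mem_cons_self) h1)

namespace Tower

variable {rv : ℕ} (T : Tower C rv)

/-- The family of a tower. -/
abbrev F : Family C.D rv r := family T.S T.π T.surjective T.framed

/-- A level is detected at every step. -/
def Detects (L : List (Option I)) : Prop := ∀ n, (T.S n).Detects L

/-- The new quotient at an auxiliary place is detected at every step by points with `St` there. -/
def DetectsNewAt {L : List (Option I)} {i : I} (hi : some i ∉ L) : Prop :=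
  ∀ n, (T.S n).DetectsNew hi fun P : LevelPoint C n (some i :: L) =>
    ∃ ε, Sat (.st ε) (C.D.q i : P.A) (algebraMap O P.A (C.D.c i))
      (P.rep (C.Fr.frame i).frob) (P.rep (C.Fr.frame i).gen - 1)

variable {T} {L : List (Option I)}

/-- The action on a level. -/
def act (hd : T.Detects L) (n : ℕ) :
    (T.S n).R →ₐ[O] Module.End (Diamond O r p n) (C.V n L) :=
  (hd n).exists_isAct.choose

theorem isAct (hd : T.Detects L) (n : ℕ) : (T.S n).IsAct L (T.act hd n) :=
  (hd n).exists_isAct.choose_spec

theorem act_z (hd : T.Detects L) (n : ℕ) (j : Fin r) :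
    T.act hd n (T.F.z n j) = algebraMap _ _ (diamondZ O r p n j) :=
  (T.isAct hd n).act_zEl (hd n) j

/-- The slot of a level. -/
def slot (hL : C.Admissible L) (hd : T.Detects L) :
    Engine.Slot T.F p (Module.finrank O (C.V₀ L)) :=
  letI : ∀ n, AddCommGroup (C.V n L) := fun _ => inferInstance
  letI : ∀ n, Module O (C.V n L) := fun _ => inferInstance
  letI : ∀ n, Module (Diamond O r p n) (C.V n L) := fun _ => inferInstance
  haveI : ∀ n, IsScalarTower O (Diamond O r p n) (C.V n L) := fun _ => inferInstance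
  Slot.ofActs (M := fun n => C.V n L) (fun _ => (C.exists_basis hL).some) (T.act hd)
    (T.act_z hd)

theorem slot_act (hL : C.Admissible L) (hd : T.Detects L) (n : ℕ) (y : (T.S n).R) :
    (T.slot hL hd).act n y =
      LinearMap.toMatrix (C.exists_basis hL).some (C.exists_basis hL).some (T.act hd n y) :=
  rfl

theorem slot_kills (hL : C.Admissible L) (hd : T.Detects L) :
    (T.slot hL hd).Kills (C.cfgs L) :=
  Eventually.of_forall fun n y hy => (slot_act hL hd n y).trans (by
    rw [(T.isAct hd n).eq_zero_of_mem_prod (hd n) hy, map_zero])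

end Tower

variable (C) in
omit [Finite (ResidueField O)] in
theorem Ctx.finrank_pos {L : List (Option I)} (hL : C.Admissible L) (h : C.V₀ L ≠ ⊥) :
    0 < Module.finrank O (C.V₀ L) := by
  obtain ⟨_, _⟩ := C.finite_free_V₀ hL
  have : Nontrivial (C.V₀ L) := Submodule.nontrivial_iff_ne_bot.mpr h
  exact Module.finrank_pos

namespace Tower

section Chain

variable {T : Tower C r} [DecidableEq I]

omit [DecidableEq I] in
/-- The initial component. -/
theorem exists_initial [CharZero O] {L : List (Option I)} (hL : C.Admissible L) (hd : T.Detects L)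
    (hne : C.V₀ L ≠ ⊥) :
    ∃ B ∈ C.cfgs L,
      RingHom.ker ((T.slot hL hd).piece C.residue_p).toRingHom ≤ C.D.cfgIdeal r B :=
  exists_component_of_kills _ (C.finrank_pos hL hne) C.residue_p (C.listed_cfgs L)
    (T.slot_kills hL hd)

/-- Raising at an auxiliary place. -/
theorem raise [CharZero O] {L : List (Option I)} {i : I} (hL : C.Admissible L)
    (hL' : C.Admissible (some i :: L)) (hi : some i ∉ L) (hd : T.Detects L)
    (hd' : T.Detects (some i :: L)) (hnew : T.DetectsNewAt hi) {A : I → Cfg}
    (hA : ∀ j, C.D.Allowed j (A j)) (hAp : IsPlain A) (hAi : A i = .ur) {ε : ℤˣ}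
    (hε : C.D.Allowed i (.st ε))
    (hsupp : RingHom.ker ((T.slot hL hd).piece C.residue_p).toRingHom ≤ C.D.cfgIdeal r A) :
    RingHom.ker ((T.slot hL' hd').piece C.residue_p).toRingHom ≤
      C.D.cfgIdeal r (Function.update A i (.st ε)) := by
  have hex := fun n => Stage.exists_wall (S := T.S n) hL hi (T.isAct hd n) (hd n) (T.isAct hd' n)
    (hnew n)
  choose w hw using hex
  let : ∀ n, AddCommGroup (C.V n L) := fun _ => inferInstance
  let : ∀ n, Module O (C.V n L) := fun _ => inferInstance
  let : ∀ n, Module (Diamond O r p n) (C.V n L) := fun _ => inferInstance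
  have : ∀ n, IsScalarTower O (Diamond O r p n) (C.V n L) := fun _ => inferInstance
  let : ∀ n, AddCommGroup (C.V n (some i :: L)) := fun _ => inferInstance
  let : ∀ n, Module O (C.V n (some i :: L)) := fun _ => inferInstance
  let : ∀ n, Module (Diamond O r p n) (C.V n (some i :: L)) := fun _ => inferInstance
  have : ∀ n, IsScalarTower O (Diamond O r p n) (C.V n (some i :: L)) := fun _ => inferInstance
  refine (WallData.ofLin (F := T.F) (M := fun n => C.V n L) (M' := fun n => C.V n (some i :: L))
    (fun n => (C.exists_basis hL).some) (fun n => (C.exists_basis hL').some) (T.act hd) (T.act hd')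
    (hz := T.act_z hd) (hz' := T.act_z hd') i w).raise C.residue_p C.valid hA hAp hAi
    (allowed_wall (hAi ▸ hA i) hε) (C.listed_newCfgs (some i :: L) i)
    (fun B hB => ⟨Ctx.isPlain_of_mem_cfgs (Ctx.mem_newCfgs.mp hB).1, (Ctx.mem_newCfgs.mp hB).2⟩)
    (WallData.kills_ofLin _ _ _ _ (hz := T.act_z hd) (hz' := T.act_z hd') _
      (Eventually.of_forall fun n y hy v => hw n y hy v)) hsupp

variable (T) in
/-- The levels of a chain and their new quotients are detected. -/
def Ready (L₀ : List (Option I)) : List I → Prop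
  | [] => T.Detects L₀
  | i :: ls => Ready L₀ ls ∧ T.Detects (levelAbove L₀ (i :: ls)) ∧
      ∀ hi : some i ∉ levelAbove L₀ ls, T.DetectsNewAt hi

omit [Finite (ResidueField O)] in
omit [DecidableEq I] in
theorem Ready.detects {L₀ : List (Option I)} :
    ∀ {ls : List I}, T.Ready L₀ ls → T.Detects (levelAbove L₀ ls)
  | [], h => h
  | _ :: _, h => h.2.1

/-- The chain of raisings. -/
theorem chain [CharZero O] {L₀ : List (Option I)} (hL₀ : C.Admissible L₀) (hd₀ : T.Detects L₀)
    {A : I → Cfg}
    (hA : ∀ j, C.D.Allowed j (A j)) (hAp : IsPlain A)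
    (hsupp : RingHom.ker ((T.slot hL₀ hd₀).piece C.residue_p).toRingHom ≤ C.D.cfgIdeal r A)
    {cfg : I → Cfg} :
    ∀ {ls : List I} (hnd : ls.Nodup) (hn : ∀ i ∈ ls, some i ∉ L₀)
      (_ : ∀ i ∈ ls, A i = .ur ∧ C.D.Allowed i (cfg i) ∧ ∃ ε, cfg i = .st ε)
      (hr : T.Ready L₀ ls),
      RingHom.ker ((T.slot (admissible_levelAbove hL₀ hnd hn) hr.detects).piece
          C.residue_p).toRingHom ≤
        C.D.cfgIdeal r fun j => if j ∈ ls then cfg j else A j
  | [], hnd, hn, _, hr => by
    rw [show (fun j => if j ∈ ([] : List I) then cfg j else A j) = A from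
      funext fun j => if_neg List.not_mem_nil]
    exact hsupp
  | i :: ls, hnd, hn, hc, hr => by
    obtain ⟨h1, h2⟩ := List.nodup_cons.mp hnd
    obtain ⟨hAi, hci, ε, hε⟩ := hc i List.mem_cons_self
    have hn' : ∀ j ∈ ls, some j ∉ L₀ := fun j hj => hn j (List.mem_cons_of_mem _ hj)
    have hc' : ∀ j ∈ ls, A j = .ur ∧ C.D.Allowed j (cfg j) ∧ ∃ ε, cfg j = .st ε :=
      fun j hj => hc j (List.mem_cons_of_mem _ hj)
    have ih := chain hL₀ hd₀ hA hAp hsupp h2 hn' hc' hr.1
    have hi := some_notMem_levelAbove (hn i List.mem_cons_self) h1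
    have h := T.raise (admissible_levelAbove hL₀ h2 hn') (admissible_levelAbove hL₀ hnd hn) hi
      hr.1.detects hr.2.1 (hr.2.2 hi) (A := fun j => if j ∈ ls then cfg j else A j)
      (fun j => by
        split_ifs with hj
        · exact (hc' j hj).2.1
        · exact hA j)
      (fun j => by
        by_cases hj : j ∈ ls
        · simpa [hj] using Or.inr (hc' j hj).2.2
        · simpa [hj] using hAp j)
      (by rw [if_neg h1]; exact hAi) (hε ▸ hci) ih
    refine h.trans (le_of_eq (congrArg (C.D.cfgIdeal r) (funext fun j => ?_)))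
    rcases eq_or_ne j i with rfl | hj
    · rw [Function.update_self, if_pos List.mem_cons_self, hε]
    · rw [Function.update_of_ne hj]
      simp [hj]

end Chain

variable {rv : ℕ} {T : Tower C rv}

/-- Relations of the base operators act into the augmentation on a slot of a level. -/
theorem slot_relation {L : List (Option I)} (hL : C.Admissible L) (hd : T.Detects L) (n : ℕ)
    (s : MvPolynomial C.J O) (hs : ∀ l ∈ s.vars, ∀ j, C.Q n j ≠ l.1)
    (hs0 : ∀ x ∈ C.V₀ L,
      heckeHom (R := O) (one_dvd (C.base L)) (1 : (ZMod 1)ˣ →* O) O C.pr s x = 0) :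
    ((T.slot hL hd).act n (MvPolynomial.aeval (fun l : C.J => (T.S n).trFrob l.1) s)).map
      (diamondCC O r p n) = 0 := by
  ext a b
  rw [slot_act hL hd n (MvPolynomial.aeval (fun l : C.J => (T.S n).trFrob l.1) s), Matrix.map_apply,
    Matrix.zero_apply]
  exact toMatrix_mem_of_range _ _ ((T.isAct hd n).mem_smul_top_of_base hL s hs hs0) a b

/-- A point on a component of the support gives the system on the base module. -/
theorem hasPointAt {k : ℕ} (N : Engine.Slot T.F p k) {A : I → Cfg}
    (hsupp : RingHom.ker (N.piece C.residue_p).toRingHom ≤ C.D.cfgIdeal rv A)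
    (θ : ∀ n, (T.S n).R →ₐ[O] O) (hz : ∀ n j, θ n ((T.S n).zEl j) = 0)
    (hA : ∀ n, (T.S n).cfgIdeal A ≤ RingHom.ker (θ n).toRingHom)
    (ht : ∀ n (l : C.J), (∀ j, C.Q n j ≠ l.1) → θ n ((T.S n).trFrob l.1) = (C.a (l.1 : ℕ) : O))
    {L : List (Option I)}
    (hN : ∀ n (s : MvPolynomial C.J O), (∀ l ∈ s.vars, ∀ j, C.Q n j ≠ l.1) →
      (∀ x ∈ C.V₀ L,
        heckeHom (R := O) (one_dvd (C.base L)) (1 : (ZMod 1)ˣ →* O) O C.pr s x = 0) →
      (N.act n (MvPolynomial.aeval (fun l : C.J => (T.S n).trFrob l.1) s)).map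
        (diamondCC O r p n) = 0) :
    C.HasPointAt L := by
  intro s hs0
  have hev : ∀ᶠ n in atTop, ∀ l ∈ s.vars, ∀ j, C.Q n j ≠ l.1 :=
    (Filter.eventually_all_finset s.vars).mpr fun l _ => C.eventually_ne l.1
  have h := N.system_of_point C.residue_p θ hsupp
    (Eventually.of_forall fun n => ⟨hz n, hA n⟩)
    (J := Unit)
    ((Algebra.ofId O (Matrix (Fin k) (Fin k) O)).comp (MvPolynomial.aeval fun _ : Unit => (0 : O)))
    (fun _ => MvPolynomial.eval (fun l : C.J => (C.a (l.1 : ℕ) : O)) s)
    (fun n _ => MvPolynomial.aeval (fun l : C.J => (T.S n).trFrob l.1) s)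
    (fun _ => hev.mono fun n hn => ⟨by
      rw [AlgHom.comp_apply, MvPolynomial.aeval_X, map_zero]; exact hN n s hn hs0, ?_⟩)
    (s := MvPolynomial.X ()) (by rw [AlgHom.comp_apply, MvPolynomial.aeval_X, map_zero])
  · rwa [MvPolynomial.eval_X] at h
  · refine (DFunLike.congr_fun
      (MvPolynomial.comp_aeval (fun l : C.J => (T.S n).trFrob l.1) (θ n)) s).trans ?_
    rw [← MvPolynomial.aeval_eq_eval]
    exact MvPolynomial.eval₂Hom_congr' rfl (fun l hl _ => ht n l (hn l hl)) rfl

end Tower

end FermatAgent.RTLift.Setup
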